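import Mathlib
import Fermat.Prelude.Def_AlgebraicCurve_Repartitions
import Fermat.Prelude.Def_AlgebraicCurve_IsCurveOver
import Fermat.Agent.S17.D.Hasse

/-!
# Program PJ (statement S27), strand C: the formal solution through a base tuple (definition)

`PSetup R μ z₀ T` is the profile version of strand D's `D.Setup`.  `R` is a model of the function
field `F / K` (a Dedekind domain with fraction field `F`), `ι` indexes the `g + 1` points of a
base tuple, `T z` is the place of the `z`-th point (a prime `w z` of the model), `μ z` its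
multiplicity and `z₀` the parameter point.  The constant divisor is the base tuple itself,
`B = ∑ z, μ z • T z`; `v j` is a basis of `L(B)` with `v 0 = 1`, `b₁` a multiplier
of order exactly `μ z` at `T z`, `r j = b₁ * v j` the numerators, `τ z` the Taylor map at `T z`
(`τ z (π z) = X`).  The formal solution `(c, u)`: `c 0 = 1`, the other `c j` have no constant
term, `u z` has no constant term, `u z₀ = X` (the parameter), and the function `∑ c j • v j`
vanishes to order `μ z` at the moving point `X ↦ u z` of the `z`-th branch (`jets`, in Hasse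
form).  At `X = 0` this is the base tuple with the constant function `1`.
-/

set_option autoImplicit false

open AlgebraicCurve IsDedekindDomain

namespace Fermat.Agent.S27.C

/-- The formal solution through a base tuple with multiplicity profile `μ` and parameter point
`z₀` (see the header). -/
structure PSetup {K F : Type*} [Field K] [Field F] [Algebra K F] (R : Type*) [CommRing R]
    [IsDedekindDomain R] [Algebra R F] [IsFractionRing R F] [Algebra K R] [IsScalarTower K R F]
    {ι : Type} [Fintype ι] (μ : ι → ℕ) (z₀ : ι) (T : ι → Place K F) where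
  m : ℕ
  w : ι → HeightOneSpectrum R
  w_spec : ∀ z, Place.ofHeightOneSpectrum (K := K) (F := F) (w z) = T z
  v : Fin (m + 1) → F
  v_zero : v 0 = 1
  v_indep : LinearIndependent K v
  v_mem : ∀ j, v j ∈ riemannRochSpace (∑ z, (μ z : ℤ) • Finsupp.single (T z) (1 : ℤ))
  v_span : ∀ f ∈ riemannRochSpace (∑ z, (μ z : ℤ) • Finsupp.single (T z) (1 : ℤ)),
    f ∈ Submodule.span K (Set.range v)
  b₁ : R
  b₁_ne : b₁ ≠ 0
  ord_b₁ : ∀ z, (T z).ord (algebraMap R F b₁) = μ z
  r : Fin (m + 1) → R
  r_spec : ∀ j, algebraMap R F (r j) = algebraMap R F b₁ * v j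
  π : ι → R
  τ : ι → (R →ₐ[K] PowerSeries K)
  τ_π : ∀ z, τ z (π z) = PowerSeries.X
  τ_dvd : ∀ z (b : R) (d : ℕ), b ≠ 0 → (PowerSeries.X ^ d ∣ τ z b ↔
    (d : ℤ) ≤ (T z).ord (algebraMap R F b))
  c : Fin (m + 1) → PowerSeries K
  c_zero : c 0 = 1
  c_const : ∀ j, j ≠ 0 → PowerSeries.constantCoeff (c j) = 0
  u : ι → PowerSeries K
  u_zero : ∀ z, PowerSeries.constantCoeff (u z) = 0
  u_param : u z₀ = PowerSeries.X
  jets : ∀ z, ∀ i < μ z, ∑ j, c j * (Fermat.Agent.S17.D.hasse i (τ z (r j))).subst (u z) = 0

end Fermat.Agent.S27.C
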