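import Mathlib
import Fermat.Agent.S27.C.PSetup
import Fermat.Agent.S17.HB.CarRho
import Fermat.Agent.S17.HB.LaurentDer
import Fermat.Agent.S17.HB.Loc3

/-!
# Program PJ (statement S27), strand C: the moving embeddings of a formal solution

For a formal solution `s : PSetup R μ z₀ T` and a point `z` this file builds, inside the Laurent
series `K⸨X⸩` (strand HB's `CarRho` / `CarJets` for a multiplicity profile):

* `tauT s z : F →ₐ[K] K⸨X⸩`, the Laurent expansion at the base place `T z`;
* `rho s z hu : F →ₐ[K] K⸨X⸩` (`hu : s.u z ≠ 0`), the moving point: the expansion followed by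
  `X ↦ s.u z`; `rho_param` : at the parameter point it is the expansion itself;
* `rho_eq_of_tauT_eq`, `order_rho` (the order of `rho s z f` is the order of `f` at `T z` when
  the point moves to first order);
* `IsDX`, `tauT_iterate`, `rho_iterate`, `jets` (the jet equations for a derivation `h • δ'`
  and the functions `v j`), `lead` (the `μ z`-th jet does not vanish).
-/

set_option autoImplicit false

namespace Fermat.Agent.S27.C.PRho

open AlgebraicCurve IsDedekindDomain PowerSeries
open Fermat.Agent.S17.D (hasse)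
open Fermat.Agent.S17.D.SpecJets (ofPS ofPS_apply constantCoeff_subst_eq)
open Fermat.Agent.S17.HB.CarRho (hasSubst_of_zero subst_ne_zero substHom substHom_apply)
open Fermat.Agent.S17.HB

variable {K F : Type*} [Field K] [Field F] [Algebra K F]
variable {R : Type*} [CommRing R] [IsDedekindDomain R] [Algebra R F] [IsFractionRing R F]
  [Algebra K R] [IsScalarTower K R F]
variable {ι : Type} [Fintype ι] {μ : ι → ℕ} {z₀ : ι} {T : ι → Place K F}

/-- The Taylor maps of a formal solution are injective. -/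
theorem τ_ne_zero (s : PSetup (K := K) (F := F) R μ z₀ T) (z : ι) {b : R} (hb : b ≠ 0) :
    s.τ z b ≠ 0 := by
  intro h0
  have h1 := (s.τ_dvd z b ((T z).ord (algebraMap R F b)).toNat.succ hb).mp
    (by rw [h0]; exact dvd_zero _)
  have h2 := Int.self_le_toNat ((T z).ord (algebraMap R F b))
  push_cast at h1
  omega

/-- The expansion at the base place `T z`, on the model. -/
noncomputable def tauR (s : PSetup (K := K) (F := F) R μ z₀ T) (z : ι) :
    R →ₐ[K] LaurentSeries K :=
  (ofPS (K := K)).comp (s.τ z)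

theorem tauR_apply (s : PSetup (K := K) (F := F) R μ z₀ T) (z : ι) (b : R) :
    tauR s z b = HahnSeries.ofPowerSeries ℤ K (s.τ z b) := rfl

theorem tauR_injective (s : PSetup (K := K) (F := F) R μ z₀ T) (z : ι) :
    Function.Injective (tauR s z) := by
  rw [injective_iff_map_eq_zero]
  intro b hb
  by_contra hb0
  rw [tauR_apply] at hb
  exact τ_ne_zero s z hb0 (HahnSeries.ofPowerSeries_injective (hb.trans (map_zero _).symm))

/-- The Laurent expansion at the base place `T z`, on the function field. -/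
noncomputable def tauT (s : PSetup (K := K) (F := F) R μ z₀ T) (z : ι) :
    F →ₐ[K] LaurentSeries K :=
  IsFractionRing.liftAlgHom (g := tauR s z) (tauR_injective s z)

theorem tauT_algebraMap (s : PSetup (K := K) (F := F) R μ z₀ T) (z : ι) (b : R) :
    tauT s z (algebraMap R F b) = HahnSeries.ofPowerSeries ℤ K (s.τ z b) := by
  rw [tauT, IsFractionRing.liftAlgHom_apply, IsFractionRing.lift_algebraMap]
  rfl

/-- The moving point, on the model. -/
noncomputable def rhoR (s : PSetup (K := K) (F := F) R μ z₀ T) (z : ι) :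
    R →ₐ[K] LaurentSeries K :=
  (ofPS (K := K)).comp ((substHom (s.u z) (s.u_zero z)).comp (s.τ z))

theorem rhoR_apply (s : PSetup (K := K) (F := F) R μ z₀ T) (z : ι) (b : R) :
    rhoR s z b = HahnSeries.ofPowerSeries ℤ K ((s.τ z b).subst (s.u z)) := by
  show ofPS (substHom (s.u z) (s.u_zero z) (s.τ z b)) = _
  rw [substHom_apply, ofPS_apply]

theorem rhoR_injective (s : PSetup (K := K) (F := F) R μ z₀ T) (z : ι) (hu : s.u z ≠ 0) :
    Function.Injective (rhoR s z) := by
  rw [injective_iff_map_eq_zero]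
  intro b hb
  by_contra hb0
  rw [rhoR_apply] at hb
  exact subst_ne_zero (s.u_zero z) hu (τ_ne_zero s z hb0)
    (HahnSeries.ofPowerSeries_injective (hb.trans (map_zero _).symm))

/-- The moving point: the expansion at the base place followed by `X ↦ u z`. -/
noncomputable def rho (s : PSetup (K := K) (F := F) R μ z₀ T) (z : ι) (hu : s.u z ≠ 0) :
    F →ₐ[K] LaurentSeries K :=
  IsFractionRing.liftAlgHom (g := rhoR s z) (rhoR_injective s z hu)

theorem rho_algebraMap (s : PSetup (K := K) (F := F) R μ z₀ T) (z : ι) (hu : s.u z ≠ 0)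
    (b : R) :
    rho s z hu (algebraMap R F b) = HahnSeries.ofPowerSeries ℤ K ((s.τ z b).subst (s.u z)) := by
  rw [rho, IsFractionRing.liftAlgHom_apply, IsFractionRing.lift_algebraMap]
  exact rhoR_apply s z b

/-- If the expansion of `f` at the base place is a power series `p`, the moving point takes `f`
to `p (u z)`. -/
theorem rho_eq_of_tauT_eq (s : PSetup (K := K) (F := F) R μ z₀ T) (z : ι) (hu : s.u z ≠ 0)
    (f : F) (p : PowerSeries K) (h : tauT s z f = HahnSeries.ofPowerSeries ℤ K p) :
    rho s z hu f = HahnSeries.ofPowerSeries ℤ K (p.subst (s.u z)) := by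
  obtain ⟨a, b, hb, rfl⟩ := IsFractionRing.div_surjective (A := R) f
  have hb0 : algebraMap R F b ≠ 0 :=
    (map_ne_zero_iff _ (IsFractionRing.injective R F)).mpr (nonZeroDivisors.ne_zero hb)
  have hs := hasSubst_of_zero (s.u_zero z)
  have h1 : s.τ z a = p * s.τ z b := by
    apply HahnSeries.ofPowerSeries_injective (Γ := ℤ)
    rw [(HahnSeries.ofPowerSeries ℤ K).map_mul, ← h, ← tauT_algebraMap, ← tauT_algebraMap,
      ← map_mul, div_mul_cancel₀ _ hb0]
  have h2 : rho s z hu (algebraMap R F b) ≠ 0 :=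
    (map_ne_zero_iff _ (rho s z hu).toRingHom.injective).mpr hb0
  rw [map_div₀, div_eq_iff h2, rho_algebraMap, rho_algebraMap, h1, subst_mul hs,
    (HahnSeries.ofPowerSeries ℤ K).map_mul]

/-- At the parameter point the moving point is the expansion itself. -/
theorem rho_param (s : PSetup (K := K) (F := F) R μ z₀ T) (hu : s.u z₀ ≠ 0) :
    rho s z₀ hu = tauT s z₀ := by
  apply AlgHom.coe_ringHom_injective
  apply IsLocalization.ringHom_ext (nonZeroDivisors R)
  refine RingHom.ext fun b => ?_
  show rho s z₀ hu (algebraMap R F b) = tauT s z₀ (algebraMap R F b)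
  rw [rho_algebraMap, tauT_algebraMap, s.u_param, PowerSeries.X_subst]

theorem u_param_ne_zero (s : PSetup (K := K) (F := F) R μ z₀ T) : s.u z₀ ≠ 0 := by
  rw [s.u_param]
  exact PowerSeries.X_ne_zero

/-! ### Orders -/

/-- The order of the moving point on a function is its order at the base place, when the point
moves to first order. -/
theorem order_rho_algebraMap (s : PSetup (K := K) (F := F) R μ z₀ T) (z : ι) (hu : s.u z ≠ 0)
    (h1 : PowerSeries.coeff 1 (s.u z) ≠ 0) {b : R} (hb : b ≠ 0) :
    (rho s z hu (algebraMap R F b)).order = (T z).ord (algebraMap R F b) := by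
  have hs := hasSubst_of_zero (s.u_zero z)
  have h0 : (0 : ℤ) ≤ (T z).ord (algebraMap R F b) := by
    have := (s.τ_dvd z b 0 hb).mp (by rw [pow_zero]; exact one_dvd _)
    simpa using this
  obtain ⟨d, hd⟩ := Int.eq_ofNat_of_zero_le h0
  have hdvd : (X : PowerSeries K) ^ d ∣ s.τ z b := (s.τ_dvd z b d hb).mpr (by rw [hd])
  have hndvd : ¬ (X : PowerSeries K) ^ (d + 1) ∣ s.τ z b := by
    intro h
    have := (s.τ_dvd z b (d + 1) hb).mp h
    rw [hd] at this
    push_cast at this
    omega
  obtain ⟨q, hq⟩ := hdvd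
  have hq0 : constantCoeff q ≠ 0 := by
    intro h
    apply hndvd
    obtain ⟨q', hq'⟩ := X_dvd_iff.mpr h
    exact ⟨q', by rw [hq, hq', pow_succ]; ring⟩
  have hqs : constantCoeff (q.subst (s.u z)) ≠ 0 := by
    rw [constantCoeff_subst_eq _ _ (s.u_zero z)]
    exact hq0
  have hqs0 : q.subst (s.u z) ≠ 0 := fun h => hqs (by rw [h, map_zero])
  have ho1 : (HahnSeries.ofPowerSeries ℤ K (s.u z)).order = 1 := by
    rw [Fermat.Agent.S17.D.TaylorL.order_ofPowerSeries _ hu]
    have : (s.u z).order = 1 := by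
      rw [show (1 : ℕ∞) = ((1 : ℕ) : ℕ∞) from rfl, PowerSeries.order_eq_nat]
      refine ⟨h1, fun i hi => ?_⟩
      have hi0 : i = 0 := by omega
      rw [hi0, PowerSeries.coeff_zero_eq_constantCoeff_apply]
      exact s.u_zero z
    rw [this]
    rfl
  have ho2 : (HahnSeries.ofPowerSeries ℤ K (q.subst (s.u z))).order = 0 := by
    rw [Fermat.Agent.S17.D.TaylorL.order_ofPowerSeries _ hqs0]
    have : PowerSeries.order (q.subst (s.u z)) = 0 := by
      rw [show (0 : ℕ∞) = ((0 : ℕ) : ℕ∞) from rfl, PowerSeries.order_eq_nat]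
      refine ⟨by rw [PowerSeries.coeff_zero_eq_constantCoeff_apply]; exact hqs, fun i hi => ?_⟩
      omega
    rw [this]
    rfl
  have hune : HahnSeries.ofPowerSeries ℤ K (s.u z) ≠ 0 :=
    Fermat.Agent.S17.D.TaylorL.ofPowerSeries_ne_zero hu
  have hqne : HahnSeries.ofPowerSeries ℤ K (q.subst (s.u z)) ≠ 0 :=
    Fermat.Agent.S17.D.TaylorL.ofPowerSeries_ne_zero hqs0
  rw [rho_algebraMap, hq, subst_mul hs, subst_pow hs, subst_X hs,
    (HahnSeries.ofPowerSeries ℤ K).map_mul, map_pow,
    HahnSeries.order_mul (pow_ne_zero _ hune) hqne, HahnSeries.order_pow, ho1, ho2, hd]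
  simp

theorem order_rho (s : PSetup (K := K) (F := F) R μ z₀ T) (z : ι) (hu : s.u z ≠ 0)
    (h1 : PowerSeries.coeff 1 (s.u z) ≠ 0) {f : F} (hf : f ≠ 0) :
    (rho s z hu f).order = (T z).ord f := by
  obtain ⟨a, b, hb, rfl⟩ := IsFractionRing.div_surjective (A := R) f
  have hb0 : b ≠ 0 := nonZeroDivisors.ne_zero hb
  have hb0' : algebraMap R F b ≠ 0 :=
    (map_ne_zero_iff _ (IsFractionRing.injective R F)).mpr hb0
  have ha0' : algebraMap R F a ≠ 0 := by
    intro h
    rw [h, zero_div] at hf
    exact hf rfl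
  have ha0 : a ≠ 0 := by
    rintro rfl
    exact ha0' (map_zero _)
  have hx : rho s z hu (algebraMap R F a / algebraMap R F b) ≠ 0 :=
    (map_ne_zero_iff _ (rho s z hu).toRingHom.injective).mpr hf
  have hy : rho s z hu (algebraMap R F b) ≠ 0 :=
    (map_ne_zero_iff _ (rho s z hu).toRingHom.injective).mpr hb0'
  have hmul : rho s z hu (algebraMap R F a / algebraMap R F b) * rho s z hu (algebraMap R F b)
      = rho s z hu (algebraMap R F a) := by
    rw [← map_mul, div_mul_cancel₀ _ hb0']
  have h2 := HahnSeries.order_mul hx hy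
  rw [hmul, order_rho_algebraMap s z hu h1 ha0, order_rho_algebraMap s z hu h1 hb0] at h2
  rw [div_eq_mul_inv, Place.ord_mul _ ha0' (inv_ne_zero hb0'), Place.ord_inv]
  rw [div_eq_mul_inv] at h2
  omega

/-! ### Jets -/

/-- `δ'` is `d/dX` in the expansion at the base place `T z`. -/
def IsDX (s : PSetup (K := K) (F := F) R μ z₀ T) (z : ι) (δ' : Derivation K F F) : Prop :=
  ∀ f : F, tauT s z (δ' f) = LaurentSeries.derivative K (tauT s z f)

theorem tauT_unif (s : PSetup (K := K) (F := F) R μ z₀ T) (z : ι) :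
    tauT s z (algebraMap R F (s.π z)) = HahnSeries.ofPowerSeries ℤ K PowerSeries.X := by
  rw [tauT_algebraMap, s.τ_π]

theorem derivative_tauT_unif (s : PSetup (K := K) (F := F) R μ z₀ T) (z : ι) :
    LaurentSeries.derivative K (tauT s z (algebraMap R F (s.π z))) = 1 := by
  rw [tauT_unif, LaurentDer.derivative_ofPowerSeries, PowerSeries.derivative_X, map_one]

/-- The chain rule at the uniformiser `π z` gives `IsDX` for a derivation with `δ' (π z) = 1`. -/
theorem isDX_of_chain (s : PSetup (K := K) (F := F) R μ z₀ T) (z : ι)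
    (δ' : Derivation K F F) (h1 : δ' (algebraMap R F (s.π z)) = 1)
    (hchain : ∀ f : F, tauT s z (δ' f) *
        LaurentSeries.derivative K (tauT s z (algebraMap R F (s.π z))) =
      tauT s z (δ' (algebraMap R F (s.π z))) * LaurentSeries.derivative K (tauT s z f)) :
    IsDX s z δ' := by
  intro f
  have h := hchain f
  rwa [derivative_tauT_unif, mul_one, h1, map_one, one_mul] at h

/-- The expansion of the iterated derivative of an element of the model. -/
theorem tauT_iterate (s : PSetup (K := K) (F := F) R μ z₀ T) (z : ι)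
    (δ' : Derivation K F F) (hδ' : IsDX s z δ') (i : ℕ) (b : R) :
    tauT s z ((⇑δ')^[i] (algebraMap R F b)) =
      HahnSeries.ofPowerSeries ℤ K (((i.factorial : ℕ) : K) • hasse i (s.τ z b)) := by
  induction i with
  | zero =>
    rw [Function.iterate_zero, id_eq, tauT_algebraMap, Fermat.Agent.S17.D.hasse_zero,
      Nat.factorial_zero, Nat.cast_one, one_smul]
  | succ i ih =>
    rw [Function.iterate_succ_apply', hδ', ih, LaurentDer.derivative_ofPowerSeries,
      Derivation.map_smul, Loc3.derivative_eq_hasse_one, Fermat.Agent.S17.D.hasse_one_hasse,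
      smul_smul, Nat.factorial_succ]
    congr 2
    push_cast
    ring

/-- The moving point on the iterated derivative of an element of the model. -/
theorem rho_iterate (s : PSetup (K := K) (F := F) R μ z₀ T) (z : ι) (hu : s.u z ≠ 0)
    (δ' : Derivation K F F) (hδ' : IsDX s z δ') (i : ℕ) (b : R) :
    rho s z hu ((⇑δ')^[i] (algebraMap R F b)) =
      HahnSeries.ofPowerSeries ℤ K (PowerSeries.C ((i.factorial : ℕ) : K)) *
        HahnSeries.ofPowerSeries ℤ K ((hasse i (s.τ z b)).subst (s.u z)) := by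
  have hs := hasSubst_of_zero (s.u_zero z)
  rw [rho_eq_of_tauT_eq s z hu _ _ (tauT_iterate s z δ' hδ' i b), ← map_mul]
  congr 1
  rw [PowerSeries.smul_eq_C_mul, PowerSeries.subst_mul hs, PowerSeries.subst_C]
  rfl

theorem jets_term (s : PSetup (K := K) (F := F) R μ z₀ T) (z : ι) (hu : s.u z ≠ 0)
    (δ' : Derivation K F F) (hδ' : IsDX s z δ') (i : ℕ) (j : Fin (s.m + 1)) :
    HahnSeries.ofPowerSeries ℤ K (s.c j) * rho s z hu ((⇑δ')^[i] (algebraMap R F (s.r j))) =
      HahnSeries.ofPowerSeries ℤ K (PowerSeries.C ((i.factorial : ℕ) : K)) *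
        HahnSeries.ofPowerSeries ℤ K (s.c j * (hasse i (s.τ z (s.r j))).subst (s.u z)) := by
  rw [rho_iterate s z hu δ' hδ', (HahnSeries.ofPowerSeries ℤ K).map_mul (s.c j)]
  ring

/-- The jet equations of the formal solution through `δ'`, on the numerators. -/
theorem jets_prime (s : PSetup (K := K) (F := F) R μ z₀ T) (z : ι) (hu : s.u z ≠ 0)
    (δ' : Derivation K F F) (hδ' : IsDX s z δ') (i : ℕ) (hi : i < μ z) :
    ∑ j, HahnSeries.ofPowerSeries ℤ K (s.c j) *
      rho s z hu ((⇑δ')^[i] (algebraMap R F (s.r j))) = 0 := by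
  simp only [jets_term s z hu δ' hδ']
  rw [← Finset.mul_sum, ← map_sum, s.jets z i hi, map_zero, mul_zero]

/-- **The jet equations** for a derivation `h • δ'` and the functions `v j`. -/
theorem jets (s : PSetup (K := K) (F := F) R μ z₀ T) (z : ι) (hu : s.u z ≠ 0)
    (δ' : Derivation K F F) (hδ' : IsDX s z δ') (h : F) (i : ℕ) (hi : i < μ z) :
    ∑ j, HahnSeries.ofPowerSeries ℤ K (s.c j) *
      rho s z hu ((⇑(h • δ'))^[i] (s.v j)) = 0 := by
  have hb : algebraMap R F s.b₁ ≠ 0 :=
    (map_ne_zero_iff _ (IsFractionRing.injective R F)).mpr s.b₁_ne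
  refine Loc3.van_smul (rho s z hu) δ' h (fun j => HahnSeries.ofPowerSeries ℤ K (s.c j)) i s.v
    fun l hl => ?_
  have h1 := Loc3.van_mul (rho s z hu) δ' (fun j => HahnSeries.ofPowerSeries ℤ K (s.c j)) l
    (fun j => algebraMap R F (s.r j)) (algebraMap R F s.b₁)⁻¹ (fun l' hl' => by
      exact jets_prime s z hu δ' hδ' l' (by omega))
  have h2 : ∀ j, (algebraMap R F s.b₁)⁻¹ * algebraMap R F (s.r j) = s.v j := by
    intro j
    rw [s.r_spec, inv_mul_cancel_left₀ hb]
  simpa only [h2] using h1

/-- The numerator of `v 0 = 1` is the multiplier. -/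
theorem r_zero (s : PSetup (K := K) (F := F) R μ z₀ T) : s.r 0 = s.b₁ := by
  apply IsFractionRing.injective R F
  rw [s.r_spec, s.v_zero, mul_one]

/-- The `μ z`-th Taylor coefficient of the multiplier at a base place does not vanish. -/
theorem coeff_τ_b₁_ne_zero (s : PSetup (K := K) (F := F) R μ z₀ T) (z : ι) :
    PowerSeries.coeff (μ z) (s.τ z s.b₁) ≠ 0 := by
  intro h0
  have h1 : (PowerSeries.X : PowerSeries K) ^ (μ z) ∣ s.τ z s.b₁ :=
    (s.τ_dvd z s.b₁ (μ z) s.b₁_ne).mpr (by rw [s.ord_b₁])
  have h2 : (PowerSeries.X : PowerSeries K) ^ (μ z + 1) ∣ s.τ z s.b₁ := by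
    rw [PowerSeries.X_pow_dvd_iff] at h1 ⊢
    intro m hm
    rcases Nat.lt_succ_iff_lt_or_eq.mp hm with h | h
    · exact h1 m h
    · rw [h]
      exact h0
  have h3 := (s.τ_dvd z s.b₁ (μ z + 1) s.b₁_ne).mp h2
  rw [s.ord_b₁] at h3
  push_cast at h3
  omega

/-- **The leading coefficient**: the `μ z`-th jet of the numerators does not vanish. -/
theorem lead [CharZero K] (s : PSetup (K := K) (F := F) R μ z₀ T) (z : ι) (hu : s.u z ≠ 0)
    (δ' : Derivation K F F) (hδ' : IsDX s z δ') :
    ∑ j, HahnSeries.ofPowerSeries ℤ K (s.c j) *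
      rho s z hu ((⇑δ')^[μ z] (algebraMap R F (s.r j))) ≠ 0 := by
  simp only [jets_term s z hu δ' hδ']
  rw [← Finset.mul_sum, ← map_sum, ← map_mul]
  intro h0
  have h2 := congrArg PowerSeries.constantCoeff
    (HahnSeries.ofPowerSeries_injective (h0.trans (map_zero _).symm))
  rw [map_mul, PowerSeries.constantCoeff_C, map_sum, map_zero,
    Finset.sum_eq_single (0 : Fin (s.m + 1))] at h2
  · rw [map_mul, s.c_zero, map_one, one_mul, constantCoeff_subst_eq _ _ (s.u_zero z),
      Fermat.Agent.S17.D.constantCoeff_hasse, r_zero] at h2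
    rcases mul_eq_zero.mp h2 with h | h
    · exact Nat.factorial_ne_zero (μ z) (Nat.cast_eq_zero.mp h)
    · exact coeff_τ_b₁_ne_zero s z h
  · intro j _ hj
    rw [map_mul, s.c_const j hj, zero_mul]
  · intro h
    exact absurd (Finset.mem_univ _) h

end Fermat.Agent.S27.C.PRho
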