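import Mathlib
import Fermat.Agent.S27.C.PSetup
import Fermat.Agent.S17.HB.Loc3

/-!
# Program PJ (statement S27), strand C: the Taylor maps of a formal solution are `tay`

For a formal solution `s : PSetup R μ z₀ T` the abstract Taylor map `s.τ z : R →ₐ[K] K⟦X⟧` of the
model at the base place `T z` is the Taylor expansion `S17.HB.Loc3.tay` at `T z` with respect to
the uniformiser `s.π z`:

* `π_ne_zero`, `ord_π` : `s.π z` is a uniformiser at `T z`;
* `algebraMap_mem` : the model lies in the local ring of `T z`;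
* `toO` : the model inside the local ring, as a `K`-algebra map;
* `τ_eq_tay` : `s.τ z b = tay htr (T z) (s.π z) _ b` for `b` in the model.

This is the bridge between the local series of LOC (`L.loc1_hyps`, typed with `tay`) and the jet
equations of a `PSetup` (typed with `s.τ z`), used for the uniqueness of configurations.
-/

set_option autoImplicit false

open AlgebraicCurve IsDedekindDomain

namespace Fermat.Agent.S27.C.TauTay

open Fermat.Agent.S17 Fermat.Agent.S17.HB

variable {K F : Type*} [Field K] [Field F] [Algebra K F]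
variable {R : Type*} [CommRing R] [IsDedekindDomain R] [Algebra R F] [IsFractionRing R F]
  [Algebra K R] [IsScalarTower K R F]
variable {ι : Type} [Fintype ι] {μ : ι → ℕ} {z₀ : ι} {T : ι → Place K F}

theorem π_ne_zero (s : PSetup (K := K) (F := F) R μ z₀ T) (z : ι) : s.π z ≠ 0 := by
  intro h
  have h1 := s.τ_π z
  rw [h, map_zero] at h1
  exact PowerSeries.X_ne_zero h1.symm

/-- `s.π z` is a uniformiser at `T z`. -/
theorem ord_π (s : PSetup (K := K) (F := F) R μ z₀ T) (z : ι) :
    (T z).ord (algebraMap R F (s.π z)) = 1 := by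
  have h1 := (s.τ_dvd z (s.π z) 1 (π_ne_zero s z)).mp (by rw [s.τ_π z, pow_one])
  have h2 : ¬ ((2 : ℕ) : ℤ) ≤ (T z).ord (algebraMap R F (s.π z)) := by
    intro h
    have h3 := (s.τ_dvd z (s.π z) 2 (π_ne_zero s z)).mpr h
    rw [s.τ_π z, PowerSeries.X_pow_dvd_iff] at h3
    have h4 := h3 1 (by norm_num)
    rw [PowerSeries.coeff_one_X] at h4
    exact one_ne_zero h4
  push_cast at h1 h2
  omega

omit [IsDedekindDomain R] [Algebra K R] [IsScalarTower K R F] in
theorem algebraMap_ne_zero {b : R} (hb : b ≠ 0) : algebraMap R F b ≠ 0 := fun h =>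
  hb (IsFractionRing.injective R F (h.trans (map_zero _).symm))

/-- The model lies in the local ring of `T z`. -/
theorem algebraMap_mem (s : PSetup (K := K) (F := F) R μ z₀ T) (z : ι) (b : R) :
    algebraMap R F b ∈ (T z).toValuationSubring := by
  rcases eq_or_ne b 0 with rfl | hb
  · rw [map_zero]
    exact zero_mem _
  · have h := (s.τ_dvd z b 0 hb).mp (by rw [pow_zero]; exact one_dvd _)
    refine (Fermat.Agent.S24.FF.ord_nonneg_iff (T z) (algebraMap_ne_zero hb)).mp ?_
    exact_mod_cast h

/-- The model inside the local ring of `T z`. -/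
noncomputable def toO (s : PSetup (K := K) (F := F) R μ z₀ T) (z : ι) :
    R →ₐ[K] ↥(T z).toValuationSubring where
  toFun b := ⟨algebraMap R F b, algebraMap_mem s z b⟩
  map_one' := Subtype.ext (map_one _)
  map_mul' a b := Subtype.ext (map_mul _ a b)
  map_zero' := Subtype.ext (map_zero _)
  map_add' a b := Subtype.ext (map_add _ a b)
  commutes' c := Subtype.ext (IsScalarTower.algebraMap_apply K R F c).symm

omit [IsDedekindDomain R] [Algebra R F] [IsFractionRing R F] [IsScalarTower K R F] in
/-- A `K`-algebra map to power series sending `p` to `X` maps a polynomial in `p` to the same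
polynomial in `X`. -/
theorem map_poly (φ : R →ₐ[K] PowerSeries K) (p : R) (hφ : φ p = PowerSeries.X) (N : ℕ)
    (a : ℕ → K) :
    φ (∑ i ∈ Finset.range N, algebraMap K R (a i) * p ^ i) =
      ∑ i ∈ Finset.range N, PowerSeries.C (a i) * PowerSeries.X ^ i := by
  rw [map_sum]
  refine Finset.sum_congr rfl fun i _ => ?_
  rw [map_mul, map_pow, AlgHom.commutes, hφ, PowerSeries.algebraMap_apply]
  rfl

omit [Field F] [Algebra K F] in
/-- The polynomial part of a power series. -/
theorem X_pow_dvd_sub_poly (φ : PowerSeries K) (N : ℕ) :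
    (PowerSeries.X : PowerSeries K) ^ N ∣
      φ - ∑ i ∈ Finset.range N, PowerSeries.C (PowerSeries.coeff i φ) * PowerSeries.X ^ i := by
  classical
  rw [PowerSeries.X_pow_dvd_iff]
  intro m hm
  rw [map_sub, map_sum]
  have h1 : ∑ i ∈ Finset.range N, PowerSeries.coeff m
      (PowerSeries.C (PowerSeries.coeff i φ) * PowerSeries.X ^ i) = PowerSeries.coeff m φ := by
    have h2 : ∀ i ∈ Finset.range N, PowerSeries.coeff m
        (PowerSeries.C (PowerSeries.coeff i φ) * PowerSeries.X ^ i) =
        if m = i then PowerSeries.coeff i φ else 0 := fun i _ =>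
      PowerSeries.coeff_C_mul_X_pow _ _ _
    rw [Finset.sum_congr rfl h2, Finset.sum_ite_eq, if_pos (Finset.mem_range.mpr hm)]
  rw [h1, sub_self]

section Curve

variable [IsAlgClosed K] [CharZero K] [Algebra.EssFiniteType K F]

/-- **The Taylor map of a formal solution is the Taylor expansion at the base place.** -/
theorem τ_eq_tay (htr : Algebra.trdeg K F = 1) (s : PSetup (K := K) (F := F) R μ z₀ T) (z : ι)
    (b : R) :
    s.τ z b = Loc3.tay htr (T z) (algebraMap R F (s.π z)) (ord_π s z) (algebraMap R F b) := by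
  let θ : R →ₐ[K] PowerSeries K :=
    (Fermat.Agent.S17.R.taylor htr (T z) (algebraMap R F (s.π z)) (ord_π s z)).comp (toO s z)
  have hθb : ∀ b : R, Loc3.tay htr (T z) (algebraMap R F (s.π z)) (ord_π s z)
      (algebraMap R F b) = θ b := fun b =>
    Loc3.tay_of_mem htr (T z) _ (ord_π s z) (algebraMap_mem s z b)
  have hθπ : θ (s.π z) = PowerSeries.X := by
    rw [← hθb]
    exact Loc3.tay_unif htr (T z) _ (ord_π s z)
  rw [hθb]
  have key : ∀ N : ℕ, (PowerSeries.X : PowerSeries K) ^ N ∣ s.τ z b - θ b := by
    intro N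
    have hτP := map_poly (s.τ z) (s.π z) (s.τ_π z) N (fun i => PowerSeries.coeff i (θ b))
    have hθP := map_poly θ (s.π z) hθπ N (fun i => PowerSeries.coeff i (θ b))
    have hdvd := X_pow_dvd_sub_poly (θ b) N
    by_cases hbP : b - ∑ i ∈ Finset.range N,
        algebraMap K R (PowerSeries.coeff i (θ b)) * s.π z ^ i = 0
    · have hb : b = ∑ i ∈ Finset.range N,
          algebraMap K R (PowerSeries.coeff i (θ b)) * s.π z ^ i := sub_eq_zero.mp hbP
      have h0 : s.τ z b - θ b = 0 := by
        conv_lhs => rw [hb]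
        rw [hτP, hθP, sub_self]
      rw [h0]
      exact dvd_zero _
    · have h1 : (PowerSeries.X : PowerSeries K) ^ N ∣ θ (b - ∑ i ∈ Finset.range N,
          algebraMap K R (PowerSeries.coeff i (θ b)) * s.π z ^ i) := by
        rw [map_sub, hθP]
        exact hdvd
      rw [← hθb, Loc3.X_pow_dvd_tay_iff htr (T z) _ (ord_π s z) (algebraMap_mem s z _)] at h1
      have h2 : (N : ℤ) ≤ (T z).ord (algebraMap R F (b - ∑ i ∈ Finset.range N,
          algebraMap K R (PowerSeries.coeff i (θ b)) * s.π z ^ i)) :=
        h1.resolve_left (algebraMap_ne_zero hbP)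
      have h3 := (s.τ_dvd z _ N hbP).mpr h2
      rw [map_sub, hτP] at h3
      have h4 := dvd_sub h3 hdvd
      rwa [sub_sub_sub_cancel_right] at h4
  rw [← sub_eq_zero]
  ext m
  have h1 := (PowerSeries.X_pow_dvd_iff.mp (key (m + 1))) m (Nat.lt_succ_self m)
  simpa using h1

end Curve

end Fermat.Agent.S27.C.TauTay
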