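import Mathlib
import Fermat.Agent.S27.C.PRho
import Fermat.Agent.S27.C.TauTay
import Fermat.Agent.S17.HB.CarChain
import Fermat.Agent.S17.HB.CarDer

/-!
# Program PJ (statement S27), strand C, leaf DX: the derivation `d/dX` at a base place

For a formal solution `s : PSetup R μ z₀ T`, a point `z` and a non-zero `K`-derivation `δ` of
the function field `F`:

* `δ_π_ne_zero` : `δ` does not kill the uniformiser `s.π z` of the model at `T z`;
* `dX s z δ` : the derivation `(δ (π z))⁻¹ • δ`; `dX_π` : it takes `π z` to `1`;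
* `isDX_dX` : it is `d/dX` in the expansion at the base place, `PRho.IsDX s z (dX s z δ)`
  (the chain rule `S17/HB/CarChain.derivation_chain` for the embedding `PRho.tauT s z`);
* `smul_dX` : `δ = δ (π z) • dX s z δ`; `dX_ne_zero`;
* `jets_delta` : the jet equations of the moving point `PRho.rho s z` THROUGH `δ` on the
  functions `s.v j` (the field `jets` of `S27/L/Defs.Data`, before the corestriction to the
  carrier field);
* `exists_isDX` : existential form.
-/

set_option autoImplicit false

open AlgebraicCurve IsDedekindDomain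

namespace Fermat.Agent.S27.C.DX

open Fermat.Agent.S27.C (PSetup)
open Fermat.Agent.S17.HB

variable {K F : Type*} [Field K] [Field F] [Algebra K F] [IsAlgClosed K] [CharZero K]
variable {R : Type*} [CommRing R] [IsDedekindDomain R] [Algebra R F] [IsFractionRing R F]
  [Algebra K R] [IsScalarTower K R F]
variable {ι : Type} [Fintype ι] {μ : ι → ℕ} {z₀ : ι} {T : ι → Place K F}

/-- The uniformiser `s.π z` of the model is transcendental. -/
theorem transcendental_π (s : PSetup (K := K) (F := F) R μ z₀ T) (z : ι) :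
    Transcendental K (algebraMap R F (s.π z)) :=
  CarDer.transcendental_of_ord_eq_one (T z) (TauTay.ord_π s z)

/-- A non-zero derivation does not kill the uniformiser `s.π z`. -/
theorem δ_π_ne_zero (htr : Algebra.trdeg K F = 1) (s : PSetup (K := K) (F := F) R μ z₀ T)
    (z : ι) {δ : Derivation K F F} (hδ : δ ≠ 0) : δ (algebraMap R F (s.π z)) ≠ 0 :=
  CarDer.derivation_apply_unif_ne_zero htr hδ (T z) (TauTay.ord_π s z)

/-- The derivation `(δ (π z))⁻¹ • δ`: it is `d/dX` in the expansion at the base place `T z`. -/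
noncomputable def dX (s : PSetup (K := K) (F := F) R μ z₀ T) (z : ι) (δ : Derivation K F F) :
    Derivation K F F :=
  (δ (algebraMap R F (s.π z)))⁻¹ • δ

theorem dX_apply (s : PSetup (K := K) (F := F) R μ z₀ T) (z : ι) (δ : Derivation K F F)
    (f : F) : dX s z δ f = (δ (algebraMap R F (s.π z)))⁻¹ * δ f := by
  rw [dX, Derivation.smul_apply, smul_eq_mul]

theorem dX_π (htr : Algebra.trdeg K F = 1) (s : PSetup (K := K) (F := F) R μ z₀ T) (z : ι)
    {δ : Derivation K F F} (hδ : δ ≠ 0) : dX s z δ (algebraMap R F (s.π z)) = 1 := by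
  rw [dX_apply, inv_mul_cancel₀ (δ_π_ne_zero htr s z hδ)]

/-- **DX**: `dX s z δ` is `d/dX` in the expansion at the base place `T z`. -/
theorem isDX_dX (htr : Algebra.trdeg K F = 1) (s : PSetup (K := K) (F := F) R μ z₀ T) (z : ι)
    {δ : Derivation K F F} (hδ : δ ≠ 0) : PRho.IsDX s z (dX s z δ) :=
  PRho.isDX_of_chain s z (dX s z δ) (dX_π htr s z hδ) fun f =>
    CarChain.derivation_chain htr (PRho.tauT s z) (algebraMap R F (s.π z))
      (transcendental_π s z) (dX s z δ) f

theorem dX_ne_zero (htr : Algebra.trdeg K F = 1) (s : PSetup (K := K) (F := F) R μ z₀ T)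
    (z : ι) {δ : Derivation K F F} (hδ : δ ≠ 0) : dX s z δ ≠ 0 := by
  intro h
  have h1 := dX_π htr s z hδ
  rw [h, Derivation.zero_apply] at h1
  exact zero_ne_one h1

/-- `δ` is a multiple of `dX s z δ`. -/
theorem smul_dX (htr : Algebra.trdeg K F = 1) (s : PSetup (K := K) (F := F) R μ z₀ T) (z : ι)
    {δ : Derivation K F F} (hδ : δ ≠ 0) : δ (algebraMap R F (s.π z)) • dX s z δ = δ := by
  ext f
  rw [Derivation.smul_apply, dX_apply, smul_eq_mul,
    mul_inv_cancel_left₀ (δ_π_ne_zero htr s z hδ)]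

/-- **The jet equations of the moving point `rho s z` through `δ`**, on the functions `v j`. -/
theorem jets_delta (htr : Algebra.trdeg K F = 1) (s : PSetup (K := K) (F := F) R μ z₀ T)
    (z : ι) (hu : s.u z ≠ 0) {δ : Derivation K F F} (hδ : δ ≠ 0) (i : ℕ) (hi : i < μ z) :
    ∑ j, HahnSeries.ofPowerSeries ℤ K (s.c j) * PRho.rho s z hu ((⇑δ)^[i] (s.v j)) = 0 := by
  have h := PRho.jets s z hu (dX s z δ) (isDX_dX htr s z hδ) (δ (algebraMap R F (s.π z))) i hi
  rwa [smul_dX htr s z hδ] at h

/-- Existential form of DX. -/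
theorem exists_isDX (htr : Algebra.trdeg K F = 1) (s : PSetup (K := K) (F := F) R μ z₀ T)
    (z : ι) {δ : Derivation K F F} (hδ : δ ≠ 0) : ∃ h : F, h ≠ 0 ∧ PRho.IsDX s z (h • δ) :=
  ⟨_, inv_ne_zero (δ_π_ne_zero htr s z hδ), isDX_dX htr s z hδ⟩

end Fermat.Agent.S27.C.DX
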