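/-
PROGRAM PJ (statement S27), strand C (carrier), derivations: the abstract derivation lemma for a
profile configuration.

* `derivation_vanish_profile` : let `D` be a derivation of a field `M` which kills the image of
  the PARAMETER point `ρ₀ : F → M`.  Suppose that along every other point `ρ z` the derivation
  obeys the chain rule `D (ρ z f) = lam z * ρ z (d z f)`, that the coefficients `c j` (`c 0 = 1`)
  satisfy the equations `hgen` at the parameter point and the jet equations of order `< μ z` at
  `ρ z`, that the linear system made of the equations at the parameter point and of the jets of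
  order `< μ z - 1` is non-degenerate, and that the jets of order `μ z` do not vanish.  Then `D`
  kills the coefficients `c j` and every `lam z` vanishes.  (The case of one simple parameter
  point and `g` points of multiplicity `n` is `S17/HB/CarAlgAbs.derivation_vanish`.)
* `exists_chain_coeff` : the chain rule hypothesis, for every `K`-embedding `ρ` of a function
  field of one variable and every derivation `D` of `M` over the constants: the `K`-derivations
  of `F` form a line.
* `derivation_map_eq_zero` : such a `D` kills `ρ F` as soon as it kills `ρ t`, `t` transcendental.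
-/
import Mathlib
import Fermat.Agent.S17.HB.CarDer

set_option autoImplicit false

namespace Fermat.Agent.S27.C.DerProfile

open Fermat.Agent.S17.HB

/-- **The abstract derivation lemma for a profile.** -/
theorem derivation_vanish_profile {F M : Type*} [Field F] [Field M] {ι κ : Type*} {m : ℕ}
    (D : M →+ M) (hD : ∀ a b : M, D (a * b) = a * D b + b * D a)
    (ρ₀ : F →+* M) (hρ₀ : ∀ f, D (ρ₀ f) = 0) (a : κ → Fin (m + 1) → F)
    (ρ : ι → F →+* M) (μ : ι → ℕ) (hμ : ∀ z, 0 < μ z)
    (d : ι → F → F) (lam : ι → M) (hchain : ∀ z f, D (ρ z f) = lam z * ρ z (d z f))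
    (c : Fin (m + 1) → M) (hc0 : c 0 = 1) (r : ι → Fin (m + 1) → F)
    (hgen : ∀ i : κ, ∑ j, c j * ρ₀ (a i j) = 0)
    (hjets : ∀ z, ∀ i < μ z, ∑ j, c j * ρ z ((d z)^[i] (r z j)) = 0)
    (hnd : ∀ x : Fin (m + 1) → M, x 0 = 0 → (∀ i : κ, ∑ j, x j * ρ₀ (a i j) = 0) →
      (∀ z, ∀ i, i + 1 < μ z → ∑ j, x j * ρ z ((d z)^[i] (r z j)) = 0) → x = 0)
    (hΛ : ∀ z, ∑ j, c j * ρ z ((d z)^[μ z] (r z j)) ≠ 0) :
    (∀ j, D (c j) = 0) ∧ ∀ z, lam z = 0 := by
  have hD1 : D 1 = 0 := by
    have h := hD 1 1
    rw [mul_one, one_mul] at h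
    exact left_eq_add.mp h
  -- the derivative of a jet equation
  have hjetD : ∀ z i, D (∑ j, c j * ρ z ((d z)^[i] (r z j))) =
      lam z * ∑ j, c j * ρ z ((d z)^[i + 1] (r z j)) +
        ∑ j, D (c j) * ρ z ((d z)^[i] (r z j)) := by
    intro z i
    rw [map_sum, Finset.mul_sum, ← Finset.sum_add_distrib]
    refine Finset.sum_congr rfl fun j _ => ?_
    rw [hD, hchain, Function.iterate_succ_apply']
    ring
  have hx : (fun j => D (c j)) = 0 := by
    apply hnd
    · show D (c 0) = 0
      rw [hc0, hD1]
    · intro i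
      have h := congrArg D (hgen i)
      rw [map_zero, map_sum] at h
      rw [← h]
      refine Finset.sum_congr rfl fun j _ => ?_
      rw [hD, hρ₀]
      ring
    · intro z i hi
      have h := hjetD z i
      rw [hjets z i (by omega), map_zero, hjets z (i + 1) hi, mul_zero, zero_add] at h
      exact h.symm
  have hx' : ∀ j, D (c j) = 0 := fun j => congrFun hx j
  refine ⟨hx', fun z => ?_⟩
  obtain ⟨n', hn'⟩ : ∃ n', μ z = n' + 1 := ⟨μ z - 1, by have := hμ z; omega⟩
  have h := hjetD z n'
  rw [hjets z n' (by omega), map_zero] at h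
  simp only [hx', zero_mul, Finset.sum_const_zero, add_zero] at h
  have hΛz := hΛ z
  rw [hn'] at hΛz
  exact (mul_eq_zero.mp h.symm).resolve_right hΛz

variable {K F : Type*} [Field K] [Field F] [Algebra K F]

/-- A derivation of `M` over the constants which kills `ρ t` for one transcendental `t` kills
`ρ F`. -/
theorem derivation_map_eq_zero [CharZero K] (htr : Algebra.trdeg K F = 1)
    {M : Type*} [Field M] [Algebra K M] (ρ : F →ₐ[K] M) (D : M →+ M)
    (hD : ∀ a b : M, D (a * b) = a * D b + b * D a)
    (hK : ∀ c : K, D (algebraMap K M c) = 0) {t : F} (ht : Transcendental K t)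
    (hDt : D (ρ t) = 0) : ∀ f : F, D (ρ f) = 0 := by
  intro f
  exact CarDer.leibniz_eq_zero_of_transcendental htr (ρ : F →+* M)
    (D.comp (ρ : F →+* M).toAddMonoidHom)
    (fun a b => by
      show D (ρ (a * b)) = ρ a * D (ρ b) + ρ b * D (ρ a)
      rw [map_mul, hD])
    (fun c => by
      show D (ρ (algebraMap K F c)) = 0
      rw [AlgHom.commutes, hK])
    ht hDt f

/-- **The chain coefficient.**  For a `K`-embedding `ρ` of a function field of one variable into
a field `M`, a non-zero derivation `δ` of `F` and a derivation `D` of `M` over the constants: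
`D ∘ ρ = lam • (ρ ∘ δ)` for one `lam : M`. -/
theorem exists_chain_coeff [CharZero K] (htr : Algebra.trdeg K F = 1) {δ : Derivation K F F}
    (hδ : δ ≠ 0) {M : Type*} [Field M] [Algebra K M] (ρ : F →ₐ[K] M) (D : M →+ M)
    (hD : ∀ a b : M, D (a * b) = a * D b + b * D a)
    (hK : ∀ c : K, D (algebraMap K M c) = 0) :
    ∃ lam : M, ∀ f : F, D (ρ f) = lam * ρ (δ f) := by
  obtain ⟨t, ht⟩ : ∃ t : F, Transcendental K t := by
    by_contra hcon
    push Not at hcon
    have halg : Algebra.IsAlgebraic K F := ⟨fun x => by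
      have := hcon x
      rwa [Transcendental, not_not] at this⟩
    have h0 : Algebra.trdeg K F = 0 := trdeg_eq_zero
    rw [htr] at h0
    exact one_ne_zero h0
  have hδt : δ t ≠ 0 := CarDer.derivation_apply_ne_zero htr hδ ht
  have hρδt : ρ (δ t) ≠ 0 := (map_ne_zero ρ).mpr hδt
  refine ⟨D (ρ t) / ρ (δ t), fun f => ?_⟩
  -- the difference is a Leibniz map over `ρ` killing the constants and `t`
  let E : F →+ M :=
    { toFun := fun f => D (ρ f) - D (ρ t) / ρ (δ t) * ρ (δ f)
      map_zero' := by simp
      map_add' := fun x y => by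
        simp only [map_add]
        ring }
  have hE : ∀ x y : F, E (x * y) = (ρ : F →+* M) x • E y + (ρ : F →+* M) y • E x := by
    intro x y
    show D (ρ (x * y)) - D (ρ t) / ρ (δ t) * ρ (δ (x * y)) =
      ρ x * (D (ρ y) - D (ρ t) / ρ (δ t) * ρ (δ y)) +
        ρ y * (D (ρ x) - D (ρ t) / ρ (δ t) * ρ (δ x))
    rw [map_mul, hD, δ.leibniz, map_add, smul_eq_mul, smul_eq_mul, map_mul, map_mul]
    ring
  have hEK : ∀ c : K, E (algebraMap K F c) = 0 := by
    intro c
    show D (ρ (algebraMap K F c)) - D (ρ t) / ρ (δ t) * ρ (δ (algebraMap K F c)) = 0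
    rw [AlgHom.commutes, hK, δ.map_algebraMap, map_zero, mul_zero, sub_zero]
  have hEt : E t = 0 := by
    show D (ρ t) - D (ρ t) / ρ (δ t) * ρ (δ t) = 0
    rw [div_mul_cancel₀ _ hρδt, sub_self]
  have h := CarDer.leibniz_eq_zero_of_transcendental htr (ρ : F →+* M) E hE hEK ht hEt f
  exact sub_eq_zero.mp h

end Fermat.Agent.S27.C.DerProfile
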