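/-
Program PJ (S27), strand C, leaf Lin (C LINE #1 (4)); Mathlib only.

`exists_leading`: a non-zero vector `x` of Laurent series has a non-zero "leading" vector `y`
of constants such that every linear relation `∑ a j * x j = 0` with power series coefficients
specialises to `∑ a j (0) * y j = 0`.

Proof: `N` := the least order among the non-zero `x j`, `y j` := the coefficient of `x j` at `N`;
the coefficient at `N` of `a j * x j` is `a j (0) * y j`.
(Same statement and proof as the Mathlib-only lemma of helper119 in strand HB of program MW;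
restated here under the namespace of this path.)
-/
import Mathlib

set_option autoImplicit false

namespace Fermat.Agent.S27.C.Lin

variable {K : Type*} [Field K]

/-- The coefficient at `N` of a product `A * X` of Laurent series, when `A` has no negative
coefficients and `X` no coefficient below `N`. -/
theorem coeff_mul_of_bounds (A X : LaurentSeries K) (N : ℤ) (hA : ∀ p : ℤ, p < 0 → A.coeff p = 0)
    (hX : ∀ q : ℤ, q < N → X.coeff q = 0) : (A * X).coeff N = A.coeff 0 * X.coeff N := by
  rw [HahnSeries.coeff_mul]
  rw [Finset.sum_eq_single ((0 : ℤ), N)]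
  · rintro ⟨p, q⟩ hpq hne
    rw [Finset.mem_antidiagonal] at hpq
    obtain ⟨-, -, hsum⟩ := hpq
    simp only at hsum ⊢
    rcases lt_trichotomy p 0 with hp | hp | hp
    · rw [hA p hp, zero_mul]
    · exfalso
      apply hne
      rw [Prod.mk.injEq]
      exact ⟨hp, by omega⟩
    · rw [hX q (by omega), mul_zero]
  · intro hnot
    rw [Finset.mem_antidiagonal] at hnot
    by_contra hne
    apply hnot
    refine ⟨?_, ?_, zero_add N⟩
    · exact (HahnSeries.mem_support _ _).mpr (left_ne_zero_of_mul hne)
    · exact (HahnSeries.mem_support _ _).mpr (right_ne_zero_of_mul hne)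

/-- The coefficients of the Laurent series of a power series. -/
theorem coeff_ofPowerSeries_of_neg (a : PowerSeries K) (p : ℤ) (hp : p < 0) :
    (HahnSeries.ofPowerSeries ℤ K a).coeff p = 0 := by
  have h2 := PowerSeries.coeff_coe a p
  rw [if_pos hp] at h2
  exact h2

theorem coeff_ofPowerSeries_zero (a : PowerSeries K) :
    (HahnSeries.ofPowerSeries ℤ K a).coeff 0 = PowerSeries.constantCoeff a := by
  have h2 := PowerSeries.coeff_coe a (0 : ℤ)
  rw [if_neg (lt_irrefl 0)] at h2
  rw [h2]
  simp

/-- A non-zero vector of Laurent series has a non-zero leading vector of constants: every relation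
with power series coefficients specialises at `0` to a relation of the leading vector. -/
theorem exists_leading {K : Type*} [Field K] {κ : Type*} [Fintype κ] (x : κ → LaurentSeries K)
    (hx : x ≠ 0) : ∃ y : κ → K, y ≠ 0 ∧ ∀ a : κ → PowerSeries K,
      ∑ j, HahnSeries.ofPowerSeries ℤ K (a j) * x j = 0 →
        ∑ j, PowerSeries.constantCoeff (a j) * y j = 0 := by
  classical
  have hne : (Finset.univ.filter fun j => x j ≠ 0).Nonempty := by
    by_contra hemp
    apply hx
    funext j
    by_contra hj
    exact hemp ⟨j, Finset.mem_filter.mpr ⟨Finset.mem_univ j, hj⟩⟩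
  obtain ⟨j₀, hj₀, hmin⟩ := Finset.exists_min_image _ (fun j => (x j).order) hne
  have hj₀' : x j₀ ≠ 0 := (Finset.mem_filter.mp hj₀).2
  have hlow : ∀ j, ∀ q : ℤ, q < (x j₀).order → (x j).coeff q = 0 := by
    intro j q hq
    by_cases hj : x j = 0
    · rw [hj, HahnSeries.coeff_zero]
    · have h1 := hmin j (Finset.mem_filter.mpr ⟨Finset.mem_univ j, hj⟩)
      exact HahnSeries.coeff_eq_zero_of_lt_order (lt_of_lt_of_le hq h1)
  refine ⟨fun j => (x j).coeff (x j₀).order, ?_, fun a ha => ?_⟩
  · intro h0
    have h1 := congrFun h0 j₀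
    simp only [Pi.zero_apply] at h1
    exact hj₀' (HahnSeries.coeff_order_eq_zero.mp h1)
  · have h1 := congrArg (fun s : LaurentSeries K => s.coeff (x j₀).order) ha
    simp only [HahnSeries.coeff_sum, HahnSeries.coeff_zero] at h1
    rw [← h1]
    refine Finset.sum_congr rfl fun j _ => ?_
    rw [coeff_mul_of_bounds _ _ _ (coeff_ofPowerSeries_of_neg (a j)) (hlow j),
      coeff_ofPowerSeries_zero]

end Fermat.Agent.S27.C.Lin
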