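import Mathlib
import Fermat.Agent.S27.C.PSetup

/-!
# Program PJ (statement S27), strand C: the non-degeneracy of a `PSetup`

For a formal datum `s : PSetup R μ none T` of a base tuple `T : Option (Fin g) → Place K F`
(`S27/C/PSetup`), a vector `x : Fin (s.m + 1) → K` and a point `z₁` of the tuple, put
`f = ∑ x j • s.v j`.  If the expansions `∑ x j • s.τ z (s.r j)` of `b₁ * f` at the points
`z ≠ z₁` vanish to order `μ z - 1` and the expansion at `z₁` vanishes to order `μ z₁`, then `f`
has at most simple poles at the `T z`, `z ≠ z₁`, and no other pole: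

* `mem_L_erase`   : `f ∈ L(∑_{z ≠ z₁} T z)`;
* `psetup_nondeg` : hence `x = 0` as soon as `x 0 = 0` and the other `g` points are non-special
  (`l(∑_{z ≠ z₁} T z) = 1`).

This is the hypothesis `hnd'` of the tangent argument (`S27/C/FormalTangent`) and, for
`z₁ = none`, the hypothesis `hnd` of the formal existence and uniqueness (`S27/C/FormalProfile`).
-/

set_option autoImplicit false

open AlgebraicCurve IsDedekindDomain

namespace Fermat.Agent.S27.C.Nondeg

open Fermat.Agent.S27.C (PSetup)

universe uK uF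

section Divisor

variable {K : Type uK} {F : Type uF} [Field K] [Field F] [Algebra K F]

/-- The coefficient of `∑ z ∈ S, a z • T z` at a point `T z₀` of an injective family. -/
theorem sum_single_apply_self {ι : Type*} [DecidableEq ι] (T : ι → Place K F)
    (hT : Function.Injective T) (S : Finset ι) (a : ι → ℤ) (z₀ : ι) :
    (∑ z ∈ S, Finsupp.single (T z) (a z)) (T z₀) = if z₀ ∈ S then a z₀ else 0 := by
  classical
  rw [Finsupp.finsetSum_apply]
  split_ifs with h
  · rw [Finset.sum_eq_single_of_mem z₀ h]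
    · rw [Finsupp.single_eq_same]
    · intro z _ hz
      rw [Finsupp.single_apply, if_neg (fun e => hz (hT e))]
  · refine Finset.sum_eq_zero fun z hz => ?_
    rw [Finsupp.single_apply, if_neg]
    intro e
    exact h (hT e ▸ hz)

/-- The coefficient of `∑ z ∈ S, a z • T z` at a point off the family. -/
theorem sum_single_apply_of_ne {ι : Type*} (T : ι → Place K F) (S : Finset ι) (a : ι → ℤ)
    (P : Place K F) (hP : ∀ z, T z ≠ P) : (∑ z ∈ S, Finsupp.single (T z) (a z)) P = 0 := by
  classical
  rw [Finsupp.finsetSum_apply]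
  refine Finset.sum_eq_zero fun z _ => ?_
  rw [Finsupp.single_apply, if_neg (hP z)]

/-- The constant divisor of a `PSetup`, as a sum of single points. -/
theorem sum_smul_single_eq {ι : Type*} [Fintype ι] (T : ι → Place K F) (μ : ι → ℕ) :
    (∑ z, (μ z : ℤ) • Finsupp.single (T z) (1 : ℤ) : Divisor K F)
      = ∑ z, Finsupp.single (T z) (μ z : ℤ) := by
  refine Finset.sum_congr rfl fun z _ => ?_
  rw [Finsupp.smul_single, smul_eq_mul, mul_one]

end Divisor

section Data

variable {K : Type uK} {F : Type uF} [Field K] [Field F] [Algebra K F] [IsAlgClosed K]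
  [CharZero K] [Algebra.EssFiniteType K F]
variable {R : Type*} [CommRing R] [IsDedekindDomain R] [Algebra R F] [IsFractionRing R F]
  [Algebra K R] [IsScalarTower K R F]

/-- The numerator of `v 0 = 1` is the multiplier. -/
theorem r_zero {ι : Type} [Fintype ι] {μ : ι → ℕ} {z₀ : ι} {T : ι → Place K F}
    (s : PSetup (K := K) (F := F) R μ z₀ T) : s.r 0 = s.b₁ :=
  IsFractionRing.injective R F (by rw [s.r_spec 0, s.v_zero, mul_one])

/-- `b₁ * ∑ x j • v j` is the image of `∑ x j • r j`. -/
theorem algebraMap_sum_r {ι : Type} [Fintype ι] {μ : ι → ℕ} {z₀ : ι} {T : ι → Place K F}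
    (s : PSetup (K := K) (F := F) R μ z₀ T) (x : Fin (s.m + 1) → K) :
    algebraMap R F (∑ j, x j • s.r j) = algebraMap R F s.b₁ * ∑ j, x j • s.v j := by
  rw [map_sum, Finset.mul_sum]
  refine Finset.sum_congr rfl fun j _ => ?_
  rw [Algebra.smul_def, map_mul, ← IsScalarTower.algebraMap_apply K R F, s.r_spec j,
    Algebra.smul_def]
  ring

/-- **Membership form of the non-degeneracy.** -/
theorem mem_L_erase {ι : Type} [Fintype ι] [DecidableEq ι] {μ : ι → ℕ} {z₀ : ι}
    {T : ι → Place K F} (hT : Function.Injective T) (s : PSetup (K := K) (F := F) R μ z₀ T)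
    (z₁ : ι) (x : Fin (s.m + 1) → K)
    (h1 : ∀ z, z ≠ z₁ → ∀ i, i + 1 < μ z →
      PowerSeries.coeff i (∑ j, x j • s.τ z (s.r j)) = 0)
    (h2 : ∀ i < μ z₁, PowerSeries.coeff i (∑ j, x j • s.τ z₁ (s.r j)) = 0) :
    ∑ j, x j • s.v j ∈ riemannRochSpace
      (∑ z ∈ Finset.univ.erase z₁, Finsupp.single (T z) (1 : ℤ)) := by
  have hfB : ∑ j, x j • s.v j ∈ riemannRochSpace (∑ z, Finsupp.single (T z) (μ z : ℤ)) := by
    rw [← sum_smul_single_eq]
    exact Submodule.sum_mem _ fun j _ => Submodule.smul_mem _ _ (s.v_mem j)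
  rw [mem_riemannRochSpace_iff]
  intro P
  by_cases hf0 : ∑ j, x j • s.v j = 0
  · exact Or.inl hf0
  right
  have hinjR : Function.Injective (algebraMap R F) := IsFractionRing.injective R F
  have hb₁F : algebraMap R F s.b₁ ≠ 0 := fun h => s.b₁_ne (hinjR (h.trans (map_zero _).symm))
  have hB := (mem_riemannRochSpace_iff.mp hfB) P
  rcases hB with hB | hB
  · exact absurd hB hf0
  by_cases hPT : ∃ z, T z = P
  · -- a point of the base tuple
    obtain ⟨z, rfl⟩ := hPT
    have hy := algebraMap_sum_r s x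
    have hy0 : ∑ j, x j • s.r j ≠ 0 := by
      intro h
      rw [h, map_zero] at hy
      exact (mul_ne_zero hb₁F hf0) hy.symm
    have hτy : s.τ z (∑ j, x j • s.r j) = ∑ j, x j • s.τ z (s.r j) := by
      rw [map_sum]
      exact Finset.sum_congr rfl fun j _ => map_smul _ _ _
    rw [sum_single_apply_self T hT]
    by_cases hz : z = z₁
    · subst hz
      rw [if_neg (Finset.notMem_erase _ _)]
      have hdvd : PowerSeries.X ^ μ z ∣ s.τ z (∑ j, x j • s.r j) := by
        rw [PowerSeries.X_pow_dvd_iff, hτy]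
        intro i hi
        exact h2 i hi
      have h3 := (s.τ_dvd z _ (μ z) hy0).mp hdvd
      rw [hy, Place.ord_mul _ hb₁F hf0, s.ord_b₁ z] at h3
      omega
    · rw [if_pos (Finset.mem_erase.mpr ⟨hz, Finset.mem_univ _⟩)]
      have hdvd : PowerSeries.X ^ (μ z - 1) ∣ s.τ z (∑ j, x j • s.r j) := by
        rw [PowerSeries.X_pow_dvd_iff, hτy]
        intro i hi
        exact h1 z hz i (by omega)
      have h3 := (s.τ_dvd z _ (μ z - 1) hy0).mp hdvd
      rw [hy, Place.ord_mul _ hb₁F hf0, s.ord_b₁ z] at h3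
      omega
  · rw [not_exists] at hPT
    rw [sum_single_apply_of_ne T _ _ P hPT]
    rw [sum_single_apply_of_ne T _ _ P hPT] at hB
    exact hB

/-- **The non-degeneracy of a `PSetup` at the point `z₁`**: the only vector `x` with `x 0 = 0`
whose function `∑ x j • v j` has at most simple poles at the points `z ≠ z₁` of the base tuple
and no pole at `z₁` is `0`, provided the other `g` points are non-special. -/
theorem psetup_nondeg (htr : Algebra.trdeg K F = 1) {g : ℕ} {μ : Option (Fin g) → ℕ}
    (hμ : ∀ z, 0 < μ z) {T : Option (Fin g) → Place K F} (hT : Function.Injective T)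
    (s : PSetup (K := K) (F := F) R μ none T) (z₁ : Option (Fin g))
    (hnsp : Module.finrank K ↥(riemannRochSpace
      (∑ z ∈ Finset.univ.erase z₁, Finsupp.single (T z) (1 : ℤ))) = 1)
    (x : Fin (s.m + 1) → K) (hx0 : x 0 = 0)
    (h1 : ∀ z, z ≠ z₁ → ∀ i, i + 1 < μ z →
      PowerSeries.coeff i (∑ j, x j • s.τ z (s.r j)) = 0)
    (h2 : ∀ i < μ z₁, PowerSeries.coeff i (∑ j, x j • s.τ z₁ (s.r j)) = 0) : x = 0 := by
  classical
  have hf := mem_L_erase hT s z₁ x h1 h2
  -- `1` is a section
  have h1D : (1 : F) ∈ riemannRochSpace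
      (∑ z ∈ Finset.univ.erase z₁, Finsupp.single (T z) (1 : ℤ)) := by
    rw [mem_riemannRochSpace_iff]
    intro P
    right
    rw [Place.ord_one, Finsupp.finsetSum_apply]
    have h3 : (0 : ℤ) ≤ ∑ z ∈ Finset.univ.erase z₁, (Finsupp.single (T z) (1 : ℤ)) P := by
      refine Finset.sum_nonneg fun z _ => ?_
      rw [Finsupp.single_apply]
      split_ifs
      · exact zero_le_one
      · exact le_refl _
    omega
  obtain ⟨b, hb⟩ := (finrank_eq_one_iff_of_nonzero'
    (⟨1, h1D⟩ : ↥(riemannRochSpace
      (∑ z ∈ Finset.univ.erase z₁, Finsupp.single (T z) (1 : ℤ))))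
    (fun h => one_ne_zero (congrArg Subtype.val h))).mp hnsp ⟨_, hf⟩
  have hb' : b • (1 : F) = ∑ j, x j • s.v j := congrArg Subtype.val hb
  have hrel : ∑ j, (x j - if j = 0 then b else 0) • s.v j = 0 := by
    simp only [sub_smul, Finset.sum_sub_distrib, ite_smul, zero_smul]
    rw [Finset.sum_ite_eq' Finset.univ (0 : Fin (s.m + 1)) (fun j => b • s.v j),
      if_pos (Finset.mem_univ _), s.v_zero, hb', sub_self]
  have hzero := Fintype.linearIndependent_iff.mp s.v_indep _ hrel
  funext j
  by_cases hj : j = 0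
  · rw [hj]; exact hx0
  · have h := hzero j
    rw [if_neg hj, sub_zero] at h
    exact h

end Data

end Fermat.Agent.S27.C.Nondeg
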