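import Mathlib
import Fermat.Agent.S27.C.Nondeg
import Fermat.Agent.S27.C.Lin
import Fermat.Agent.S27.C.PRho

/-!
# Program PJ (statement S27), strand C: the non-degeneracy of a `PSetup` over the Laurent field

The hypothesis `hnd` of the abstract derivation lemma
(`S27/C/DerProfile.derivation_vanish_profile`) for the formal solution `s : PSetup R μ none T`
of a base tuple, over the field `K⸨X⸩`: a vector `x` of Laurent series with `x 0 = 0` which
satisfies the jet equations of order `< μ none` at the parameter point and of order
`< μ (some z) - 1` at the moving points is zero, provided the `g` points `T (some z)` are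
non-special.

* `nondeg_laurent` : in power series form (Hasse derivatives of the Taylor maps);
* `nondeg_rho`     : in the form of `S27/C/PRho` (`tauT s none` at the parameter point,
  `rho s (some z)` at the moving points, iterated derivations `δ' z` with `IsDX`).

Proof: a non-zero `x` has a non-zero leading vector `y` of constants (`Lin.exists_leading`); the
constant terms of the relations are the hypotheses of `Nondeg.psetup_nondeg` at `z₁ = none`.
-/

set_option autoImplicit false

open AlgebraicCurve IsDedekindDomain

namespace Fermat.Agent.S27.C.NondegL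

open Fermat.Agent.S27.C (PSetup)
open Fermat.Agent.S17.D (hasse constantCoeff_hasse)

universe uK uF

variable {K : Type uK} {F : Type uF} [Field K] [Field F] [Algebra K F] [IsAlgClosed K]
  [CharZero K] [Algebra.EssFiniteType K F]
variable {R : Type*} [CommRing R] [IsDedekindDomain R] [Algebra R F] [IsFractionRing R F]
  [Algebra K R] [IsScalarTower K R F]

/-- **The non-degeneracy over the Laurent field**, power series form. -/
theorem nondeg_laurent (htr : Algebra.trdeg K F = 1) {g : ℕ} {μ : Option (Fin g) → ℕ}
    (hμ : ∀ z, 0 < μ z) {T : Option (Fin g) → Place K F} (hT : Function.Injective T)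
    (s : PSetup (K := K) (F := F) R μ none T)
    (hnsp : Module.finrank K ↥(riemannRochSpace
      (∑ z ∈ Finset.univ.erase none, Finsupp.single (T z) (1 : ℤ))) = 1)
    (x : Fin (s.m + 1) → LaurentSeries K) (hx0 : x 0 = 0)
    (h0 : ∀ i < μ none,
      ∑ j, x j * HahnSeries.ofPowerSeries ℤ K (hasse i (s.τ none (s.r j))) = 0)
    (h1 : ∀ z : Fin g, ∀ i, i + 1 < μ (some z) →
      ∑ j, x j * HahnSeries.ofPowerSeries ℤ K
        ((hasse i (s.τ (some z) (s.r j))).subst (s.u (some z))) = 0) : x = 0 := by
  classical
  by_contra hx
  obtain ⟨y, hy, hrel⟩ := Fermat.Agent.S27.C.Lin.exists_leading x hx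
  -- the leading vector has `y 0 = 0`
  have hy0 : y 0 = 0 := by
    have h := hrel (fun j => if j = 0 then 1 else 0) (by
      rw [Finset.sum_eq_single 0]
      · rw [hx0, mul_zero]
      · intro j _ hj
        rw [if_neg hj, map_zero, zero_mul]
      · intro h
        exact absurd (Finset.mem_univ _) h)
    rw [Finset.sum_eq_single 0] at h
    · rwa [if_pos rfl, map_one, one_mul] at h
    · intro j _ hj
      rw [if_neg hj, map_zero, zero_mul]
    · intro h
      exact absurd (Finset.mem_univ _) h
  -- from the constant terms of a relation to the coefficient form of `psetup_nondeg`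
  have key : ∀ (z : Option (Fin g)) (i : ℕ),
      ∑ j, PowerSeries.coeff i (s.τ z (s.r j)) * y j = 0 →
      PowerSeries.coeff i (∑ j, y j • s.τ z (s.r j)) = 0 := by
    intro z i h
    rw [map_sum, ← h]
    refine Finset.sum_congr rfl fun j _ => ?_
    rw [PowerSeries.coeff_smul, smul_eq_mul, mul_comm]
  apply hy
  refine Nondeg.psetup_nondeg htr hμ hT s none hnsp y hy0 ?_ ?_
  · intro z hz i hi
    cases z with
    | none => exact absurd rfl hz
    | some k =>
      apply key
      have h := hrel (fun j => (hasse i (s.τ (some k) (s.r j))).subst (s.u (some k))) (by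
        rw [← h1 k i hi]
        exact Finset.sum_congr rfl fun j _ => mul_comm _ _)
      rw [← h]
      refine Finset.sum_congr rfl fun j _ => ?_
      rw [Fermat.Agent.S17.D.SpecJets.constantCoeff_subst_eq _ _ (s.u_zero (some k)),
        constantCoeff_hasse]
  · intro i hi
    apply key
    have h := hrel (fun j => hasse i (s.τ none (s.r j))) (by
      rw [← h0 i hi]
      exact Finset.sum_congr rfl fun j _ => mul_comm _ _)
    rw [← h]
    refine Finset.sum_congr rfl fun j _ => ?_
    rw [constantCoeff_hasse]

/-- A non-zero constant is a non-zero Laurent series. -/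
theorem ofPowerSeries_C_ne_zero {a : K} (ha : a ≠ 0) :
    HahnSeries.ofPowerSeries ℤ K (PowerSeries.C a) ≠ 0 := by
  intro h
  have h1 : (PowerSeries.C a : PowerSeries K) = 0 :=
    HahnSeries.ofPowerSeries_injective (h.trans (map_zero _).symm)
  have h2 := congrArg PowerSeries.constantCoeff h1
  rw [PowerSeries.constantCoeff_C, map_zero] at h2
  exact ha h2

/-- **The non-degeneracy over the Laurent field**, in the form of `S27/C/PRho`: this is the
hypothesis `hnd` of `DerProfile.derivation_vanish_profile` for `ρ₀ = tauT s none`,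
`a i j = (δ' none)^[i] (r j)`, `ρ z = rho s (some z)`, `d z = δ' (some z)`. -/
theorem nondeg_rho (htr : Algebra.trdeg K F = 1) {g : ℕ} {μ : Option (Fin g) → ℕ}
    (hμ : ∀ z, 0 < μ z) {T : Option (Fin g) → Place K F} (hT : Function.Injective T)
    (s : PSetup (K := K) (F := F) R μ none T)
    (hnsp : Module.finrank K ↥(riemannRochSpace
      (∑ z ∈ Finset.univ.erase none, Finsupp.single (T z) (1 : ℤ))) = 1)
    (hu : ∀ z, s.u z ≠ 0) (δ' : Option (Fin g) → Derivation K F F)
    (hδ' : ∀ z, PRho.IsDX s z (δ' z))
    (x : Fin (s.m + 1) → LaurentSeries K) (hx0 : x 0 = 0)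
    (h0 : ∀ i < μ none,
      ∑ j, x j * PRho.tauT s none ((⇑(δ' none))^[i] (algebraMap R F (s.r j))) = 0)
    (h1 : ∀ z : Fin g, ∀ i, i + 1 < μ (some z) →
      ∑ j, x j * PRho.rho s (some z) (hu (some z))
        ((⇑(δ' (some z)))^[i] (algebraMap R F (s.r j))) = 0) : x = 0 := by
  have hfac : ∀ i : ℕ,
      HahnSeries.ofPowerSeries ℤ K (PowerSeries.C ((i.factorial : ℕ) : K)) ≠ 0 := fun i =>
    ofPowerSeries_C_ne_zero (Nat.cast_ne_zero.mpr (Nat.factorial_ne_zero i))
  refine nondeg_laurent htr hμ hT s hnsp x hx0 ?_ ?_
  · intro i hi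
    have e : ∀ j, x j * PRho.tauT s none ((⇑(δ' none))^[i] (algebraMap R F (s.r j))) =
        HahnSeries.ofPowerSeries ℤ K (PowerSeries.C ((i.factorial : ℕ) : K)) *
          (x j * HahnSeries.ofPowerSeries ℤ K (hasse i (s.τ none (s.r j)))) := by
      intro j
      rw [PRho.tauT_iterate s none (δ' none) (hδ' none) i (s.r j), PowerSeries.smul_eq_C_mul,
        (HahnSeries.ofPowerSeries ℤ K).map_mul]
      ring
    have h := h0 i hi
    rw [Finset.sum_congr rfl fun j _ => e j, ← Finset.mul_sum] at h
    exact (mul_eq_zero.mp h).resolve_left (hfac i)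
  · intro z i hi
    have e : ∀ j, x j * PRho.rho s (some z) (hu (some z))
          ((⇑(δ' (some z)))^[i] (algebraMap R F (s.r j))) =
        HahnSeries.ofPowerSeries ℤ K (PowerSeries.C ((i.factorial : ℕ) : K)) *
          (x j * HahnSeries.ofPowerSeries ℤ K
            ((hasse i (s.τ (some z) (s.r j))).subst (s.u (some z)))) := by
      intro j
      rw [PRho.rho_iterate s (some z) (hu (some z)) (δ' (some z)) (hδ' (some z)) i (s.r j)]
      ring
    have h := h1 z i hi
    rw [Finset.sum_congr rfl fun j _ => e j, ← Finset.mul_sum] at h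
    exact (mul_eq_zero.mp h).resolve_left (hfac i)

end Fermat.Agent.S27.C.NondegL
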