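import Mathlib
import Fermat.Agent.S27.C.NondegL

/-!
# Program PJ (statement S27), strand C: the coefficients of the formal solution lie in the
field generated by the moving points

* `mem_of_nondeg` (Mathlib only): let `M` be a subfield of a field `L` and `c` a solution
  (`c 0 = 1`) in `L` of a homogeneous linear system `∑ j, c j * A i j = 0` with coefficients in
  `M`.  If the system is non-degenerate over `L` (`x 0 = 0` and `∑ j, x j * A i j = 0` for all `i`
  force `x = 0`), then every `c j` lies in `M`.  (Apply an `M`-linear retraction `L → M` to the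
  equations: the image of `c` is a solution in `M`, and the solution is unique.)
* `c_mem` : for the formal solution `s : PSetup R μ none T` of a non-special base tuple, the
  coefficients `s.c j` (as Laurent series) lie in every subfield of `K⸨X⸩` which contains the
  images of the moving points `PRho.rho s z`.
-/

set_option autoImplicit false

open AlgebraicCurve IsDedekindDomain

namespace Fermat.Agent.S27.C.Desc

open Fermat.Agent.S27.C (PSetup)

/-- **Descent of the solution of a non-degenerate linear system to a subfield.** -/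
theorem mem_of_nondeg {L : Type*} [Field L] (M : Subfield L) {κ : Type*} {m : ℕ}
    (A : κ → Fin (m + 1) → L) (hA : ∀ i j, A i j ∈ M)
    (c : Fin (m + 1) → L) (hc0 : c 0 = 1) (hc : ∀ i, ∑ j, c j * A i j = 0)
    (hnd : ∀ x : Fin (m + 1) → L, x 0 = 0 → (∀ i, ∑ j, x j * A i j = 0) → x = 0)
    (j : Fin (m + 1)) : c j ∈ M := by
  obtain ⟨π, hπ⟩ := LinearMap.exists_leftInverse_of_injective (Algebra.linearMap M L)
    (LinearMap.ker_eq_bot.mpr (algebraMap M L).injective)
  have hπ1 : ∀ a : M, π (M.subtype a) = a := fun a => LinearMap.congr_fun hπ a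
  have hπmul : ∀ (y : L) (a : M), π (y * M.subtype a) = π y * a := by
    intro y a
    have h : y * M.subtype a = a • y := by
      rw [Algebra.smul_def, mul_comm]
      rfl
    rw [h, map_smul, smul_eq_mul, mul_comm]
  have hx0 : c 0 - M.subtype (π (c 0)) = 0 := by
    have h1 : c 0 = M.subtype 1 := by rw [hc0, map_one]
    rw [h1, hπ1, sub_self]
  have hxi : ∀ i, ∑ j, (c j - M.subtype (π (c j))) * A i j = 0 := by
    intro i
    have h1 : ∑ j, M.subtype (π (c j)) * A i j = M.subtype (π (∑ j, c j * A i j)) := by
      rw [map_sum, map_sum]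
      refine Finset.sum_congr rfl fun j _ => ?_
      have h2 := hπmul (c j) ⟨A i j, hA i j⟩
      have h3 : M.subtype ⟨A i j, hA i j⟩ = A i j := rfl
      rw [h3] at h2
      rw [h2, map_mul, h3]
    simp only [sub_mul, Finset.sum_sub_distrib]
    rw [h1, hc i, map_zero, map_zero, sub_zero]
  have h := congrFun (hnd (fun j => c j - M.subtype (π (c j))) hx0 hxi) j
  have hcj : c j = M.subtype (π (c j)) := sub_eq_zero.mp h
  rw [hcj]
  exact (π (c j)).2

universe uK uF

variable {K : Type uK} {F : Type uF} [Field K] [Field F] [Algebra K F] [IsAlgClosed K]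
  [CharZero K] [Algebra.EssFiniteType K F]
variable {R : Type*} [CommRing R] [IsDedekindDomain R] [Algebra R F] [IsFractionRing R F]
  [Algebra K R] [IsScalarTower K R F]

/-- **The coefficients of the formal solution lie in the field of the moving points.** -/
theorem c_mem (htr : Algebra.trdeg K F = 1) {g : ℕ} {μ : Option (Fin g) → ℕ}
    (hμ : ∀ z, 0 < μ z) {T : Option (Fin g) → Place K F} (hT : Function.Injective T)
    (s : PSetup (K := K) (F := F) R μ none T)
    (hnsp : Module.finrank K ↥(riemannRochSpace
      (∑ z ∈ Finset.univ.erase none, Finsupp.single (T z) (1 : ℤ))) = 1)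
    (hu : ∀ z, s.u z ≠ 0) (δ' : Option (Fin g) → Derivation K F F)
    (hδ' : ∀ z, PRho.IsDX s z (δ' z))
    (M : Subfield (LaurentSeries K)) (hM : ∀ z f, PRho.rho s z (hu z) f ∈ M)
    (j : Fin (s.m + 1)) : HahnSeries.ofPowerSeries ℤ K (s.c j) ∈ M := by
  refine mem_of_nondeg M (κ := Σ z : Option (Fin g), Fin (μ z))
    (fun p j => PRho.rho s p.1 (hu p.1) ((⇑(δ' p.1))^[(p.2 : ℕ)] (algebraMap R F (s.r j))))
    (fun p j => hM _ _) (fun j => HahnSeries.ofPowerSeries ℤ K (s.c j)) ?_ ?_ ?_ j
  · show HahnSeries.ofPowerSeries ℤ K (s.c 0) = 1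
    rw [s.c_zero, map_one]
  · rintro ⟨z, i⟩
    exact PRho.jets_prime s z (hu z) (δ' z) (hδ' z) i i.2
  · intro x hx0 hx
    refine NondegL.nondeg_rho htr hμ hT s hnsp hu δ' hδ' x hx0 ?_ ?_
    · intro i hi
      have h := hx ⟨none, ⟨i, hi⟩⟩
      rw [← PRho.rho_param s (hu none)]
      exact h
    · intro k i hi
      exact hx ⟨some k, ⟨i, by omega⟩⟩

end Fermat.Agent.S27.C.Desc
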