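import Mathlib

/-!
# Program PJ (statement S27), strand C: the field generated by finitely many embeddings

For a family `ρ z : F →ₐ[K] L` of `K`-embeddings of a field `F` into a field `L`:

* `joinField ρ` : the intermediate field of `L / K` generated by the images `ρ z (F)`;
* `joinRho ρ z : F →ₐ[K] joinField ρ` : the embedding `ρ z` with values in `joinField ρ`.

The carrier of strand C is `joinField` of the moving points `PRho.rho s z` of a formal solution
inside the Laurent series.
-/

set_option autoImplicit false

namespace Fermat.Agent.S27.C.Join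

variable {K F L : Type*} [Field K] [Field F] [Field L] [Algebra K F] [Algebra K L] {ι : Type*}

/-- The intermediate field generated by the images of the embeddings `ρ z`. -/
def joinField (ρ : ι → (F →ₐ[K] L)) : IntermediateField K L :=
  IntermediateField.adjoin K (⋃ z, Set.range (ρ z))

theorem map_mem_joinField (ρ : ι → (F →ₐ[K] L)) (z : ι) (f : F) : ρ z f ∈ joinField ρ :=
  IntermediateField.subset_adjoin K _ (Set.mem_iUnion.mpr ⟨z, f, rfl⟩)

/-- The embedding `ρ z` with values in the field generated by all the embeddings. -/
def joinRho (ρ : ι → (F →ₐ[K] L)) (z : ι) : F →ₐ[K] joinField ρ :=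
  (ρ z).codRestrict (joinField ρ).toSubalgebra (map_mem_joinField ρ z)

theorem joinRho_val (ρ : ι → (F →ₐ[K] L)) (z : ι) (f : F) :
    ((joinRho ρ z f : joinField ρ) : L) = ρ z f := rfl

theorem joinRho_injective_of_ne (ρ : ι → (F →ₐ[K] L)) {z z' : ι} (h : ρ z ≠ ρ z') :
    joinRho ρ z ≠ joinRho ρ z' := by
  intro heq
  apply h
  ext f
  have := congrArg (fun φ : F →ₐ[K] joinField ρ => ((φ f : joinField ρ) : L)) heq
  simpa only [joinRho_val] using this

end Fermat.Agent.S27.C.Join
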