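import Mathlib
import Fermat.Agent.S27.C.Join

/-!
# Program PJ (statement S27), strand C, leaf JOIN-GEN

For a family `ρ z : F →ₐ[K] L` of `K`-embeddings and the field `joinField ρ` they generate
(`S27/C/Join.lean`):

* `adjoin_range_joinRho` : `joinField ρ` is generated, as a field over `K`, by the images of the
  co-restricted embeddings `joinRho ρ z : F →ₐ[K] joinField ρ`;
* `joinField_eq_adjoin_image` : if `F = K(S)` then `joinField ρ = K(⋃ z, ρ z '' S)`;
* `essFiniteType_joinField` : for a finite family and `F / K` essentially of finite type,
  `joinField ρ` is essentially of finite type over `K`.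

Mathlib only (on top of the definitions of `Join.lean`).
-/

set_option autoImplicit false

namespace Fermat.Agent.S27.C.JoinGen

open Fermat.Agent.S27.C.Join

variable {K F L : Type*} [Field K] [Field F] [Field L] [Algebra K F] [Algebra K L] {ι : Type*}

/-- The images in `L` of the ranges of the co-restricted embeddings are the ranges of the
embeddings. -/
theorem image_val_iUnion_range_joinRho (ρ : ι → (F →ₐ[K] L)) :
    (Subtype.val '' (⋃ z, Set.range (joinRho ρ z)) : Set L) = ⋃ z, Set.range (ρ z) := by
  ext x
  simp only [Set.mem_image, Set.mem_iUnion, Set.mem_range]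
  constructor
  · rintro ⟨y, ⟨z, f, rfl⟩, rfl⟩
    exact ⟨z, f, rfl⟩
  · rintro ⟨z, f, rfl⟩
    exact ⟨joinRho ρ z f, ⟨z, f, rfl⟩, rfl⟩

/-- **JOIN-GEN (a).** The field generated by the embeddings is generated by the co-restricted
embeddings. -/
theorem adjoin_range_joinRho (ρ : ι → (F →ₐ[K] L)) :
    IntermediateField.adjoin K (⋃ z, Set.range (joinRho ρ z)) = ⊤ := by
  apply IntermediateField.lift_injective (joinField ρ)
  rw [IntermediateField.lift_adjoin, IntermediateField.lift_top,
    image_val_iUnion_range_joinRho]
  rfl

/-- If `F` is generated over `K` by `S`, the field generated by the embeddings is generated by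
the images of `S`. -/
theorem joinField_eq_adjoin_image {S : Set F} (hS : IntermediateField.adjoin K S = ⊤)
    (ρ : ι → (F →ₐ[K] L)) :
    joinField ρ = IntermediateField.adjoin K (⋃ z, ρ z '' S) := by
  apply le_antisymm
  · show IntermediateField.adjoin K (⋃ z, Set.range (ρ z)) ≤ _
    rw [IntermediateField.adjoin_le_iff]
    intro x hx
    obtain ⟨z, f, rfl⟩ := Set.mem_iUnion.mp hx
    have hf : f ∈ IntermediateField.adjoin K S := by
      rw [hS]
      exact IntermediateField.mem_top
    have h1 : ρ z f ∈ (IntermediateField.adjoin K S).map (ρ z) :=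
      (IntermediateField.mem_map _).mpr ⟨f, hf, rfl⟩
    rw [IntermediateField.adjoin_map] at h1
    exact IntermediateField.adjoin.mono K _ _ (Set.subset_iUnion (fun z => ρ z '' S) z) h1
  · show _ ≤ IntermediateField.adjoin K (⋃ z, Set.range (ρ z))
    exact IntermediateField.adjoin.mono K _ _
      (Set.iUnion_mono fun z => Set.image_subset_range _ _)

/-- **JOIN-GEN (b).** The field generated by finitely many embeddings of a finitely generated
field is finitely generated (essentially of finite type). -/
theorem essFiniteType_joinField [Finite ι] [Algebra.EssFiniteType K F] (ρ : ι → (F →ₐ[K] L)) :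
    Algebra.EssFiniteType K (joinField ρ) := by
  obtain ⟨s, hs⟩ := IntermediateField.fg_top K F
  rw [IntermediateField.essFiniteType_iff, joinField_eq_adjoin_image hs ρ]
  exact IntermediateField.fg_adjoin_of_finite
    (Set.finite_iUnion fun z => (s.finite_toSet).image _)

end Fermat.Agent.S27.C.JoinGen
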