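import Mathlib
import Fermat.Agent.S27.C.JoinGen
import Fermat.Agent.S27.C.DX
import Fermat.Agent.S27.C.Desc
import Fermat.Agent.S27.C.DerProfile
import Fermat.Agent.S17.HB.CarAlgCore

/-!
# Program PJ (statement S27), strand C, leaf ALG: the carrier is a curve

`s : PSetup R μ none T` is a formal solution through a base tuple of `g + 1` points and
`PRho.rho s z` its moving points inside the Laurent series.  The field
`Join.joinField (fun z => PRho.rho s z (hu z))` generated by the moving points is algebraic over
the image of the parameter point, hence of transcendence degree one (`trdeg_joinField`).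

Proof: a derivation `D` of the join over the parameter point kills the coefficients `s.c j`
(which lie in the join, `Desc.c_mem`) and every moving point, by the abstract derivation lemma
`DerProfile.derivation_vanish_profile` (non-degeneracy `NondegL.nondeg_rho`, leading coefficients
`PRho.lead`, chain coefficients `DerProfile.exists_chain_coeff`); the join is generated by the
moving points (`JoinGen`), so `D = 0`, and an essentially finitely generated extension in
characteristic zero without derivations is algebraic (`CarAlgCore`).
-/

set_option autoImplicit false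

open AlgebraicCurve IsDedekindDomain

namespace Fermat.Agent.S27.C.Alg

open Fermat.Agent.S27.C.Join Fermat.Agent.S17.HB

universe u v

variable {K : Type u} {F : Type v} [Field K] [Field F] [Algebra K F]
variable {R : Type*} [CommRing R] [IsDedekindDomain R] [Algebra R F] [IsFractionRing R F]
  [Algebra K R] [IsScalarTower K R F]

/-- A Leibniz map of a field generated by a family of embeddings which kills the constants and
the images of the embeddings is zero. -/
theorem leibniz_eq_zero_of_joinRho {L : Type*} [Field L] [Algebra K L] {ι : Type*}
    (ρ : ι → (F →ₐ[K] L)) (hgen : IntermediateField.adjoin K (⋃ z, Set.range (joinRho ρ z)) = ⊤)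
    (D : joinField ρ →+ joinField ρ)
    (hD : ∀ a b : joinField ρ, D (a * b) = a * D b + b * D a)
    (hK : ∀ c : K, D (algebraMap K (joinField ρ) c) = 0)
    (hρ : ∀ z f, D (joinRho ρ z f) = 0) (x : joinField ρ) : D x = 0 := by
  have hx : x ∈ IntermediateField.adjoin K (⋃ z, Set.range (joinRho ρ z)) := by
    rw [hgen]; exact IntermediateField.mem_top
  induction hx using IntermediateField.adjoin_induction with
  | mem y hy =>
    obtain ⟨z, f, rfl⟩ := Set.mem_iUnion.mp hy
    exact hρ z f
  | algebraMap c => exact hK c
  | add a b _ _ ha hb => rw [map_add, ha, hb, add_zero]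
  | inv a _ ha =>
    exact CarDer.leibniz_inv (RingHom.id _) D (fun a b => by
      rw [hD]; rfl) ha
  | mul a b _ _ ha hb => rw [hD, ha, hb, mul_zero, mul_zero, add_zero]

/-- **The carrier is a curve**: the field generated by the moving points of a formal solution
has transcendence degree one (it is algebraic over the image of the parameter point). -/
theorem trdeg_joinField [IsAlgClosed K] [CharZero K] [Algebra.EssFiniteType K F]
    (htr : Algebra.trdeg K F = 1) {g : ℕ} {μ : Option (Fin g) → ℕ}
    (hμ : ∀ z, 0 < μ z) {T : Option (Fin g) → Place K F} (hT : Function.Injective T)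
    (s : PSetup (K := K) (F := F) R μ none T) (hu : ∀ z, s.u z ≠ 0)
    (hnsp : Module.finrank K ↥(riemannRochSpace
      (∑ z ∈ Finset.univ.erase none, Finsupp.single (T z) (1 : ℤ))) = 1) :
    Algebra.trdeg K (joinField (fun z => PRho.rho s z (hu z))) = 1 := by
  classical
  -- notation
  set ρ : Option (Fin g) → (F →ₐ[K] LaurentSeries K) := fun z => PRho.rho s z (hu z) with hρdef
  obtain ⟨δ, hδ⟩ := CarDer.exists_derivation_ne_zero (K := K) (F := F) htr
  set δ' : Option (Fin g) → Derivation K F F := fun z => DX.dX s z δ with hδ'def
  have hδ'X : ∀ z, PRho.IsDX s z (δ' z) := fun z => DX.isDX_dX htr s z hδ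
  have hδ'ne : ∀ z, δ' z ≠ 0 := fun z => DX.dX_ne_zero htr s z hδ
  have : Algebra.EssFiniteType K (joinField ρ) := JoinGen.essFiniteType_joinField ρ
  have hgen := JoinGen.adjoin_range_joinRho ρ
  have hcoe : ∀ x y : Fin (s.m + 1) → joinField ρ,
      ((∑ j, x j * y j : joinField ρ) : LaurentSeries K) =
        ∑ j, (x j : LaurentSeries K) * (y j : LaurentSeries K) := by
    intro x y
    rw [AddSubmonoidClass.coe_finsetSum]
    rfl
  -- the coefficients lie in the join
  have hcmem : ∀ j, HahnSeries.ofPowerSeries ℤ K (s.c j) ∈ joinField ρ := fun j =>
    Desc.c_mem htr hμ hT s hnsp hu δ' hδ'X (joinField ρ).toSubfield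
      (fun z f => map_mem_joinField ρ z f) j
  refine CarAlgCore.trdeg_eq_one_of_isAlgebraic htr (joinRho ρ none) ?_
  -- the join as an algebra over `F` through the parameter point
  let _ : Algebra F (joinField ρ) := (joinRho ρ none).toRingHom.toAlgebra
  have : IsScalarTower K F (joinField ρ) :=
    IsScalarTower.of_algebraMap_eq fun a => ((joinRho ρ none).commutes a).symm
  have : CharZero F := charZero_of_injective_algebraMap (algebraMap K F).injective
  have : Algebra.EssFiniteType F (joinField ρ) := Algebra.EssFiniteType.of_comp K F (joinField ρ)
  have hzero : ∀ D : Derivation F (joinField ρ) (joinField ρ), D = 0 := by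
    intro D
    set D₀ : joinField ρ →+ joinField ρ := (D : joinField ρ →ₗ[F] joinField ρ).toAddMonoidHom
      with hD₀
    have hD₀app : ∀ x, D₀ x = D x := fun x => rfl
    have hLeib : ∀ a b : joinField ρ, D₀ (a * b) = a * D₀ b + b * D₀ a := by
      intro a b
      rw [hD₀app, hD₀app, hD₀app, D.leibniz]
      rfl
    have hρ₀ : ∀ f : F, D₀ ((joinRho ρ none : F →+* joinField ρ) f) = 0 := by
      intro f
      exact D.map_algebraMap f
    have hK : ∀ c : K, D₀ (algebraMap K (joinField ρ) c) = 0 := by
      intro c
      have h := hρ₀ (algebraMap K F c)
      rwa [show (joinRho ρ none : F →+* joinField ρ) (algebraMap K F c)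
        = algebraMap K (joinField ρ) c from (joinRho ρ none).commutes c] at h
    -- the chain coefficients
    have hch : ∀ k : Fin g, ∃ lam : joinField ρ, ∀ f : F,
        D₀ (joinRho ρ (some k) f) = lam * joinRho ρ (some k) (δ' (some k) f) := fun k =>
      DerProfile.exists_chain_coeff htr (hδ'ne (some k)) (joinRho ρ (some k)) D₀ hLeib hK
    choose lam hlam using hch
    have key := DerProfile.derivation_vanish_profile (F := F) (M := joinField ρ)
      (ι := Fin g) (κ := Fin (μ none)) (m := s.m) D₀ hLeib
      (joinRho ρ none : F →+* joinField ρ) hρ₀
      (fun i j => (⇑(δ' none))^[(i : ℕ)] (algebraMap R F (s.r j)))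
      (fun k => (joinRho ρ (some k) : F →+* joinField ρ)) (fun k => μ (some k))
      (fun k => hμ (some k)) (fun k => ⇑(δ' (some k))) lam (fun k f => hlam k f)
      (fun j => ⟨HahnSeries.ofPowerSeries ℤ K (s.c j), hcmem j⟩)
      (Subtype.ext (by
        show HahnSeries.ofPowerSeries ℤ K (s.c 0) = 1
        rw [s.c_zero, map_one]))
      (fun _ j => algebraMap R F (s.r j)) ?_ ?_ ?_ ?_
    · -- `D` vanishes on the generators
      have hall : ∀ z f, D₀ (joinRho ρ z f) = 0 := by
        intro z f
        cases z with
        | none => exact hρ₀ f
        | some k => rw [hlam k f, key.2 k, zero_mul]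
      refine Derivation.ext fun x => ?_
      show D₀ x = 0
      exact leibniz_eq_zero_of_joinRho ρ hgen D₀ hLeib hK hall x
    · -- the equations of the parameter point
      intro i
      apply Subtype.ext
      rw [hcoe]
      exact PRho.jets_prime s none (hu none) (δ' none) (hδ'X none) (i : ℕ) i.2
    · -- the jets of the moving points
      intro k i hi
      apply Subtype.ext
      rw [hcoe]
      exact PRho.jets_prime s (some k) (hu (some k)) (δ' (some k)) (hδ'X (some k)) i hi
    · -- non-degeneracy
      intro x hx0 h0 h1
      have hx : (fun j => ((x j : joinField ρ) : LaurentSeries K)) = 0 := by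
        refine NondegL.nondeg_rho htr hμ hT s hnsp hu δ' hδ'X _ ?_ ?_ ?_
        · show ((x 0 : joinField ρ) : LaurentSeries K) = 0
          rw [hx0]; rfl
        · intro i hi
          have h := congrArg (fun y : joinField ρ => (y : LaurentSeries K)) (h0 ⟨i, hi⟩)
          rw [← PRho.rho_param s (hu none)]
          rw [hcoe] at h
          exact h
        · intro k i hi
          have h := congrArg (fun y : joinField ρ => (y : LaurentSeries K)) (h1 k i hi)
          rw [hcoe] at h
          exact h
      funext j
      apply Subtype.ext
      exact congrFun hx j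
    · -- the leading coefficients
      intro k h0
      have h := PRho.lead s (some k) (hu (some k)) (δ' (some k)) (hδ'X (some k))
      apply h
      have h' := congrArg (fun y : joinField ρ => (y : LaurentSeries K)) h0
      rw [hcoe] at h'
      exact h'
  have : Algebra.IsAlgebraic F (joinField ρ) :=
    CarAlgCore.isAlgebraic_of_forall_derivation_eq_zero hzero
  intro x
  exact (Algebra.IsAlgebraic.isAlgebraic (R := F) x).isIntegral

end Fermat.Agent.S27.C.Alg
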