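import Mathlib
import Fermat.Prelude.Def_AlgebraicCurve_Repartitions
import Fermat.Prelude.Def_AlgebraicCurve_IsCurveOver
import Fermat.Agent.S24.FF.Ord

/-!
# Program PJ (statement S27), strand C: the base place of a subfield of `K⸨X⸩`

Let `M / K` be a field with a `K`-embedding `E : M →ₐ[K] K⸨X⸩` and an element `x` with
`(E x).order = 1` (for the carrier of a configuration: `M` is the subfield of `K⸨X⸩` generated by
the moving embeddings, `E` the inclusion and `x` the image of a uniformiser at the base position
of the parameter point, `E x = X`).  Then the `X`-adic order restricts to a place of `M`: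

* `order_of_eq_X`      : `E x = X` gives the hypothesis `(E x).order = 1`;
* `valSub E`           : the valuation subring `{a | 0 ≤ (E a).order}` of `M`;
* `place E x hx`       : the place of `M / K` with this valuation subring;
* `mem_place_iff`      : `a ∈ (place E x hx).toValuationSubring ↔ 0 ≤ (E a).order`;
* `ord_place`          : `(place E x hx).ord a = (E a).order` for every `a`;
* `comap_place_eq`     : for `ρ : F →ₐ[K] M` and a place `T` of `F` with
  `(E (ρ f)).order = e * T.ord f` (`e ≥ 1`), `T` is the centre of `ρ` at the place: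
  `T.toValuationSubring = (place E x hx).toValuationSubring.comap ρ`
  (this is `S17.HB.Loc3.IsCentre ρ (place E x hx) T`, by definition);
* `ord_place_map`      : in that situation `(place E x hx).ord (ρ f) = e * T.ord f`.
-/

set_option autoImplicit false

open AlgebraicCurve

namespace Fermat.Agent.S27.C.BasePlace

variable {K M : Type*} [Field K] [Field M] [Algebra K M]

/-! ## The order of the expansion -/

theorem map_ne_zero' (E : M →ₐ[K] LaurentSeries K) {a : M} (ha : a ≠ 0) : E a ≠ 0 :=
  (map_ne_zero_iff _ E.toRingHom.injective).mpr ha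

/-- The order is additive on products. -/
theorem order_map_mul (E : M →ₐ[K] LaurentSeries K) {a b : M} (ha : a ≠ 0) (hb : b ≠ 0) :
    (E (a * b)).order = (E a).order + (E b).order := by
  rw [map_mul]
  exact HahnSeries.order_mul (map_ne_zero' E ha) (map_ne_zero' E hb)

/-- The order of an inverse. -/
theorem order_map_inv (E : M →ₐ[K] LaurentSeries K) (a : M) :
    (E a⁻¹).order = -(E a).order := by
  rcases eq_or_ne a 0 with rfl | ha
  · simp
  · have h := order_map_mul E ha (inv_ne_zero ha)
    rw [mul_inv_cancel₀ ha, map_one, HahnSeries.order_one] at h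
    omega

/-- The order of an integer power. -/
theorem order_map_zpow (E : M →ₐ[K] LaurentSeries K) {a : M} (ha : a ≠ 0) (n : ℤ) :
    (E (a ^ n)).order = n * (E a).order := by
  induction n using Int.induction_on with
  | zero => simp
  | succ k ih =>
    rw [zpow_add_one₀ ha, order_map_mul E (zpow_ne_zero _ ha) ha, ih]
    ring
  | pred k ih =>
    rw [zpow_sub_one₀ ha, order_map_mul E (zpow_ne_zero _ ha) (inv_ne_zero ha), ih,
      order_map_inv]
    ring

/-- An element whose expansion is `X` has order `1` (the hypothesis `hx` of `place`). -/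
theorem order_of_eq_X (E : M →ₐ[K] LaurentSeries K) {x : M}
    (hx : E x = HahnSeries.single 1 1) : (E x).order = 1 := by
  rw [hx]
  exact HahnSeries.order_single one_ne_zero

/-! ## The valuation subring -/

/-- The valuation subring of the elements whose expansion has non-negative order. -/
def valSub (E : M →ₐ[K] LaurentSeries K) : ValuationSubring M where
  carrier := {a | 0 ≤ (E a).order}
  mul_mem' := by
    intro a b ha hb
    rw [Set.mem_ofPred_eq] at ha hb ⊢
    rcases eq_or_ne a 0 with rfl | ha0
    · simp
    rcases eq_or_ne b 0 with rfl | hb0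
    · simp
    rw [order_map_mul E ha0 hb0]
    omega
  one_mem' := by
    rw [Set.mem_ofPred_eq, map_one, HahnSeries.order_one]
  add_mem' := by
    intro a b ha hb
    rw [Set.mem_ofPred_eq] at ha hb ⊢
    by_cases h : E a + E b = 0
    · rw [map_add, h, HahnSeries.order_zero]
    · rw [map_add]
      exact le_trans (le_min ha hb) (HahnSeries.min_order_le_order_add h)
  zero_mem' := by
    rw [Set.mem_ofPred_eq, map_zero, HahnSeries.order_zero]
  neg_mem' := by
    intro a ha
    rw [Set.mem_ofPred_eq] at ha ⊢
    rw [map_neg, HahnSeries.order_neg]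
    exact ha
  mem_or_inv_mem' := by
    intro a
    rcases le_total 0 (E a).order with h | h
    · exact Or.inl h
    · right
      show 0 ≤ (E a⁻¹).order
      rw [order_map_inv]
      omega

theorem mem_valSub_iff (E : M →ₐ[K] LaurentSeries K) (a : M) :
    a ∈ valSub E ↔ 0 ≤ (E a).order := Iff.rfl

/-- Constants have order `0`. -/
theorem order_map_algebraMap (E : M →ₐ[K] LaurentSeries K) (c : K) :
    (E (algebraMap K M c)).order = 0 := by
  have halg : algebraMap K (LaurentSeries K) c
      = HahnSeries.ofPowerSeries ℤ K (PowerSeries.C c) := rfl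
  rw [AlgHom.commutes, halg, HahnSeries.ofPowerSeries_C]
  exact HahnSeries.order_C

/-- The valuation subring is a principal ideal ring: a non-zero ideal is generated by an element
of least order. -/
theorem isPrincipalIdealRing_valSub (E : M →ₐ[K] LaurentSeries K) :
    IsPrincipalIdealRing ↥(valSub E) := by
  classical
  refine ⟨fun I => ?_⟩
  by_cases hI : I = ⊥
  · exact ⟨⟨0, by rw [hI]; exact (Submodule.span_zero_singleton _).symm⟩⟩
  obtain ⟨a₀, ha₀I, ha₀0⟩ := Submodule.exists_mem_ne_zero_of_ne_bot hI
  have hex : ∃ n : ℕ, ∃ a ∈ I, a ≠ 0 ∧ (E (a : M)).order.toNat = n := ⟨_, a₀, ha₀I, ha₀0, rfl⟩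
  obtain ⟨a, haI, ha0, han⟩ := Nat.find_spec hex
  have hmin : ∀ b ∈ I, b ≠ 0 → (E (a : M)).order ≤ (E (b : M)).order := by
    intro b hbI hb0
    have h1 := Nat.find_min' hex ⟨b, hbI, hb0, rfl⟩
    have h2 : 0 ≤ (E (a : M)).order := a.2
    have h3 : 0 ≤ (E (b : M)).order := b.2
    omega
  have haM : (a : M) ≠ 0 := fun h => ha0 (Subtype.ext h)
  refine ⟨⟨a, le_antisymm ?_ ?_⟩⟩
  · intro b hbI
    rcases eq_or_ne b 0 with rfl | hb0
    · exact Submodule.zero_mem _
    have hbM : (b : M) ≠ 0 := fun h => hb0 (Subtype.ext h)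
    have hc : (b : M) * (a : M)⁻¹ ∈ valSub E := by
      rw [mem_valSub_iff, order_map_mul E hbM (inv_ne_zero haM), order_map_inv]
      have := hmin b hbI hb0
      omega
    rw [Submodule.mem_span_singleton]
    refine ⟨⟨(b : M) * (a : M)⁻¹, hc⟩, Subtype.ext ?_⟩
    show (b : M) * (a : M)⁻¹ * (a : M) = (b : M)
    rw [inv_mul_cancel_right₀ haM]
  · rw [Submodule.span_singleton_le_iff_mem]
    exact haI

/-- The valuation subring is not the whole field. -/
theorem valSub_ne_top (E : M →ₐ[K] LaurentSeries K) (x : M) (hx : (E x).order = 1) :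
    valSub E ≠ ⊤ := by
  intro h
  have h1 : x⁻¹ ∈ valSub E := by rw [h]; exact ValuationSubring.mem_top _
  rw [mem_valSub_iff, order_map_inv, hx] at h1
  omega

/-! ## The place -/

/-- **The base place**: the place of `M / K` cut out by the `X`-adic order of the expansion. -/
noncomputable def place (E : M →ₐ[K] LaurentSeries K) (x : M) (hx : (E x).order = 1) :
    Place K M where
  toValuationSubring := valSub E
  algebraMap_mem' := fun c => by
    rw [mem_valSub_iff, order_map_algebraMap]
  ne_top' := valSub_ne_top E x hx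
  isPrincipalIdealRing' := isPrincipalIdealRing_valSub E

theorem mem_place_iff (E : M →ₐ[K] LaurentSeries K) (x : M) (hx : (E x).order = 1) (a : M) :
    a ∈ (place E x hx).toValuationSubring ↔ 0 ≤ (E a).order := Iff.rfl

/-- **The order at the base place is the order of the expansion.** -/
theorem ord_place (E : M →ₐ[K] LaurentSeries K) (x : M) (hx : (E x).order = 1) (a : M) :
    (place E x hx).ord a = (E a).order := by
  have hx0 : x ≠ 0 := by
    rintro rfl
    rw [map_zero, HahnSeries.order_zero] at hx
    omega
  -- the order at the place is `d` times the order of the expansion, `d = ord x`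
  have key : ∀ b : M, b ≠ 0 → (place E x hx).ord b = (E b).order * (place E x hx).ord x := by
    intro b hb
    have hc0 : b * x ^ (-(E b).order) ≠ 0 := mul_ne_zero hb (zpow_ne_zero _ hx0)
    have hc : (E (b * x ^ (-(E b).order))).order = 0 := by
      rw [order_map_mul E hb (zpow_ne_zero _ hx0), order_map_zpow E hx0, hx]
      ring
    have h1 : 0 ≤ (place E x hx).ord (b * x ^ (-(E b).order)) :=
      Fermat.Agent.S24.FF.ord_nonneg_of_mem _ ((mem_place_iff E x hx _).mpr (by rw [hc]))
    have h2 : 0 ≤ (place E x hx).ord (b * x ^ (-(E b).order))⁻¹ :=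
      Fermat.Agent.S24.FF.ord_nonneg_of_mem _
        ((mem_place_iff E x hx _).mpr (by rw [order_map_inv, hc]; simp))
    rw [Place.ord_inv] at h2
    rw [Place.ord_mul _ hb (zpow_ne_zero _ hx0), Place.ord_zpow] at h1 h2
    have h3 : (place E x hx).ord b + -(E b).order * (place E x hx).ord x = 0 := by omega
    linarith
  obtain ⟨ϖ, hϖ⟩ := IsDiscreteValuationRing.exists_irreducible (place E x hx).toValuationSubring
  have hϖ1 : (place E x hx).ord (ϖ : M) = 1 := (place E x hx).ord_coe_irreducible hϖ
  have hϖ0 : (ϖ : M) ≠ 0 := by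
    rintro h
    rw [h, Place.ord_zero] at hϖ1
    omega
  have hd := key (ϖ : M) hϖ0
  rw [hϖ1] at hd
  have hd0 : 0 ≤ (place E x hx).ord x :=
    Fermat.Agent.S24.FF.ord_nonneg_of_mem _ ((mem_place_iff E x hx _).mpr (by rw [hx]; omega))
  have hd1 : (place E x hx).ord x = 1 := by
    rcases Int.eq_one_or_neg_one_of_mul_eq_one' hd.symm with ⟨-, h⟩ | ⟨-, h⟩
    · exact h
    · omega
  rcases eq_or_ne a 0 with rfl | ha
  · simp
  · rw [key a ha, hd1, mul_one]

/-! ## Centres -/

section Centre

variable {F : Type*} [Field F] [Algebra K F]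

/-- **The centre of an embedding at the base place**: if the expansion of `ρ f` has order
`e * T.ord f` (`e ≥ 1`), then `T` is the centre of `ρ` at the base place
(`S17.HB.Loc3.IsCentre ρ (place E x hx) T`, unfolded). -/
theorem comap_place_eq (E : M →ₐ[K] LaurentSeries K) (x : M) (hx : (E x).order = 1)
    (ρ : F →ₐ[K] M) (T : Place K F) (e : ℕ) (he : 0 < e)
    (hρ : ∀ f : F, f ≠ 0 → (E (ρ f)).order = (e : ℤ) * T.ord f) :
    T.toValuationSubring = (place E x hx).toValuationSubring.comap (ρ : F →+* M) := by
  ext f
  rw [ValuationSubring.mem_comap]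
  show f ∈ T.toValuationSubring ↔ 0 ≤ (E (ρ f)).order
  rcases eq_or_ne f 0 with rfl | hf
  · simp
  rw [hρ f hf, ← Fermat.Agent.S24.FF.ord_nonneg_iff T hf]
  have he' : (0 : ℤ) < (e : ℤ) := by exact_mod_cast he
  constructor
  · intro h
    exact mul_nonneg he'.le h
  · intro h
    by_contra hneg
    have := mul_neg_of_pos_of_neg he' (not_le.mp hneg)
    omega

/-- The order of `ρ f` at the base place. -/
theorem ord_place_map (E : M →ₐ[K] LaurentSeries K) (x : M) (hx : (E x).order = 1)
    (ρ : F →ₐ[K] M) (T : Place K F) (e : ℤ)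
    (hρ : ∀ f : F, f ≠ 0 → (E (ρ f)).order = e * T.ord f) (f : F) :
    (place E x hx).ord (ρ f) = e * T.ord f := by
  rcases eq_or_ne f 0 with rfl | hf
  · simp
  · rw [ord_place, hρ f hf]

end Centre

end Fermat.Agent.S27.C.BasePlace
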