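import Mathlib
import Fermat.Agent.S17.D.FormalDefs
import Fermat.Agent.S17.D.SubstEst
import Fermat.Agent.S17.D.ContractionConst

/-!
# Program PJ (statement S27), strand C: the formal system of a multiplicity profile

Pure power series over a field `K`; no curve.  This is leaf D2 of strand D (`S17/D/Formal*`)
for an arbitrary multiplicity profile, with UNIQUENESS of the formal solution.

Data: `g` moving points with multiplicities `μ z` (`z : Fin g`), one parameter point of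
multiplicity `μ₀`, `m + 1` coefficient functions (`m + g = μ₀ + ∑ z, μ z`: the system is square);

* `β z j : K⟦X⟧` the expansion of the `j`-th function at the base position of the `z`-th
  moving point (after clearing its pole there);
* `ω j : K⟦X⟧` the expansion of the `j`-th function at the base position of the parameter
  point (after clearing its pole there).

Unknowns `x : Fin m ⊕ Fin g → K⟦X⟧`: the coefficients `c_1, …, c_m` (`Sum.inl`; `c_0 = 1`) and
the local coordinates `u_z` of the moving points (`Sum.inr`).  Equations, indexed by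
`Fin μ₀ ⊕ (Σ z, Fin (μ z))`:

* `Sum.inl i`      : `∑ j, c j * hasse i (ω j) = 0`
    (`∑ j, c j ω j` vanishes to order `μ₀` at the parameter point, whose coordinate is `X`);
* `Sum.inr ⟨z, i⟩` : `∑ j, c j * (hasse i (β z j)).subst (u z) = 0`
    (`∑ j, c j β z j` vanishes to order `μ z` at the `z`-th moving point).

Main results:

* `exists_unique_zero`      : `∃! x, (∀ v, X ∣ x v) ∧ G x = 0`;
* `exists_formal_solution`  : the solution in unfolded form `(c, u)`;
* `formal_solution_unique`  : two solutions `(c, u)`, `(c', u')` in the domain coincide.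

Hypotheses: `coeff i (β z 0) = 0` for `i < μ z`, `coeff (μ z) (β z 0) ≠ 0`, `(μ z : K) ≠ 0`,
`coeff i (ω 0) = 0` for `i < μ₀` (the base point `c = (1, 0, …, 0)`, `u = 0` is a solution
modulo `X`) and the non-degeneracy `hnd` (a combination of the functions `j ≥ 1` with at most
simple poles at the moving points and no pole at the parameter point is zero: `L(E) = K`).

Imports `S17/D/FormalDefs` (`cvec`), `S17/D/SubstEst`, `S17/D/ContractionConst` (all on main).
-/

set_option autoImplicit false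

namespace Fermat.Agent.S27.C.FormalProfile

open PowerSeries
open Fermat.Agent.S17.D (hasse coeff_hasse constantCoeff_hasse)
open Fermat.Agent.S17.D.Formal (cvec cvec_zero cvec_succ)

variable {K : Type*} [Field K]

/-! ## Two block estimates -/

/-- The estimate for a block without substitution: `∑ j, c j * γ j` has linear part
`∑ j, γ_j(0) (c j - c' j)`. -/
theorem dvd_linear_block {σ : Type*} [Fintype σ] (γ : σ → PowerSeries K)
    {c c' : σ → PowerSeries K} {d : ℕ}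
    (hcd : ∀ j, (X : PowerSeries K) ^ d ∣ c j - c' j) :
    (X : PowerSeries K) ^ (d + 1) ∣ ∑ j, c j * γ j - ∑ j, c' j * γ j
      - ∑ j, C (constantCoeff (γ j)) * (c j - c' j) := by
  rw [← Finset.sum_sub_distrib, ← Finset.sum_sub_distrib]
  refine Finset.dvd_sum fun j _ => ?_
  have e : c j * γ j - c' j * γ j - C (constantCoeff (γ j)) * (c j - c' j)
      = (c j - c' j) * (γ j - C (constantCoeff (γ j))) := by ring
  rw [e, pow_succ]
  refine mul_dvd_mul (hcd j) ?_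
  rw [X_dvd_iff, map_sub, constantCoeff_C, sub_self]

/-- The estimate for a block `E(c, u) = ∑ j, c j * (φ j)(u)` with `c 0 = 1`: on the domain
(`c j`, `j ≠ 0`, and `u` divisible by `X`) its linear part at the base point is
`∑ j, φ_{j+1}(0) (c (j+1) - c' (j+1)) + φ_0'(0) (u - u')`. -/
theorem dvd_subst_block {m : ℕ} (φ : Fin (m + 1) → PowerSeries K)
    {c c' : Fin (m + 1) → PowerSeries K} {u u' : PowerSeries K} (hc0 : c 0 = 1) (hc'0 : c' 0 = 1)
    (hc' : ∀ j : Fin m, (X : PowerSeries K) ∣ c' j.succ)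
    (hu : (X : PowerSeries K) ∣ u) (hu' : (X : PowerSeries K) ∣ u') {d : ℕ}
    (hcd : ∀ j : Fin m, (X : PowerSeries K) ^ d ∣ c j.succ - c' j.succ)
    (hud : (X : PowerSeries K) ^ d ∣ u - u') :
    (X : PowerSeries K) ^ (d + 1) ∣ ∑ j, c j * (φ j).subst u - ∑ j, c' j * (φ j).subst u'
      - (∑ j : Fin m, C (constantCoeff (φ j.succ)) * (c j.succ - c' j.succ)
          + C (coeff 1 (φ 0)) * (u - u')) := by
  have e : ∑ j, c j * (φ j).subst u - ∑ j, c' j * (φ j).subst u'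
      - (∑ j : Fin m, C (constantCoeff (φ j.succ)) * (c j.succ - c' j.succ)
          + C (coeff 1 (φ 0)) * (u - u'))
      = ((φ 0).subst u - (φ 0).subst u' - C (coeff 1 (φ 0)) * (u - u'))
        + ∑ j : Fin m, (c j.succ * (φ j.succ).subst u - c' j.succ * (φ j.succ).subst u'
            - C (constantCoeff (φ j.succ)) * (c j.succ - c' j.succ)) := by
    rw [Fin.sum_univ_succ, Fin.sum_univ_succ, hc0, hc'0,
      Finset.sum_sub_distrib, Finset.sum_sub_distrib]
    ring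
  rw [e]
  refine dvd_add (Fermat.Agent.S17.D.SubstEst.dvd_subst_sub_subst_sub (φ 0) hu hu' d hud)
    (Finset.dvd_sum fun j _ => ?_)
  have e2 : c j.succ * (φ j.succ).subst u - c' j.succ * (φ j.succ).subst u'
      - C (constantCoeff (φ j.succ)) * (c j.succ - c' j.succ)
      = (c j.succ - c' j.succ) * ((φ j.succ).subst u - C (constantCoeff (φ j.succ)))
        + c' j.succ * ((φ j.succ).subst u - (φ j.succ).subst u') := by ring
  rw [e2]
  refine dvd_add ?_ ?_
  · rw [pow_succ]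
    exact mul_dvd_mul (hcd j) (Fermat.Agent.S17.D.SubstEst.dvd_subst_sub_C (φ j.succ) hu)
  · rw [pow_succ']
    exact mul_dvd_mul (hc' j)
      (Fermat.Agent.S17.D.SubstEst.dvd_subst_sub_subst (φ j.succ) hu hu' d hud)

/-! ## The system and its Jacobian -/

/-- The formal system of a multiplicity profile. -/
noncomputable def G (μ₀ : ℕ) {g m : ℕ} (μ : Fin g → ℕ) (β : Fin g → Fin (m + 1) → PowerSeries K)
    (ω : Fin (m + 1) → PowerSeries K) (x : Fin m ⊕ Fin g → PowerSeries K) :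
    Fin μ₀ ⊕ (Σ z : Fin g, Fin (μ z)) → PowerSeries K :=
  fun e => match e with
  | Sum.inl i => ∑ j, cvec x j * hasse (i : ℕ) (ω j)
  | Sum.inr ⟨z, i⟩ => ∑ j, cvec x j * (hasse (i : ℕ) (β z j)).subst (x (Sum.inr z))

theorem G_inl (μ₀ : ℕ) {g m : ℕ} (μ : Fin g → ℕ) (β : Fin g → Fin (m + 1) → PowerSeries K)
    (ω : Fin (m + 1) → PowerSeries K) (x : Fin m ⊕ Fin g → PowerSeries K) (i : Fin μ₀) :
    G μ₀ μ β ω x (Sum.inl i) = ∑ j, cvec x j * hasse (i : ℕ) (ω j) := rfl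

theorem G_inr (μ₀ : ℕ) {g m : ℕ} (μ : Fin g → ℕ) (β : Fin g → Fin (m + 1) → PowerSeries K)
    (ω : Fin (m + 1) → PowerSeries K) (x : Fin m ⊕ Fin g → PowerSeries K) (z : Fin g)
    (i : Fin (μ z)) :
    G μ₀ μ β ω x (Sum.inr ⟨z, i⟩) =
      ∑ j, cvec x j * (hasse (i : ℕ) (β z j)).subst (x (Sum.inr z)) := rfl

/-- The Jacobian of the system at the base point `c = (1, 0, …, 0)`, `u = 0`, modulo `X`. -/
noncomputable def J (μ₀ : ℕ) {g m : ℕ} (μ : Fin g → ℕ) (β : Fin g → Fin (m + 1) → PowerSeries K)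
    (ω : Fin (m + 1) → PowerSeries K) :
    Matrix (Fin μ₀ ⊕ (Σ z : Fin g, Fin (μ z))) (Fin m ⊕ Fin g) K :=
  Matrix.of fun e v => match e, v with
  | Sum.inl i, Sum.inl j => coeff (i : ℕ) (ω j.succ)
  | Sum.inl _, Sum.inr _ => 0
  | Sum.inr ⟨z, i⟩, Sum.inl j => coeff (i : ℕ) (β z j.succ)
  | Sum.inr ⟨z, i⟩, Sum.inr z' =>
      if z' = z then (((i : ℕ) + 1 : ℕ) : K) * coeff ((i : ℕ) + 1) (β z 0) else 0

theorem J_inl_inl (μ₀ : ℕ) {g m : ℕ} (μ : Fin g → ℕ) (β : Fin g → Fin (m + 1) → PowerSeries K)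
    (ω : Fin (m + 1) → PowerSeries K) (i : Fin μ₀) (j : Fin m) :
    J μ₀ μ β ω (Sum.inl i) (Sum.inl j) = coeff (i : ℕ) (ω j.succ) := rfl

theorem J_inl_inr (μ₀ : ℕ) {g m : ℕ} (μ : Fin g → ℕ) (β : Fin g → Fin (m + 1) → PowerSeries K)
    (ω : Fin (m + 1) → PowerSeries K) (i : Fin μ₀) (z' : Fin g) :
    J μ₀ μ β ω (Sum.inl i) (Sum.inr z') = 0 := rfl

theorem J_inr_inl (μ₀ : ℕ) {g m : ℕ} (μ : Fin g → ℕ) (β : Fin g → Fin (m + 1) → PowerSeries K)
    (ω : Fin (m + 1) → PowerSeries K) (z : Fin g) (i : Fin (μ z)) (j : Fin m) :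
    J μ₀ μ β ω (Sum.inr ⟨z, i⟩) (Sum.inl j) = coeff (i : ℕ) (β z j.succ) := rfl

theorem J_inr_inr (μ₀ : ℕ) {g m : ℕ} (μ : Fin g → ℕ) (β : Fin g → Fin (m + 1) → PowerSeries K)
    (ω : Fin (m + 1) → PowerSeries K) (z : Fin g) (i : Fin (μ z)) (z' : Fin g) :
    J μ₀ μ β ω (Sum.inr ⟨z, i⟩) (Sum.inr z') =
      if z' = z then (((i : ℕ) + 1 : ℕ) : K) * coeff ((i : ℕ) + 1) (β z 0) else 0 := rfl

/-! ## The two estimates -/

theorem cvec_zero_fun_succ {g m : ℕ} (j : Fin m) :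
    cvec (0 : Fin m ⊕ Fin g → PowerSeries K) j.succ = 0 := by
  rw [cvec_succ]
  rfl

/-- The base point solves the system modulo `X`. -/
theorem G_zero_dvd (μ₀ : ℕ) {g m : ℕ} (μ : Fin g → ℕ) (β : Fin g → Fin (m + 1) → PowerSeries K)
    (ω : Fin (m + 1) → PowerSeries K)
    (hβ0 : ∀ z, ∀ i < μ z, coeff i (β z 0) = 0) (hω0 : ∀ i < μ₀, coeff i (ω 0) = 0) :
    ∀ e, (X : PowerSeries K) ∣ G μ₀ μ β ω 0 e := by
  intro e
  rcases e with i | ⟨z, i⟩
  · rw [G_inl, Fin.sum_univ_succ, cvec_zero, one_mul]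
    simp only [cvec_zero_fun_succ, zero_mul, Finset.sum_const_zero, add_zero]
    rw [X_dvd_iff, constantCoeff_hasse]
    exact hω0 i i.2
  · rw [G_inr, Fin.sum_univ_succ, cvec_zero, one_mul]
    simp only [cvec_zero_fun_succ, zero_mul, Finset.sum_const_zero, add_zero, Pi.zero_apply]
    have h := Fermat.Agent.S17.D.SubstEst.dvd_subst_sub_C (hasse (i : ℕ) (β z 0))
      (u := (0 : PowerSeries K)) (dvd_zero X)
    rw [constantCoeff_hasse, hβ0 z i i.2, map_zero, sub_zero] at h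
    exact h

/-- **The first-order estimate for the system of a profile** (no hypothesis on `β`, `ω`). -/
theorem G_estimate (μ₀ : ℕ) {g m : ℕ} (μ : Fin g → ℕ) (β : Fin g → Fin (m + 1) → PowerSeries K)
    (ω : Fin (m + 1) → PowerSeries K) :
    ∀ (k : ℕ) (x y : Fin m ⊕ Fin g → PowerSeries K), (∀ v, (X : PowerSeries K) ∣ x v) →
      (∀ v, (X : PowerSeries K) ∣ y v) → (∀ v, (X : PowerSeries K) ^ k ∣ x v - y v) →
      ∀ e, (X : PowerSeries K) ^ (k + 1) ∣
        G μ₀ μ β ω x e - G μ₀ μ β ω y e - ∑ v, C (J μ₀ μ β ω e v) * (x v - y v) := by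
  classical
  intro d x y hx hy hxy e
  rcases e with i | ⟨z, i⟩
  · have h := dvd_linear_block (fun j : Fin m => hasse (i : ℕ) (ω j.succ))
      (c := fun j => x (Sum.inl j)) (c' := fun j => y (Sum.inl j)) (d := d)
      (fun j => hxy (Sum.inl j))
    have e1 : G μ₀ μ β ω x (Sum.inl i) - G μ₀ μ β ω y (Sum.inl i)
          - ∑ v, C (J μ₀ μ β ω (Sum.inl i) v) * (x v - y v)
        = ∑ j : Fin m, x (Sum.inl j) * hasse (i : ℕ) (ω j.succ)
          - ∑ j : Fin m, y (Sum.inl j) * hasse (i : ℕ) (ω j.succ)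
          - ∑ j : Fin m, C (constantCoeff (hasse (i : ℕ) (ω j.succ)))
              * (x (Sum.inl j) - y (Sum.inl j)) := by
      rw [G_inl, G_inl, Fin.sum_univ_succ, Fin.sum_univ_succ, Fintype.sum_sum_type]
      simp only [cvec_zero, cvec_succ, J_inl_inl, J_inl_inr, map_zero, zero_mul,
        Finset.sum_const_zero, add_zero, constantCoeff_hasse]
      ring
    rw [e1]
    exact h
  · have hc1 : coeff 1 (hasse (i : ℕ) (β z 0))
        = (((i : ℕ) + 1 : ℕ) : K) * coeff ((i : ℕ) + 1) (β z 0) := by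
      rw [coeff_hasse, Nat.add_comm 1 (i : ℕ), Nat.choose_succ_self_right]
    have h := dvd_subst_block (fun j => hasse (i : ℕ) (β z j)) (c := cvec x) (c' := cvec y)
      (u := x (Sum.inr z)) (u' := y (Sum.inr z)) (cvec_zero x) (cvec_zero y)
      (fun j => by rw [cvec_succ]; exact hy _) (hx _) (hy _) (d := d)
      (fun j => by rw [cvec_succ, cvec_succ]; exact hxy _) (hxy _)
    have hs : ∑ z' : Fin g, C (J μ₀ μ β ω (Sum.inr ⟨z, i⟩) (Sum.inr z'))
          * (x (Sum.inr z') - y (Sum.inr z'))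
        = C ((((i : ℕ) + 1 : ℕ) : K) * coeff ((i : ℕ) + 1) (β z 0))
          * (x (Sum.inr z) - y (Sum.inr z)) := by
      rw [Finset.sum_eq_single z]
      · rw [J_inr_inr, if_pos rfl]
      · intro z' _ hz'
        rw [J_inr_inr, if_neg hz', map_zero, zero_mul]
      · intro hz
        exact absurd (Finset.mem_univ z) hz
    have e1 : G μ₀ μ β ω x (Sum.inr ⟨z, i⟩) - G μ₀ μ β ω y (Sum.inr ⟨z, i⟩)
          - ∑ v, C (J μ₀ μ β ω (Sum.inr ⟨z, i⟩) v) * (x v - y v)
        = ∑ j, cvec x j * (hasse (i : ℕ) (β z j)).subst (x (Sum.inr z))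
          - ∑ j, cvec y j * (hasse (i : ℕ) (β z j)).subst (y (Sum.inr z))
          - (∑ j : Fin m, C (constantCoeff (hasse (i : ℕ) (β z j.succ)))
                * (cvec x j.succ - cvec y j.succ)
              + C (coeff 1 (hasse (i : ℕ) (β z 0))) * (x (Sum.inr z) - y (Sum.inr z))) := by
      rw [G_inr, G_inr, Fintype.sum_sum_type, hs, hc1]
      simp only [J_inr_inl, constantCoeff_hasse, cvec_succ]
    rw [e1]
    exact h

/-! ## The system is square and its Jacobian is injective -/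

/-- The system is square. -/
theorem card_eq (μ₀ g m : ℕ) (μ : Fin g → ℕ) (hm : m + g = μ₀ + ∑ z, μ z) :
    Fintype.card (Fin m ⊕ Fin g) = Fintype.card (Fin μ₀ ⊕ (Σ z : Fin g, Fin (μ z))) := by
  simp only [Fintype.card_sum, Fintype.card_fin, Fintype.card_sigma]
  exact hm

/-- The Jacobian at the base point is injective. -/
theorem J_injective (μ₀ : ℕ) {g m : ℕ} (μ : Fin g → ℕ) (hμ : ∀ z, 0 < μ z)
    (hμK : ∀ z, ((μ z : ℕ) : K) ≠ 0)
    (β : Fin g → Fin (m + 1) → PowerSeries K) (ω : Fin (m + 1) → PowerSeries K)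
    (hβ0 : ∀ z, ∀ i < μ z, coeff i (β z 0) = 0)
    (hβμ : ∀ z, coeff (μ z) (β z 0) ≠ 0)
    (hnd : ∀ x : Fin (m + 1) → K, x 0 = 0 →
      (∀ z, ∀ i, i + 1 < μ z → coeff i (∑ j, x j • β z j) = 0) →
      (∀ i < μ₀, coeff i (∑ j, x j • ω j) = 0) → x = 0)
    (v : Fin m ⊕ Fin g → K) (hv : (J μ₀ μ β ω).mulVec v = 0) : v = 0 := by
  classical
  have hrow0 : ∀ i : Fin μ₀, ∑ j : Fin m, coeff (i : ℕ) (ω j.succ) * v (Sum.inl j) = 0 := by
    intro i
    have h := congrFun hv (Sum.inl i)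
    simp only [Matrix.mulVec, dotProduct, Fintype.sum_sum_type, J_inl_inl, J_inl_inr, zero_mul,
      Finset.sum_const_zero, add_zero, Pi.zero_apply] at h
    exact h
  have hrow : ∀ (z : Fin g) (i : Fin (μ z)),
      ∑ j : Fin m, coeff (i : ℕ) (β z j.succ) * v (Sum.inl j)
        + (((i : ℕ) + 1 : ℕ) : K) * coeff ((i : ℕ) + 1) (β z 0) * v (Sum.inr z) = 0 := by
    intro z i
    have h := congrFun hv (Sum.inr ⟨z, i⟩)
    simp only [Matrix.mulVec, dotProduct, Fintype.sum_sum_type, J_inr_inl, J_inr_inr,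
      Pi.zero_apply] at h
    rw [← h]
    congr 1
    rw [Finset.sum_eq_single z]
    · rw [if_pos rfl]
    · intro z' _ hz'
      rw [if_neg hz', zero_mul]
    · intro hz
      exact absurd (Finset.mem_univ z) hz
  set x : Fin (m + 1) → K := Fin.cons 0 (fun j => v (Sum.inl j)) with hx
  have hx0 : x 0 = 0 := rfl
  have hxs : ∀ j : Fin m, x j.succ = v (Sum.inl j) := fun j => by simp [hx]
  have h1 : ∀ z, ∀ i, i + 1 < μ z → coeff i (∑ j, x j • β z j) = 0 := by
    intro z i hi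
    rw [map_sum, Fin.sum_univ_succ, hx0, zero_smul, map_zero, zero_add]
    have h := hrow z ⟨i, by omega⟩
    simp only at h
    rw [hβ0 z (i + 1) hi, mul_zero, zero_mul, add_zero] at h
    rw [← h]
    refine Finset.sum_congr rfl fun j _ => ?_
    rw [hxs, coeff_smul, smul_eq_mul, mul_comm]
  have h2 : ∀ i < μ₀, coeff i (∑ j, x j • ω j) = 0 := by
    intro i hi
    rw [map_sum, Fin.sum_univ_succ, hx0, zero_smul, map_zero, zero_add, ← hrow0 ⟨i, hi⟩]
    refine Finset.sum_congr rfl fun j _ => ?_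
    rw [hxs, coeff_smul, smul_eq_mul, mul_comm]
  have hxz := hnd x hx0 h1 h2
  have hinl : ∀ j, v (Sum.inl j) = 0 := fun j => by
    rw [← hxs, hxz]
    rfl
  have hinr : ∀ z, v (Sum.inr z) = 0 := by
    intro z
    have hz := hμ z
    have h := hrow z ⟨μ z - 1, by omega⟩
    simp only [hinl, mul_zero, Finset.sum_const_zero, zero_add] at h
    have e : μ z - 1 + 1 = μ z := by omega
    rw [e] at h
    rcases mul_eq_zero.mp h with h | h
    · rcases mul_eq_zero.mp h with h | h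
      · exact absurd h (hμK z)
      · exact absurd h (hβμ z)
    · exact h
  funext a
  rcases a with j | z
  · exact hinl j
  · exact hinr z

/-! ## The formal solution: existence and uniqueness -/

/-- **The formal solution of a profile exists and is unique** (in the `X`-adic domain). -/
theorem exists_unique_zero (μ₀ g m : ℕ) (μ : Fin g → ℕ) (hμ : ∀ z, 0 < μ z)
    (hμK : ∀ z, ((μ z : ℕ) : K) ≠ 0) (hm : m + g = μ₀ + ∑ z, μ z)
    (β : Fin g → Fin (m + 1) → PowerSeries K) (ω : Fin (m + 1) → PowerSeries K)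
    (hβ0 : ∀ z, ∀ i < μ z, coeff i (β z 0) = 0)
    (hβμ : ∀ z, coeff (μ z) (β z 0) ≠ 0)
    (hω0 : ∀ i < μ₀, coeff i (ω 0) = 0)
    (hnd : ∀ x : Fin (m + 1) → K, x 0 = 0 →
      (∀ z, ∀ i, i + 1 < μ z → coeff i (∑ j, x j • β z j) = 0) →
      (∀ i < μ₀, coeff i (∑ j, x j • ω j) = 0) → x = 0) :
    ∃! x : Fin m ⊕ Fin g → PowerSeries K,
      (∀ v, (X : PowerSeries K) ∣ x v) ∧ G μ₀ μ β ω x = 0 := by
  classical
  exact Fermat.Agent.S17.D.ContractionConst.exists_unique_zero_of_injective' (G μ₀ μ β ω)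
    (J μ₀ μ β ω) (card_eq μ₀ g m μ hm) (J_injective μ₀ μ hμ hμK β ω hβ0 hβμ hnd)
    (G_zero_dvd μ₀ μ β ω hβ0 hω0) (G_estimate μ₀ μ β ω)

/-- **The formal solution of a profile**, unfolded. -/
theorem exists_formal_solution (μ₀ g m : ℕ) (μ : Fin g → ℕ) (hμ : ∀ z, 0 < μ z)
    (hμK : ∀ z, ((μ z : ℕ) : K) ≠ 0) (hm : m + g = μ₀ + ∑ z, μ z)
    (β : Fin g → Fin (m + 1) → PowerSeries K) (ω : Fin (m + 1) → PowerSeries K)
    (hβ0 : ∀ z, ∀ i < μ z, coeff i (β z 0) = 0)
    (hβμ : ∀ z, coeff (μ z) (β z 0) ≠ 0)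
    (hω0 : ∀ i < μ₀, coeff i (ω 0) = 0)
    (hnd : ∀ x : Fin (m + 1) → K, x 0 = 0 →
      (∀ z, ∀ i, i + 1 < μ z → coeff i (∑ j, x j • β z j) = 0) →
      (∀ i < μ₀, coeff i (∑ j, x j • ω j) = 0) → x = 0) :
    ∃ (c : Fin (m + 1) → PowerSeries K) (u : Fin g → PowerSeries K),
      c 0 = 1 ∧ (∀ j : Fin m, constantCoeff (c j.succ) = 0) ∧ (∀ z, constantCoeff (u z) = 0) ∧
      (∀ i < μ₀, ∑ j, c j * hasse i (ω j) = 0) ∧
      ∀ z, ∀ i < μ z, ∑ j, c j * (hasse i (β z j)).subst (u z) = 0 := by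
  obtain ⟨x, ⟨hxX, hx⟩, -⟩ := exists_unique_zero μ₀ g m μ hμ hμK hm β ω hβ0 hβμ hω0 hnd
  refine ⟨cvec x, fun z => x (Sum.inr z), cvec_zero x, fun j => ?_,
    fun z => X_dvd_iff.mp (hxX _), ?_, ?_⟩
  · rw [cvec_succ]
    exact X_dvd_iff.mp (hxX _)
  · intro i hi
    have h := congrFun hx (Sum.inl ⟨i, hi⟩)
    rwa [G_inl] at h
  · intro z i hi
    have h := congrFun hx (Sum.inr ⟨z, ⟨i, hi⟩⟩)
    rwa [G_inr] at h

/-- A pair `(c, u)` with `c 0 = 1` is `cvec` of its packed form. -/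
theorem cvec_elim {g m : ℕ} (c : Fin (m + 1) → PowerSeries K) (u : Fin g → PowerSeries K)
    (hc0 : c 0 = 1) :
    cvec (Sum.elim (fun j : Fin m => c j.succ) u) = c := by
  funext j
  refine Fin.cases ?_ (fun j => ?_) j
  · rw [cvec_zero, hc0]
  · rw [cvec_succ]
    rfl

/-- A solution `(c, u)` in unfolded form is a zero of `G` in the `X`-adic domain. -/
theorem packed_isZero (μ₀ : ℕ) {g m : ℕ} (μ : Fin g → ℕ)
    (β : Fin g → Fin (m + 1) → PowerSeries K) (ω : Fin (m + 1) → PowerSeries K)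
    (c : Fin (m + 1) → PowerSeries K) (u : Fin g → PowerSeries K)
    (hc0 : c 0 = 1) (hc : ∀ j : Fin m, constantCoeff (c j.succ) = 0)
    (hu : ∀ z, constantCoeff (u z) = 0)
    (h1 : ∀ i < μ₀, ∑ j, c j * hasse i (ω j) = 0)
    (h2 : ∀ z, ∀ i < μ z, ∑ j, c j * (hasse i (β z j)).subst (u z) = 0) :
    (∀ v, (X : PowerSeries K) ∣ Sum.elim (fun j : Fin m => c j.succ) u v) ∧
      G μ₀ μ β ω (Sum.elim (fun j : Fin m => c j.succ) u) = 0 := by
  refine ⟨fun v => ?_, ?_⟩
  · rcases v with j | z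
    · exact X_dvd_iff.mpr (hc j)
    · exact X_dvd_iff.mpr (hu z)
  · funext e
    rcases e with i | ⟨z, i⟩
    · rw [G_inl, cvec_elim c u hc0]
      exact h1 i i.2
    · rw [G_inr, cvec_elim c u hc0]
      exact h2 z i i.2

/-- **Uniqueness of the formal solution of a profile**, unfolded: two solutions `(c, u)` and
`(c', u')` with `c 0 = c' 0 = 1`, all other `c j`, `c' j` and all `u z`, `u' z` without constant
term, coincide. -/
theorem formal_solution_unique (μ₀ g m : ℕ) (μ : Fin g → ℕ) (hμ : ∀ z, 0 < μ z)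
    (hμK : ∀ z, ((μ z : ℕ) : K) ≠ 0) (hm : m + g = μ₀ + ∑ z, μ z)
    (β : Fin g → Fin (m + 1) → PowerSeries K) (ω : Fin (m + 1) → PowerSeries K)
    (hβ0 : ∀ z, ∀ i < μ z, coeff i (β z 0) = 0)
    (hβμ : ∀ z, coeff (μ z) (β z 0) ≠ 0)
    (hω0 : ∀ i < μ₀, coeff i (ω 0) = 0)
    (hnd : ∀ x : Fin (m + 1) → K, x 0 = 0 →
      (∀ z, ∀ i, i + 1 < μ z → coeff i (∑ j, x j • β z j) = 0) →
      (∀ i < μ₀, coeff i (∑ j, x j • ω j) = 0) → x = 0)
    (c c' : Fin (m + 1) → PowerSeries K) (u u' : Fin g → PowerSeries K)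
    (hc0 : c 0 = 1) (hc : ∀ j : Fin m, constantCoeff (c j.succ) = 0)
    (hu : ∀ z, constantCoeff (u z) = 0)
    (h1 : ∀ i < μ₀, ∑ j, c j * hasse i (ω j) = 0)
    (h2 : ∀ z, ∀ i < μ z, ∑ j, c j * (hasse i (β z j)).subst (u z) = 0)
    (hc0' : c' 0 = 1) (hc' : ∀ j : Fin m, constantCoeff (c' j.succ) = 0)
    (hu' : ∀ z, constantCoeff (u' z) = 0)
    (h1' : ∀ i < μ₀, ∑ j, c' j * hasse i (ω j) = 0)
    (h2' : ∀ z, ∀ i < μ z, ∑ j, c' j * (hasse i (β z j)).subst (u' z) = 0) :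
    c = c' ∧ u = u' := by
  have hex := exists_unique_zero μ₀ g m μ hμ hμK hm β ω hβ0 hβμ hω0 hnd
  have heq := hex.unique (packed_isZero μ₀ μ β ω c u hc0 hc hu h1 h2)
    (packed_isZero μ₀ μ β ω c' u' hc0' hc' hu' h1' h2')
  refine ⟨?_, ?_⟩
  · rw [← cvec_elim c u hc0, ← cvec_elim c' u' hc0', heq]
  · funext z
    exact congrFun heq (Sum.inr z)

end Fermat.Agent.S27.C.FormalProfile
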