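import Mathlib
import Fermat.Agent.S27.C.FormalProfile

/-!
# Program PJ (statement S27), strand C: the tangent argument for the formal solution

For the formal system `G` of a multiplicity profile (`S27/C/FormalProfile`), a zero `x` of `G`
in the `X`-adic domain and the `z₀`-th moving point:

* `coeff_one_eq`        : the coefficients of `X` of `x` solve the linearised system
                          `coeff 1 (G 0 e) + ∑ v, J e v * coeff 1 (x v) = 0`;
* `coeff_one_ne_zero`   : `coeff 1 (x (Sum.inr z₀)) ≠ 0`: **the `z₀`-th point moves to first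
                          order**, provided the OTHER `g` points (the parameter point and the
                          moving points `z ≠ z₀`) are independent (`hnd'`);
* `coeff_one_u_ne_zero` : the same for a solution `(c, u)` in unfolded form.

Reading of `hnd'`: a combination `f = ∑_{j ≥ 1} x_j v_j` with at most simple poles at the moving
base points `z ≠ z₀`, no pole at the `z₀`-th one and at most a simple pole at the parameter base
point is zero (`L(B₀ + ∑_{z ≠ z₀} B_z) = K`).  If the `z₀`-th point did not move, the first-order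
coefficients would be such an `f`, and the equation of top order at the parameter point would
read `μ₀ * coeff μ₀ (ω 0) = 0`.
-/

set_option autoImplicit false

namespace Fermat.Agent.S27.C.FormalTangent

open PowerSeries
open Fermat.Agent.S17.D (hasse coeff_hasse constantCoeff_hasse)
open Fermat.Agent.S17.D.Formal (cvec cvec_zero cvec_succ)
open Fermat.Agent.S27.C.FormalProfile

variable {K : Type*} [Field K]

/-- The coefficients of `X` of a zero of `G` in the domain solve the linearised system. -/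
theorem coeff_one_eq (μ₀ : ℕ) {g m : ℕ} (μ : Fin g → ℕ)
    (β : Fin g → Fin (m + 1) → PowerSeries K) (ω : Fin (m + 1) → PowerSeries K)
    (x : Fin m ⊕ Fin g → PowerSeries K) (hxX : ∀ v, (X : PowerSeries K) ∣ x v)
    (hx : G μ₀ μ β ω x = 0) (e : Fin μ₀ ⊕ (Σ z : Fin g, Fin (μ z))) :
    coeff 1 (G μ₀ μ β ω 0 e) + ∑ v, J μ₀ μ β ω e v * coeff 1 (x v) = 0 := by
  have h := G_estimate μ₀ μ β ω 1 x 0 hxX (fun v => dvd_zero _)
    (fun v => by rw [pow_one, Pi.zero_apply, sub_zero]; exact hxX v) e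
  rw [X_pow_dvd_iff] at h
  have h1 := h 1 (by norm_num)
  rw [hx, Pi.zero_apply, zero_sub, map_sub, map_neg, map_sum] at h1
  have h2 : ∀ v, coeff 1 (C (J μ₀ μ β ω e v) * (x v - (0 : Fin m ⊕ Fin g → PowerSeries K) v))
      = J μ₀ μ β ω e v * coeff 1 (x v) := by
    intro v
    rw [Pi.zero_apply, sub_zero, coeff_C_mul]
  rw [Finset.sum_congr rfl fun v _ => h2 v] at h1
  linear_combination -h1

/-- The base value of the equations of a moving point vanishes identically. -/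
theorem G_zero_inr (μ₀ : ℕ) {g m : ℕ} (μ : Fin g → ℕ)
    (β : Fin g → Fin (m + 1) → PowerSeries K) (ω : Fin (m + 1) → PowerSeries K)
    (hβ0 : ∀ z, ∀ i < μ z, coeff i (β z 0) = 0) (z : Fin g) (i : Fin (μ z)) :
    G μ₀ μ β ω 0 (Sum.inr ⟨z, i⟩) = 0 := by
  rw [G_inr, Fin.sum_univ_succ, cvec_zero, one_mul]
  simp only [cvec_zero_fun_succ, zero_mul, Finset.sum_const_zero, add_zero, Pi.zero_apply]
  exact PowerSeries.subst_zero_of_constantCoeff_zero
    (by rw [constantCoeff_hasse]; exact hβ0 z i i.2)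

/-- The base value of the equations of the parameter point. -/
theorem G_zero_inl (μ₀ : ℕ) {g m : ℕ} (μ : Fin g → ℕ)
    (β : Fin g → Fin (m + 1) → PowerSeries K) (ω : Fin (m + 1) → PowerSeries K) (i : Fin μ₀) :
    G μ₀ μ β ω 0 (Sum.inl i) = hasse (i : ℕ) (ω 0) := by
  rw [G_inl, Fin.sum_univ_succ, cvec_zero, one_mul]
  simp only [cvec_zero_fun_succ, zero_mul, Finset.sum_const_zero, add_zero]

/-- The linearised equations at the parameter point. -/
theorem row_inl (μ₀ : ℕ) {g m : ℕ} (μ : Fin g → ℕ)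
    (β : Fin g → Fin (m + 1) → PowerSeries K) (ω : Fin (m + 1) → PowerSeries K)
    (x : Fin m ⊕ Fin g → PowerSeries K) (hxX : ∀ v, (X : PowerSeries K) ∣ x v)
    (hx : G μ₀ μ β ω x = 0) (i : Fin μ₀) :
    (((i : ℕ) + 1 : ℕ) : K) * coeff ((i : ℕ) + 1) (ω 0)
      + ∑ j : Fin m, coeff (i : ℕ) (ω j.succ) * coeff 1 (x (Sum.inl j)) = 0 := by
  have h := coeff_one_eq μ₀ μ β ω x hxX hx (Sum.inl i)
  rw [G_zero_inl, coeff_hasse, Nat.add_comm 1 (i : ℕ), Nat.choose_succ_self_right,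
    Fintype.sum_sum_type] at h
  simp only [J_inl_inl, J_inl_inr, zero_mul, Finset.sum_const_zero, add_zero] at h
  exact h

/-- The linearised equations at a moving point. -/
theorem row_inr (μ₀ : ℕ) {g m : ℕ} (μ : Fin g → ℕ)
    (β : Fin g → Fin (m + 1) → PowerSeries K) (ω : Fin (m + 1) → PowerSeries K)
    (hβ0 : ∀ z, ∀ i < μ z, coeff i (β z 0) = 0)
    (x : Fin m ⊕ Fin g → PowerSeries K) (hxX : ∀ v, (X : PowerSeries K) ∣ x v)
    (hx : G μ₀ μ β ω x = 0) (z : Fin g) (i : Fin (μ z)) :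
    ∑ j : Fin m, coeff (i : ℕ) (β z j.succ) * coeff 1 (x (Sum.inl j))
      + (((i : ℕ) + 1 : ℕ) : K) * coeff ((i : ℕ) + 1) (β z 0) * coeff 1 (x (Sum.inr z)) = 0 := by
  classical
  have h := coeff_one_eq μ₀ μ β ω x hxX hx (Sum.inr ⟨z, i⟩)
  rw [G_zero_inr μ₀ μ β ω hβ0, map_zero, zero_add, Fintype.sum_sum_type] at h
  simp only [J_inr_inl, J_inr_inr] at h
  rw [← h]
  congr 1
  rw [Finset.sum_eq_single z]
  · rw [if_pos rfl]
  · intro z' _ hz'
    rw [if_neg hz', zero_mul]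
  · intro hz
    exact absurd (Finset.mem_univ z) hz

/-- **The tangent argument**: the `z₀`-th moving point moves to first order as soon as the
other `g` points (the parameter point and the moving points `z ≠ z₀`) are independent. -/
theorem coeff_one_ne_zero (μ₀ : ℕ) {g m : ℕ} (μ : Fin g → ℕ) (hμ₀ : 0 < μ₀)
    (hμ₀K : ((μ₀ : ℕ) : K) ≠ 0)
    (β : Fin g → Fin (m + 1) → PowerSeries K) (ω : Fin (m + 1) → PowerSeries K)
    (hβ0 : ∀ z, ∀ i < μ z, coeff i (β z 0) = 0)
    (hω0 : ∀ i < μ₀, coeff i (ω 0) = 0) (hωμ : coeff μ₀ (ω 0) ≠ 0)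
    (z₀ : Fin g)
    (hnd' : ∀ x : Fin (m + 1) → K, x 0 = 0 →
      (∀ z, z ≠ z₀ → ∀ i, i + 1 < μ z → coeff i (∑ j, x j • β z j) = 0) →
      (∀ i < μ z₀, coeff i (∑ j, x j • β z₀ j) = 0) →
      (∀ i, i + 1 < μ₀ → coeff i (∑ j, x j • ω j) = 0) → x = 0)
    (x : Fin m ⊕ Fin g → PowerSeries K) (hxX : ∀ v, (X : PowerSeries K) ∣ x v)
    (hx : G μ₀ μ β ω x = 0) :
    coeff 1 (x (Sum.inr z₀)) ≠ 0 := by
  intro hb
  set a : Fin (m + 1) → K := Fin.cons 0 (fun j => coeff 1 (x (Sum.inl j))) with ha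
  have ha0 : a 0 = 0 := rfl
  have has : ∀ j : Fin m, a j.succ = coeff 1 (x (Sum.inl j)) := fun j => by simp [ha]
  have key : ∀ (φ : Fin (m + 1) → PowerSeries K) (i : ℕ),
      coeff i (∑ j, a j • φ j) = ∑ j : Fin m, coeff i (φ j.succ) * coeff 1 (x (Sum.inl j)) := by
    intro φ i
    rw [map_sum, Fin.sum_univ_succ, ha0, zero_smul, map_zero, zero_add]
    refine Finset.sum_congr rfl fun j _ => ?_
    rw [has, coeff_smul, smul_eq_mul, mul_comm]
  have h1 : ∀ z, z ≠ z₀ → ∀ i, i + 1 < μ z → coeff i (∑ j, a j • β z j) = 0 := by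
    intro z _ i hi
    have h := row_inr μ₀ μ β ω hβ0 x hxX hx z ⟨i, by omega⟩
    simp only at h
    rw [hβ0 z (i + 1) hi, mul_zero, zero_mul, add_zero] at h
    rw [key]
    exact h
  have h2 : ∀ i < μ z₀, coeff i (∑ j, a j • β z₀ j) = 0 := by
    intro i hi
    have h := row_inr μ₀ μ β ω hβ0 x hxX hx z₀ ⟨i, hi⟩
    simp only at h
    rw [hb, mul_zero, add_zero] at h
    rw [key]
    exact h
  have h3 : ∀ i, i + 1 < μ₀ → coeff i (∑ j, a j • ω j) = 0 := by
    intro i hi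
    have h := row_inl μ₀ μ β ω x hxX hx ⟨i, by omega⟩
    simp only at h
    rw [hω0 (i + 1) hi, mul_zero, zero_add] at h
    rw [key]
    exact h
  have haz := hnd' a ha0 h1 h2 h3
  have hinl : ∀ j : Fin m, coeff 1 (x (Sum.inl j)) = 0 := fun j => by
    rw [← has, haz]
    rfl
  have h := row_inl μ₀ μ β ω x hxX hx ⟨μ₀ - 1, by omega⟩
  simp only [hinl, mul_zero, Finset.sum_const_zero, add_zero] at h
  have e : μ₀ - 1 + 1 = μ₀ := by omega
  rw [e] at h
  rcases mul_eq_zero.mp h with h | h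
  · exact hμ₀K h
  · exact hωμ h

/-- **The tangent argument**, for a solution `(c, u)` in unfolded form. -/
theorem coeff_one_u_ne_zero (μ₀ : ℕ) {g m : ℕ} (μ : Fin g → ℕ) (hμ₀ : 0 < μ₀)
    (hμ₀K : ((μ₀ : ℕ) : K) ≠ 0)
    (β : Fin g → Fin (m + 1) → PowerSeries K) (ω : Fin (m + 1) → PowerSeries K)
    (hβ0 : ∀ z, ∀ i < μ z, coeff i (β z 0) = 0)
    (hω0 : ∀ i < μ₀, coeff i (ω 0) = 0) (hωμ : coeff μ₀ (ω 0) ≠ 0)
    (z₀ : Fin g)
    (hnd' : ∀ x : Fin (m + 1) → K, x 0 = 0 →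
      (∀ z, z ≠ z₀ → ∀ i, i + 1 < μ z → coeff i (∑ j, x j • β z j) = 0) →
      (∀ i < μ z₀, coeff i (∑ j, x j • β z₀ j) = 0) →
      (∀ i, i + 1 < μ₀ → coeff i (∑ j, x j • ω j) = 0) → x = 0)
    (c : Fin (m + 1) → PowerSeries K) (u : Fin g → PowerSeries K)
    (hc0 : c 0 = 1) (hc : ∀ j : Fin m, constantCoeff (c j.succ) = 0)
    (hu : ∀ z, constantCoeff (u z) = 0)
    (h1 : ∀ i < μ₀, ∑ j, c j * hasse i (ω j) = 0)
    (h2 : ∀ z, ∀ i < μ z, ∑ j, c j * (hasse i (β z j)).subst (u z) = 0) :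
    coeff 1 (u z₀) ≠ 0 := by
  obtain ⟨hX, hG⟩ := packed_isZero μ₀ μ β ω c u hc0 hc hu h1 h2
  exact coeff_one_ne_zero μ₀ μ hμ₀ hμ₀K β ω hβ0 hω0 hωμ z₀ hnd'
    (Sum.elim (fun j : Fin m => c j.succ) u) hX hG

end Fermat.Agent.S27.C.FormalTangent
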