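import Mathlib
import Fermat.Agent.S27.C.FormalProfile
import Fermat.Agent.S27.C.FormalTangent

/-!
# Program PJ (statement S27), strand C: the formal solution of a profile, marked form

Pure power series over a field `K`; no curve.  This is `S27/C/FormalProfile` and
`S27/C/FormalTangent` re-indexed to the shape of the fields of `S27/C/PSetup.lean`
(`Fermat.Agent.S27.C.PSetup`): the points are indexed by a finite type `ι` with a marked
parameter point `z₀ : ι`; `β z j` is the expansion of the `j`-th function at the base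
position of the `z`-th point, for EVERY `z` (the parameter point included);  the unknowns are
`c : Fin (m + 1) → K⟦X⟧` and `u : ι → K⟦X⟧` with `u z₀ = X`; the equations are

  `∀ z, ∀ i < μ z, ∑ j, c j * (hasse i (β z j)).subst (u z) = 0`.

* `exists_formal_solution`  : a solution `(c, u)` with `c 0 = 1`, `c j (0) = 0` for `j ≠ 0`,
  `u z (0) = 0`, `u z₀ = X`;
* `formal_solution_unique`  : two such solutions coincide (uniqueness (U) at the level of
  power series);
* `coeff_one_u_ne_zero`     : the tangent argument: the `z₁`-th point moves to first order as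
  soon as the other points are independent.

The square count is `m + card ι = 1 + ∑ z, μ z` (`card ι - 1` moving points).
-/

set_option autoImplicit false

namespace Fermat.Agent.S27.C.FormalMarked

open PowerSeries
open Fermat.Agent.S17.D (hasse)

variable {K : Type*} [Field K]

/-- Numbering of the points other than the marked one. -/
theorem exists_reindex {ι : Type*} [Fintype ι] (μ : ι → ℕ) (z₀ : ι) :
    ∃ (g : ℕ) (e : Fin g ≃ {z : ι // z ≠ z₀}), Fintype.card ι = g + 1 ∧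
      ∑ z, μ z = μ z₀ + ∑ k, μ (e k) := by
  classical
  refine ⟨Fintype.card {z : ι // z ≠ z₀}, (Fintype.equivFin _).symm, ?_, ?_⟩
  · have h := Fintype.sum_eq_add_sum_subtype_ne (fun _ : ι => (1 : ℕ)) z₀
    simp only [Finset.sum_const, Finset.card_univ, smul_eq_mul, mul_one] at h
    omega
  · rw [Fintype.sum_eq_add_sum_subtype_ne μ z₀]
    congr 1
    exact (Equiv.sum_comp (Fintype.equivFin {z : ι // z ≠ z₀}).symm (fun z => μ z.1)).symm

/-- The equations at the marked point (`u z₀ = X`) are the linear block. -/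
theorem marked_block {ι : Type*} {m : ℕ} (μ : ι → ℕ) (z₀ : ι)
    (β : ι → Fin (m + 1) → PowerSeries K)
    (c : Fin (m + 1) → PowerSeries K) (u : ι → PowerSeries K) (hup : u z₀ = X)
    (hj : ∀ z, ∀ i < μ z, ∑ j, c j * (hasse i (β z j)).subst (u z) = 0) :
    ∀ i < μ z₀, ∑ j, c j * hasse i (β z₀ j) = 0 := by
  intro i hi
  have h := hj z₀ i hi
  rw [hup] at h
  simpa only [X_subst] using h

/-- **The formal solution of a profile, marked form** (the fields `c`, `c_zero`, `c_const`,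
`u`, `u_zero`, `u_param`, `jets` of `S27/C/PSetup.lean` with `β z j = τ z (r j)`). -/
theorem exists_formal_solution {ι : Type*} [Fintype ι] (μ : ι → ℕ) (z₀ : ι) (m : ℕ)
    (hμ : ∀ z, z ≠ z₀ → 0 < μ z) (hμK : ∀ z, z ≠ z₀ → ((μ z : ℕ) : K) ≠ 0)
    (hm : m + Fintype.card ι = 1 + ∑ z, μ z)
    (β : ι → Fin (m + 1) → PowerSeries K)
    (hβ0 : ∀ z, ∀ i < μ z, coeff i (β z 0) = 0)
    (hβμ : ∀ z, z ≠ z₀ → coeff (μ z) (β z 0) ≠ 0)
    (hnd : ∀ x : Fin (m + 1) → K, x 0 = 0 →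
      (∀ z, z ≠ z₀ → ∀ i, i + 1 < μ z → coeff i (∑ j, x j • β z j) = 0) →
      (∀ i < μ z₀, coeff i (∑ j, x j • β z₀ j) = 0) → x = 0) :
    ∃ (c : Fin (m + 1) → PowerSeries K) (u : ι → PowerSeries K),
      c 0 = 1 ∧ (∀ j, j ≠ 0 → constantCoeff (c j) = 0) ∧ (∀ z, constantCoeff (u z) = 0) ∧
      u z₀ = X ∧
      ∀ z, ∀ i < μ z, ∑ j, c j * (hasse i (β z j)).subst (u z) = 0 := by
  classical
  obtain ⟨g, e, hg, hsum⟩ := exists_reindex μ z₀
  have hm' : m + g = μ z₀ + ∑ k, μ (e k) := by omega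
  have hsurj : ∀ z, z ≠ z₀ → ∃ k, (e k : ι) = z := fun z hz => ⟨e.symm ⟨z, hz⟩, by simp⟩
  obtain ⟨c, u', hc0, hc, hu', h1, h2⟩ :=
    FormalProfile.exists_formal_solution (μ z₀) g m (fun k => μ (e k))
      (fun k => hμ _ (e k).2) (fun k => hμK _ (e k).2) hm' (fun k => β (e k)) (β z₀)
      (fun k => hβ0 _) (fun k => hβμ _ (e k).2) (hβ0 z₀)
      (fun x hx0 hA hB => hnd x hx0
        (fun z hz i hi => by
          obtain ⟨k, rfl⟩ := hsurj z hz
          exact hA k i hi) hB)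
  have hu_e : ∀ k, (if h : (e k : ι) = z₀ then (X : PowerSeries K)
      else u' (e.symm ⟨(e k : ι), h⟩)) = u' k := by
    intro k
    rw [dif_neg (e k).2]
    simp
  refine ⟨c, fun z => if h : z = z₀ then X else u' (e.symm ⟨z, h⟩), hc0, ?_, ?_, ?_, ?_⟩
  · intro j hj
    obtain ⟨j', rfl⟩ := Fin.exists_succ_eq_of_ne_zero hj
    exact hc j'
  · intro z
    by_cases hz : z = z₀
    · simp [hz]
    · obtain ⟨k, rfl⟩ := hsurj z hz
      simp only [hu_e]
      exact hu' k
  · simp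
  · intro z i hi
    by_cases hz : z = z₀
    · subst hz
      simp only [dif_pos, X_subst]
      exact h1 i hi
    · obtain ⟨k, rfl⟩ := hsurj z hz
      simp only [hu_e]
      exact h2 k i hi

/-- **Uniqueness of the formal solution, marked form**: two pairs `(c, u)`, `(c', u')` with
the properties of `exists_formal_solution` coincide. -/
theorem formal_solution_unique {ι : Type*} [Fintype ι] (μ : ι → ℕ) (z₀ : ι) (m : ℕ)
    (hμ : ∀ z, z ≠ z₀ → 0 < μ z) (hμK : ∀ z, z ≠ z₀ → ((μ z : ℕ) : K) ≠ 0)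
    (hm : m + Fintype.card ι = 1 + ∑ z, μ z)
    (β : ι → Fin (m + 1) → PowerSeries K)
    (hβ0 : ∀ z, ∀ i < μ z, coeff i (β z 0) = 0)
    (hβμ : ∀ z, z ≠ z₀ → coeff (μ z) (β z 0) ≠ 0)
    (hnd : ∀ x : Fin (m + 1) → K, x 0 = 0 →
      (∀ z, z ≠ z₀ → ∀ i, i + 1 < μ z → coeff i (∑ j, x j • β z j) = 0) →
      (∀ i < μ z₀, coeff i (∑ j, x j • β z₀ j) = 0) → x = 0)
    (c c' : Fin (m + 1) → PowerSeries K) (u u' : ι → PowerSeries K)
    (hc0 : c 0 = 1) (hc : ∀ j, j ≠ 0 → constantCoeff (c j) = 0)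
    (hu : ∀ z, constantCoeff (u z) = 0) (hup : u z₀ = X)
    (hj : ∀ z, ∀ i < μ z, ∑ j, c j * (hasse i (β z j)).subst (u z) = 0)
    (hc0' : c' 0 = 1) (hc' : ∀ j, j ≠ 0 → constantCoeff (c' j) = 0)
    (hu' : ∀ z, constantCoeff (u' z) = 0) (hup' : u' z₀ = X)
    (hj' : ∀ z, ∀ i < μ z, ∑ j, c' j * (hasse i (β z j)).subst (u' z) = 0) :
    c = c' ∧ u = u' := by
  classical
  obtain ⟨g, e, hg, hsum⟩ := exists_reindex μ z₀
  have hm' : m + g = μ z₀ + ∑ k, μ (e k) := by omega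
  have hsurj : ∀ z, z ≠ z₀ → ∃ k, (e k : ι) = z := fun z hz => ⟨e.symm ⟨z, hz⟩, by simp⟩
  obtain ⟨hcc, huu⟩ :=
    FormalProfile.formal_solution_unique (μ z₀) g m (fun k => μ (e k))
      (fun k => hμ _ (e k).2) (fun k => hμK _ (e k).2) hm' (fun k => β (e k)) (β z₀)
      (fun k => hβ0 _) (fun k => hβμ _ (e k).2) (hβ0 z₀)
      (fun x hx0 hA hB => hnd x hx0
        (fun z hz i hi => by
          obtain ⟨k, rfl⟩ := hsurj z hz
          exact hA k i hi) hB)
      c c' (fun k => u (e k)) (fun k => u' (e k))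
      hc0 (fun j => hc _ (Fin.succ_ne_zero j)) (fun k => hu _)
      (marked_block μ z₀ β c u hup hj) (fun k i hi => hj (e k) i hi)
      hc0' (fun j => hc' _ (Fin.succ_ne_zero j)) (fun k => hu' _)
      (marked_block μ z₀ β c' u' hup' hj') (fun k i hi => hj' (e k) i hi)
  refine ⟨hcc, ?_⟩
  funext z
  by_cases hz : z = z₀
  · rw [hz, hup, hup']
  · obtain ⟨k, rfl⟩ := hsurj z hz
    exact congrFun huu k

/-- **The tangent argument, marked form**: the `z₁`-th point (`z₁ ≠ z₀`) of a formal solution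
moves to first order, `coeff 1 (u z₁) ≠ 0`, as soon as the points other than `z₁` are
independent (`hnd'`: a combination of the functions `j ≥ 1` with at most simple poles at the
points `z ≠ z₀, z₁`, no pole at `z₁` and a pole of order at most one at the parameter point
`z₀` is zero). -/
theorem coeff_one_u_ne_zero {ι : Type*} [Fintype ι] (μ : ι → ℕ) (z₀ : ι) (m : ℕ)
    (hμ₀ : 0 < μ z₀) (hμ₀K : ((μ z₀ : ℕ) : K) ≠ 0)
    (β : ι → Fin (m + 1) → PowerSeries K)
    (hβ0 : ∀ z, ∀ i < μ z, coeff i (β z 0) = 0)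
    (hβμ₀ : coeff (μ z₀) (β z₀ 0) ≠ 0)
    (z₁ : ι) (hz₁ : z₁ ≠ z₀)
    (hnd' : ∀ x : Fin (m + 1) → K, x 0 = 0 →
      (∀ z, z ≠ z₀ → z ≠ z₁ → ∀ i, i + 1 < μ z → coeff i (∑ j, x j • β z j) = 0) →
      (∀ i < μ z₁, coeff i (∑ j, x j • β z₁ j) = 0) →
      (∀ i, i + 1 < μ z₀ → coeff i (∑ j, x j • β z₀ j) = 0) → x = 0)
    (c : Fin (m + 1) → PowerSeries K) (u : ι → PowerSeries K)
    (hc0 : c 0 = 1) (hc : ∀ j, j ≠ 0 → constantCoeff (c j) = 0)
    (hu : ∀ z, constantCoeff (u z) = 0) (hup : u z₀ = X)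
    (hj : ∀ z, ∀ i < μ z, ∑ j, c j * (hasse i (β z j)).subst (u z) = 0) :
    coeff 1 (u z₁) ≠ 0 := by
  classical
  obtain ⟨g, e, -, -⟩ := exists_reindex μ z₀
  have hsurj : ∀ z, z ≠ z₀ → ∃ k, (e k : ι) = z := fun z hz => ⟨e.symm ⟨z, hz⟩, by simp⟩
  obtain ⟨k₁, rfl⟩ := hsurj z₁ hz₁
  exact FormalTangent.coeff_one_u_ne_zero (μ z₀) (fun k => μ (e k)) hμ₀ hμ₀K
    (fun k => β (e k)) (β z₀) (fun k => hβ0 _) (hβ0 z₀) hβμ₀ k₁
    (fun x hx0 hA hB hC => hnd' x hx0
      (fun z hz hzk i hi => by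
        obtain ⟨k, rfl⟩ := hsurj z hz
        exact hA k (fun h => hzk (by rw [h])) i hi) hB hC)
    c (fun k => u (e k)) hc0 (fun j => hc _ (Fin.succ_ne_zero j)) (fun k => hu _)
    (marked_block μ z₀ β c u hup hj) (fun k i hi => hj (e k) i hi)

end Fermat.Agent.S27.C.FormalMarked
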