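import Mathlib
import Fermat.Prelude.Def_AlgebraicCurve_Repartitions
import Fermat.Prelude.Def_AlgebraicCurve_IsCurveOver

/-!
# Program PJ (statement S27), strand C: the non-degeneracy of a profile on raw data

The non-degeneracy of the formal system of a multiplicity profile, stated on the RAW data of a
`S27.C.PSetup` (no structure, so that it can be used inside the existence proof of the formal
solution): a model `R` of `F / K`, points `T z` (`z : ι`) with multiplicities `μ z`, functions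
`v j ∈ L(∑ μ z • T z)` with `v 0 = 1`, linearly independent, a multiplier `b₁` of order `μ z` at
`T z`, numerators `r j = b₁ * v j` in the model and Taylor maps `τ z` at the points `T z`.

* `sum_smul_single_apply_self`, `sum_smul_single_apply_of_ne`, `sum_erase_single_apply_self`,
  `sum_erase_single_apply_of_ne` : the coefficients of the two divisors;
* `r_zero`, `coeff_r_zero`, `coeff_r_mu` : the expansion of `r 0 = b₁` at `T z` has order
  exactly `μ z`;
* `mem_L_erase` : if the coefficients of index `i`, `i + 1 < μ z`, of `∑ x j • τ z (r j)` vanish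
  for every `z ≠ z₁` and those of index `i < μ z₁` vanish at `z₁`, then
  `∑ x j • v j ∈ L(∑_{z ≠ z₁} T z)`;
* `nondeg_raw` : hence `x = 0` if `x 0 = 0` and `l(∑_{z ≠ z₁} T z) = 1`.
-/

set_option autoImplicit false
set_option linter.unusedSectionVars false

open AlgebraicCurve IsDedekindDomain

namespace Fermat.Agent.S27.C.PSetupRaw

section Divisor

variable {K F : Type*} [Field K] [Field F] [Algebra K F]
variable {ι : Type*} [Fintype ι]

/-- The coefficient of `∑ z, a z • T z` at a point `T z₀` (distinct points). -/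
theorem sum_smul_single_apply_self (T : ι → Place K F) (hT : Function.Injective T)
    (a : ι → ℤ) (z₀ : ι) : (∑ z, a z • Finsupp.single (T z) (1 : ℤ)) (T z₀) = a z₀ := by
  classical
  rw [Finsupp.finsetSum_apply, Finset.sum_eq_single z₀]
  · rw [Finsupp.smul_apply, Finsupp.single_eq_same, smul_eq_mul, mul_one]
  · intro z _ hz
    rw [Finsupp.smul_apply, Finsupp.single_apply, if_neg (fun h => hz (hT h)), smul_zero]
  · intro h
    exact absurd (Finset.mem_univ z₀) h

/-- The coefficient of `∑ z, a z • T z` at a point off the `T z`. -/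
theorem sum_smul_single_apply_of_ne (T : ι → Place K F) (a : ι → ℤ) (P : Place K F)
    (hP : ∀ z, T z ≠ P) : (∑ z, a z • Finsupp.single (T z) (1 : ℤ)) P = 0 := by
  classical
  rw [Finsupp.finsetSum_apply]
  refine Finset.sum_eq_zero fun z _ => ?_
  rw [Finsupp.smul_apply, Finsupp.single_apply, if_neg (hP z), smul_zero]

/-- The coefficient of `∑_{z ≠ z₁} T z` at a point `T z₀` (distinct points). -/
theorem sum_erase_single_apply_self [DecidableEq ι] (T : ι → Place K F)
    (hT : Function.Injective T) (z₁ z₀ : ι) :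
    (∑ z ∈ Finset.univ.erase z₁, Finsupp.single (T z) (1 : ℤ)) (T z₀)
      = if z₀ = z₁ then 0 else 1 := by
  classical
  rw [Finsupp.finsetSum_apply]
  by_cases h : z₀ = z₁
  · rw [if_pos h]
    refine Finset.sum_eq_zero fun z hz => ?_
    rw [Finsupp.single_apply, if_neg]
    intro h'
    exact (Finset.ne_of_mem_erase hz) ((hT h').trans h)
  · rw [if_neg h, Finset.sum_eq_single z₀]
    · rw [Finsupp.single_eq_same]
    · intro z _ hz
      rw [Finsupp.single_apply, if_neg (fun h' => hz (hT h'))]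
    · intro h'
      exact absurd (Finset.mem_erase.mpr ⟨h, Finset.mem_univ z₀⟩) h'

/-- The coefficient of `∑_{z ≠ z₁} T z` at a point off the `T z`. -/
theorem sum_erase_single_apply_of_ne [DecidableEq ι] (T : ι → Place K F) (z₁ : ι)
    (P : Place K F) (hP : ∀ z, T z ≠ P) :
    (∑ z ∈ Finset.univ.erase z₁, Finsupp.single (T z) (1 : ℤ)) P = 0 := by
  classical
  rw [Finsupp.finsetSum_apply]
  refine Finset.sum_eq_zero fun z _ => ?_
  rw [Finsupp.single_apply, if_neg (hP z)]

end Divisor

section Raw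

variable {K F : Type*} [Field K] [Field F] [Algebra K F]
variable {R : Type*} [CommRing R] [IsDedekindDomain R] [Algebra R F] [IsFractionRing R F]
  [Algebra K R] [IsScalarTower K R F]
variable {ι : Type*} [Fintype ι] {μ : ι → ℕ} {T : ι → Place K F} {m : ℕ}
  {v : Fin (m + 1) → F} {b₁ : R} {r : Fin (m + 1) → R} {τ : ι → (R →ₐ[K] PowerSeries K)}

omit [Algebra K F] [IsDedekindDomain R] [Algebra K R] [IsScalarTower K R F] in
/-- The numerator of `v 0 = 1` is the multiplier. -/
theorem r_zero (hv0 : v 0 = 1) (hr : ∀ j, algebraMap R F (r j) = algebraMap R F b₁ * v j) :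
    r 0 = b₁ :=
  IsFractionRing.injective R F (by rw [hr 0, hv0, mul_one])

/-- The expansion of `r 0` at `T z` vanishes to order `μ z`. -/
theorem coeff_r_zero (hv0 : v 0 = 1) (hb₁ : b₁ ≠ 0)
    (hord : ∀ z, (T z).ord (algebraMap R F b₁) = μ z)
    (hr : ∀ j, algebraMap R F (r j) = algebraMap R F b₁ * v j)
    (hτ : ∀ z (b : R) (d : ℕ), b ≠ 0 → (PowerSeries.X ^ d ∣ τ z b ↔
      (d : ℤ) ≤ (T z).ord (algebraMap R F b)))
    (z : ι) (i : ℕ) (hi : i < μ z) : PowerSeries.coeff i (τ z (r 0)) = 0 := by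
  rw [r_zero hv0 hr]
  have hdvd : PowerSeries.X ^ μ z ∣ τ z b₁ := (hτ z b₁ (μ z) hb₁).mpr (by rw [hord z])
  exact PowerSeries.X_pow_dvd_iff.mp hdvd i hi

/-- The expansion of `r 0` at `T z` vanishes to order exactly `μ z`. -/
theorem coeff_r_mu (hv0 : v 0 = 1) (hb₁ : b₁ ≠ 0)
    (hord : ∀ z, (T z).ord (algebraMap R F b₁) = μ z)
    (hr : ∀ j, algebraMap R F (r j) = algebraMap R F b₁ * v j)
    (hτ : ∀ z (b : R) (d : ℕ), b ≠ 0 → (PowerSeries.X ^ d ∣ τ z b ↔
      (d : ℤ) ≤ (T z).ord (algebraMap R F b)))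
    (z : ι) : PowerSeries.coeff (μ z) (τ z (r 0)) ≠ 0 := by
  intro h0
  have hdvd : PowerSeries.X ^ (μ z + 1) ∣ τ z b₁ := by
    rw [PowerSeries.X_pow_dvd_iff]
    intro i hi
    rcases Nat.lt_succ_iff_lt_or_eq.mp hi with h | h
    · have := coeff_r_zero hv0 hb₁ hord hr hτ z i h
      rwa [r_zero hv0 hr] at this
    · rw [h, ← r_zero hv0 hr]; exact h0
  have h1 := (hτ z b₁ (μ z + 1) hb₁).mp hdvd
  rw [hord z] at h1
  push_cast at h1
  omega

/-- **The non-degeneracy on raw data, membership form.** -/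
theorem mem_L_erase [DecidableEq ι] (hT : Function.Injective T)
    (hvm : ∀ j, v j ∈ riemannRochSpace (∑ z, (μ z : ℤ) • Finsupp.single (T z) (1 : ℤ)))
    (hb₁ : b₁ ≠ 0) (hord : ∀ z, (T z).ord (algebraMap R F b₁) = μ z)
    (hr : ∀ j, algebraMap R F (r j) = algebraMap R F b₁ * v j)
    (hτ : ∀ z (b : R) (d : ℕ), b ≠ 0 → (PowerSeries.X ^ d ∣ τ z b ↔
      (d : ℤ) ≤ (T z).ord (algebraMap R F b)))
    (z₁ : ι) (x : Fin (m + 1) → K)
    (h1 : ∀ z, z ≠ z₁ → ∀ i, i + 1 < μ z → PowerSeries.coeff i (∑ j, x j • τ z (r j)) = 0)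
    (h2 : ∀ i < μ z₁, PowerSeries.coeff i (∑ j, x j • τ z₁ (r j)) = 0) :
    ∑ j, x j • v j ∈ riemannRochSpace
      (∑ z ∈ Finset.univ.erase z₁, Finsupp.single (T z) (1 : ℤ)) := by
  classical
  have hfB : ∑ j, x j • v j ∈ riemannRochSpace
      (∑ z, (μ z : ℤ) • Finsupp.single (T z) (1 : ℤ)) :=
    Submodule.sum_mem _ fun j _ => Submodule.smul_mem _ _ (hvm j)
  rw [mem_riemannRochSpace_iff]
  intro P
  by_cases hf0 : ∑ j, x j • v j = 0
  · exact Or.inl hf0
  right
  have hinjR : Function.Injective (algebraMap R F) := IsFractionRing.injective R F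
  have hb₁F : algebraMap R F b₁ ≠ 0 := fun h => hb₁ (hinjR (h.trans (map_zero _).symm))
  by_cases hPT : ∃ z, T z = P
  · obtain ⟨z, rfl⟩ := hPT
    rw [sum_erase_single_apply_self T hT]
    have hy : algebraMap R F (∑ j, x j • r j) = algebraMap R F b₁ * ∑ j, x j • v j := by
      rw [map_sum, Finset.mul_sum]
      refine Finset.sum_congr rfl fun j _ => ?_
      rw [Algebra.smul_def, map_mul, ← IsScalarTower.algebraMap_apply K R F, hr j,
        Algebra.smul_def]
      ring
    have hy0 : ∑ j, x j • r j ≠ 0 := by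
      intro h
      rw [h, map_zero] at hy
      exact (mul_ne_zero hb₁F hf0) hy.symm
    have hτy : τ z (∑ j, x j • r j) = ∑ j, x j • τ z (r j) := by
      rw [map_sum]
      exact Finset.sum_congr rfl fun j _ => map_smul _ _ _
    by_cases hz : z = z₁
    · rw [if_pos hz]
      subst hz
      have hdvd : PowerSeries.X ^ μ z ∣ τ z (∑ j, x j • r j) := by
        rw [PowerSeries.X_pow_dvd_iff, hτy]
        exact h2
      have h3 := (hτ z _ (μ z) hy0).mp hdvd
      rw [hy, Place.ord_mul _ hb₁F hf0, hord z] at h3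
      omega
    · rw [if_neg hz]
      have hdvd : PowerSeries.X ^ (μ z - 1) ∣ τ z (∑ j, x j • r j) := by
        rw [PowerSeries.X_pow_dvd_iff, hτy]
        intro i hi
        exact h1 z hz i (by omega)
      have h3 := (hτ z _ (μ z - 1) hy0).mp hdvd
      rw [hy, Place.ord_mul _ hb₁F hf0, hord z] at h3
      omega
  · rw [not_exists] at hPT
    rw [sum_erase_single_apply_of_ne T z₁ P hPT]
    have h3 := (mem_riemannRochSpace_iff.mp hfB) P
    rcases h3 with h3 | h3
    · exact absurd h3 hf0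
    rw [sum_smul_single_apply_of_ne T _ P hPT] at h3
    exact h3

/-- **The non-degeneracy on raw data**: a combination `∑ x j • v j` with `x 0 = 0`, at most
simple poles at the points `T z`, `z ≠ z₁`, and no pole at `T z₁` is zero when
`l(∑_{z ≠ z₁} T z) = 1`. -/
theorem nondeg_raw [DecidableEq ι] (hT : Function.Injective T)
    (hv0 : v 0 = 1) (hvi : LinearIndependent K v)
    (hvm : ∀ j, v j ∈ riemannRochSpace (∑ z, (μ z : ℤ) • Finsupp.single (T z) (1 : ℤ)))
    (hb₁ : b₁ ≠ 0) (hord : ∀ z, (T z).ord (algebraMap R F b₁) = μ z)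
    (hr : ∀ j, algebraMap R F (r j) = algebraMap R F b₁ * v j)
    (hτ : ∀ z (b : R) (d : ℕ), b ≠ 0 → (PowerSeries.X ^ d ∣ τ z b ↔
      (d : ℤ) ≤ (T z).ord (algebraMap R F b)))
    (z₁ : ι)
    (hnsp : Module.finrank K ↥(riemannRochSpace
      (∑ z ∈ Finset.univ.erase z₁, Finsupp.single (T z) (1 : ℤ))) = 1)
    (x : Fin (m + 1) → K) (hx0 : x 0 = 0)
    (h1 : ∀ z, z ≠ z₁ → ∀ i, i + 1 < μ z → PowerSeries.coeff i (∑ j, x j • τ z (r j)) = 0)
    (h2 : ∀ i < μ z₁, PowerSeries.coeff i (∑ j, x j • τ z₁ (r j)) = 0) : x = 0 := by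
  classical
  have hf := mem_L_erase hT hvm hb₁ hord hr hτ z₁ x h1 h2
  have h1D : (1 : F) ∈ riemannRochSpace
      (∑ z ∈ Finset.univ.erase z₁, Finsupp.single (T z) (1 : ℤ)) := by
    rw [mem_riemannRochSpace_iff]
    intro P
    right
    rw [Place.ord_one, Finsupp.finsetSum_apply]
    have h3 : (0 : ℤ) ≤ ∑ z ∈ Finset.univ.erase z₁, (Finsupp.single (T z) (1 : ℤ)) P := by
      refine Finset.sum_nonneg fun z _ => ?_
      rw [Finsupp.single_apply]
      split_ifs
      · exact zero_le_one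
      · exact le_refl _
    omega
  obtain ⟨a, ha⟩ := (finrank_eq_one_iff_of_nonzero'
    (⟨1, h1D⟩ : ↥(riemannRochSpace (∑ z ∈ Finset.univ.erase z₁, Finsupp.single (T z) (1 : ℤ))))
    (fun h => one_ne_zero (congrArg Subtype.val h))).mp hnsp ⟨_, hf⟩
  have ha' : a • (1 : F) = ∑ j, x j • v j := congrArg Subtype.val ha
  have hrel : ∑ j, (x j - if j = 0 then a else 0) • v j = 0 := by
    simp only [sub_smul, Finset.sum_sub_distrib, ite_smul, zero_smul]
    rw [Finset.sum_ite_eq' Finset.univ (0 : Fin (m + 1)) (fun j => a • v j),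
      if_pos (Finset.mem_univ _), hv0, ha', sub_self]
  have hzero := Fintype.linearIndependent_iff.mp hvi _ hrel
  funext j
  by_cases hj : j = 0
  · rw [hj]; exact hx0
  · have h := hzero j
    rw [if_neg hj, sub_zero] at h
    exact h

end Raw

end Fermat.Agent.S27.C.PSetupRaw
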