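import Mathlib
import Fermat.Agent.S17.R.Riemann
import Fermat.Agent.S17.R.RRCor
import Fermat.Agent.S17.D.Setup
import Fermat.Agent.S27.C.PSetupRaw

/-!
# Program PJ (statement S27), strand C: the basis of `L(B)` for a base tuple

`F / K` a function field of one variable of genus `gR`, `T z` (`z : ι`, `card ι = gR + 1`)
pairwise distinct places with multiplicities `μ z ≥ 1`, `B = ∑ μ z • T z`, and `z₁ : ι` such that
the other `gR` points are non-special (`l(∑_{z ≠ z₁} T z) = 1`).  Then

* `finrank_L_profile` : `l(B) + gR = ∑ μ z + 1` (Riemann's inequality and the one-point jumps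
  from the non-special divisor);
* `exists_basis` : there is a basis `v : Fin (m + 1) → F` of `L(B)` with `v 0 = 1` and
  `m + gR = ∑ μ z`.

These are the fields `m`, `v`, `v_zero`, `v_indep`, `v_mem`, `v_span` of `S27.C.PSetup`, and the
squareness `m + g = μ₀ + ∑ μ` of the formal system of `S27/C/FormalProfile`.
-/

set_option autoImplicit false
set_option linter.unusedSectionVars false

open AlgebraicCurve

namespace Fermat.Agent.S27.C.PSetupBasis

open Fermat.Agent.S17.R
open Fermat.Agent.S27.C.PSetupRaw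

variable {K F : Type*} [Field K] [Field F] [Algebra K F]
variable [IsAlgClosed K] [CharZero K] [Algebra.EssFiniteType K F]
variable {ι : Type*} [Fintype ι] [DecidableEq ι]

/-- The degree of the constant divisor `B = ∑ μ z • T z`. -/
theorem degree_profile (htr : Algebra.trdeg K F = 1) (μ : ι → ℕ) (T : ι → Place K F) :
    Divisor.degree (∑ z, (μ z : ℤ) • Finsupp.single (T z) (1 : ℤ)) = ((∑ z, μ z : ℕ) : ℤ) := by
  rw [map_sum, Nat.cast_sum]
  refine Finset.sum_congr rfl fun z _ => ?_
  rw [map_zsmul, RRCor.degree_single_one htr, smul_eq_mul, mul_one]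

/-- The degree of `∑_{z ≠ z₁} T z`. -/
theorem degree_erase (htr : Algebra.trdeg K F = 1) (T : ι → Place K F) (z₁ : ι) :
    Divisor.degree (∑ z ∈ Finset.univ.erase z₁, Finsupp.single (T z) (1 : ℤ))
      = (Fintype.card ι : ℤ) - 1 := by
  rw [map_sum, Finset.sum_congr rfl fun z _ => RRCor.degree_single_one htr (T z),
    Finset.sum_const, Finset.card_erase_of_mem (Finset.mem_univ z₁), Finset.card_univ]
  have h : 1 ≤ Fintype.card ι := Fintype.card_pos_iff.mpr ⟨z₁⟩
  rw [nsmul_eq_mul, mul_one, Nat.cast_sub h, Nat.cast_one]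

/-- `∑_{z ≠ z₁} T z ≤ ∑ μ z • T z`. -/
theorem erase_le_profile (μ : ι → ℕ) (hμ : ∀ z, 0 < μ z) (T : ι → Place K F)
    (hT : Function.Injective T) (z₁ : ι) :
    (∑ z ∈ Finset.univ.erase z₁, Finsupp.single (T z) (1 : ℤ) : Divisor K F)
      ≤ ∑ z, (μ z : ℤ) • Finsupp.single (T z) (1 : ℤ) := by
  rw [Finsupp.le_def]
  intro P
  by_cases hP : ∃ z, T z = P
  · obtain ⟨z, rfl⟩ := hP
    rw [sum_erase_single_apply_self T hT, sum_smul_single_apply_self T hT]
    have := hμ z
    split_ifs <;> omega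
  · rw [not_exists] at hP
    rw [sum_erase_single_apply_of_ne T z₁ P hP, sum_smul_single_apply_of_ne T _ P hP]

/-- **The dimension of `L(B)`**: `l(B) + gR = ∑ μ z + 1`. -/
theorem finrank_L_profile (htr : Algebra.trdeg K F = 1) (hcard : Fintype.card ι = gR K F + 1)
    (μ : ι → ℕ) (hμ : ∀ z, 0 < μ z) (T : ι → Place K F) (hT : Function.Injective T) (z₁ : ι)
    (hnsp : Module.finrank K ↥(riemannRochSpace
      (∑ z ∈ Finset.univ.erase z₁, Finsupp.single (T z) (1 : ℤ))) = 1) :
    Module.finrank K ↥(riemannRochSpace (∑ z, (μ z : ℤ) • Finsupp.single (T z) (1 : ℤ)))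
      + gR K F = ∑ z, μ z + 1 := by
  have hup := finrank_L_le_of_le htr (erase_le_profile μ hμ T hT z₁)
  have hlo := riemann_inequality htr (∑ z, (μ z : ℤ) • Finsupp.single (T z) (1 : ℤ))
  rw [degree_profile htr, degree_erase htr, hnsp, hcard] at hup
  rw [degree_profile htr] at hlo
  omega

/-- **The basis of `L(B)`** with first vector `1`. -/
theorem exists_basis (htr : Algebra.trdeg K F = 1) (hcard : Fintype.card ι = gR K F + 1)
    (μ : ι → ℕ) (hμ : ∀ z, 0 < μ z) (T : ι → Place K F) (hT : Function.Injective T) (z₁ : ι)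
    (hnsp : Module.finrank K ↥(riemannRochSpace
      (∑ z ∈ Finset.univ.erase z₁, Finsupp.single (T z) (1 : ℤ))) = 1) :
    ∃ (m : ℕ) (v : Fin (m + 1) → F), m + gR K F = ∑ z, μ z ∧ v 0 = 1 ∧ LinearIndependent K v ∧
      (∀ j, v j ∈ riemannRochSpace (∑ z, (μ z : ℤ) • Finsupp.single (T z) (1 : ℤ))) ∧
      ∀ f ∈ riemannRochSpace (∑ z, (μ z : ℤ) • Finsupp.single (T z) (1 : ℤ)),
        f ∈ Submodule.span K (Set.range v) := by
  classical
  have hdim := finrank_L_profile htr hcard μ hμ T hT z₁ hnsp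
  have hle : gR K F + 1 ≤ ∑ z, μ z := by
    calc gR K F + 1 = ∑ _z : ι, 1 := by rw [Finset.sum_const, Finset.card_univ, hcard]; simp
      _ ≤ ∑ z, μ z := Finset.sum_le_sum fun z _ => hμ z
  have h1B : (1 : F) ∈ riemannRochSpace (∑ z, (μ z : ℤ) • Finsupp.single (T z) (1 : ℤ)) := by
    rw [mem_riemannRochSpace_iff]
    intro P
    right
    rw [Place.ord_one, Finsupp.finsetSum_apply]
    have h3 : (0 : ℤ) ≤ ∑ z, ((μ z : ℤ) • Finsupp.single (T z) (1 : ℤ)) P := by
      refine Finset.sum_nonneg fun z _ => ?_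
      rw [Finsupp.smul_apply, Finsupp.single_apply, smul_eq_mul]
      split_ifs
      · simp
      · simp
    omega
  have hfinL : Module.Finite K ↥(riemannRochSpace (∑ z, (μ z : ℤ) • Finsupp.single (T z) (1 : ℤ))) :=
    finite_L htr _
  obtain ⟨v', hv'0, hv'ind⟩ := Fermat.Agent.S17.D.exists_linearIndependent_zero_eq (K := K)
    (⟨1, h1B⟩ : ↥(riemannRochSpace (∑ z, (μ z : ℤ) • Finsupp.single (T z) (1 : ℤ))))
    (fun h => one_ne_zero (congrArg Subtype.val h)) (∑ z, μ z - gR K F) (by omega)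
  have hspan : Submodule.span K (Set.range v') = ⊤ :=
    hv'ind.span_eq_top_of_card_eq_finrank' (by rw [Fintype.card_fin]; omega)
  refine ⟨∑ z, μ z - gR K F, fun j => (v' j : F), by omega, congrArg Subtype.val hv'0, ?_,
    fun j => (v' j).2, ?_⟩
  · exact hv'ind.map' (Submodule.subtype _) (Submodule.ker_subtype _)
  · intro f hf
    have h2 : (⟨f, hf⟩ : ↥(riemannRochSpace (∑ z, (μ z : ℤ) • Finsupp.single (T z) (1 : ℤ))))
        ∈ Submodule.span K (Set.range v') := by rw [hspan]; exact Submodule.mem_top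
    have h3 := Submodule.mem_map_of_mem (f := Submodule.subtype _) h2
    rw [Submodule.map_span, ← Set.range_comp] at h3
    exact h3

end Fermat.Agent.S27.C.PSetupBasis
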