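import Mathlib
import Fermat.Agent.S27.C.PSetup
import Fermat.Agent.S27.C.PSetupRaw
import Fermat.Agent.S27.C.PSetupBasis
import Fermat.Agent.S27.C.FormalMarked
import Fermat.Agent.S17.D.Model
import Fermat.Agent.S17.D.ModelAux
import Fermat.Agent.S17.D.Taylor

/-!
# Program PJ (statement S27), strand C: the formal solution through a base tuple exists

`S17/D/Setup` for an arbitrary multiplicity profile, on the structure `Fermat.Agent.S27.C.PSetup`
(all points of the base tuple in the model `R`, parameter point `z₀` with `u z₀ = X`).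

* `nonempty_psetup_of_basis` : general index type; from a basis `v` of `L(B)`,
  `B = ∑ z, μ z • T z`, with `v 0 = 1` and the square count `m + card ι = 1 + ∑ μ`, and the
  non-speciality of the points other than the parameter point.  Construction: `w z` the primes
  of the points, `b₁` of order `μ z` at `w z`, `r j = b₁ * v j` in the model, `τ z` the Taylor
  expansion at `w z` with respect to a uniformiser `π z` of the model; `(c, u)` is the formal
  solution of `S27/C/FormalMarked` for `β z j = τ z (r j)`, whose non-degeneracy is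
  `S27/C/PSetupRaw.nondeg_raw`.
* `psetup_unique_of_count` : uniqueness (U) of the formal solution of a `PSetup`, given the count
  `l(B) + card ι = ∑ μ + 2` (Riemann-Roch for the non-special `B`).
* `nonempty_psetup`, `psetup_unique` : the two literals of C LINE #1 (index type
  `Option (Fin g)`, `g = gR`, parameter point `none`), with the basis and the count of
  `S27/C/PSetupBasis`.
-/

set_option autoImplicit false

open AlgebraicCurve IsDedekindDomain

namespace Fermat.Agent.S27.C.PSetupExists

open Fermat.Agent.S17.D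

variable {K F : Type*} [Field K] [Field F] [Algebra K F]
variable [IsAlgClosed K] [CharZero K] [Algebra.EssFiniteType K F]
variable {R : Type*} [CommRing R] [IsDedekindDomain R] [Algebra R F] [IsFractionRing R F]
  [Algebra K R] [IsScalarTower K R F]

/-- The formal solution through a base tuple exists, given a basis of `L(B)` with the square
count. -/
theorem nonempty_psetup_of_basis (htr : Algebra.trdeg K F = 1) {ι : Type} [Fintype ι]
    [DecidableEq ι] (μ : ι → ℕ) (z₀ : ι) (hμ : ∀ z, 0 < μ z)
    (T : ι → Place K F) (hT : Function.Injective T)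
    (hR : ∀ z, ∃ w : HeightOneSpectrum R, Place.ofHeightOneSpectrum (K := K) (F := F) w = T z)
    (hnsp : Module.finrank K ↥(riemannRochSpace
      (∑ z ∈ Finset.univ.erase z₀, Finsupp.single (T z) (1 : ℤ))) = 1)
    (m : ℕ) (hm : m + Fintype.card ι = 1 + ∑ z, μ z) (v : Fin (m + 1) → F) (hv0 : v 0 = 1)
    (hvi : LinearIndependent K v)
    (hvm : ∀ j, v j ∈ riemannRochSpace (∑ z, (μ z : ℤ) • Finsupp.single (T z) (1 : ℤ)))
    (hvs : ∀ f ∈ riemannRochSpace (∑ z, (μ z : ℤ) • Finsupp.single (T z) (1 : ℤ)),
      f ∈ Submodule.span K (Set.range v)) :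
    Nonempty (PSetup (K := K) (F := F) R μ z₀ T) := by
  classical
  -- Step 1: the primes of the points
  choose w hw using hR
  have hw_inj : Function.Injective w := fun z z' h => hT (by rw [← hw z, ← hw z', h])
  have hreg : ∀ (w' : HeightOneSpectrum R) (b : R),
      0 ≤ (Place.ofHeightOneSpectrum (K := K) (F := F) w').ord (algebraMap R F b) := fun w' b =>
    Fermat.Agent.S24.FF.ord_nonneg_of_mem _ (Model.toValuationSubring (K := K) (F := F) w' b).2
  have hinjR : Function.Injective (algebraMap R F) := IsFractionRing.injective R F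
  -- Step 3: the multiplier
  obtain ⟨b₁, hb₁0, hb₁⟩ := Model.exists_ord_eq (K := K) (F := F) (Finset.univ.image w)
    (fun w' => if h : ∃ z, w z = w' then μ h.choose else 0)
  have hb₁w : ∀ z, (T z).ord (algebraMap R F b₁) = μ z := by
    intro z
    have hex : ∃ z', w z' = w z := ⟨z, rfl⟩
    rw [← hw z, hb₁ (w z) (Finset.mem_image_of_mem w (Finset.mem_univ z)), dif_pos hex,
      hw_inj hex.choose_spec]
  have hb₁F : algebraMap R F b₁ ≠ 0 := fun h => hb₁0 (hinjR (h.trans (map_zero _).symm))
  -- Step 4: the numerators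
  have hregv : ∀ j, ∀ w' : HeightOneSpectrum R,
      0 ≤ (Place.ofHeightOneSpectrum (K := K) (F := F) w').ord (algebraMap R F b₁ * v j) := by
    intro j w'
    rcases eq_or_ne (v j) 0 with h0 | h0
    · rw [h0, mul_zero, Place.ord_zero]
    rw [Place.ord_mul _ hb₁F h0]
    have h1 := (mem_riemannRochSpace_iff.mp (hvm j))
      (Place.ofHeightOneSpectrum (K := K) (F := F) w')
    rcases h1 with h1 | h1
    · exact absurd h1 h0
    by_cases hmem : ∃ z, T z = Place.ofHeightOneSpectrum (K := K) (F := F) w'
    · obtain ⟨z, hz⟩ := hmem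
      rw [← hz] at h1 ⊢
      rw [PSetupRaw.sum_smul_single_apply_self T hT (fun z => (μ z : ℤ)) z] at h1
      have h2 := hb₁w z
      omega
    · rw [not_exists] at hmem
      rw [PSetupRaw.sum_smul_single_apply_of_ne T (fun z => (μ z : ℤ)) _ hmem] at h1
      have h2 := hreg w' b₁
      omega
  choose r hr using fun j => Model.exists_eq_algebraMap_of_ord_nonneg (K := K) (F := F) (R := R)
    (algebraMap R F b₁ * v j) (hregv j)
  -- Step 5: uniformisers and Taylor maps at the points
  choose π hπ0 hπ using fun z : ι =>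
    Model.exists_ord_eq (K := K) (F := F) ({w z} : Finset (HeightOneSpectrum R)) (fun _ => 1)
  have hπ1 : ∀ z, (Place.ofHeightOneSpectrum (K := K) (F := F) (w z)).ord
      (algebraMap R F (π z)) = 1 := fun z => by
    have h := hπ z (w z) (Finset.mem_singleton_self _)
    simpa using h
  let τ : ι → (R →ₐ[K] PowerSeries K) := fun z =>
    (Taylor.taylor htr (Place.ofHeightOneSpectrum (K := K) (F := F) (w z))
      (algebraMap R F (π z)) (hπ1 z)).comp (Model.toValuationSubring (K := K) (F := F) (w z))
  have hτπ : ∀ z, τ z (π z) = PowerSeries.X := fun z =>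
    Taylor.taylor_unif htr _ _ (hπ1 z) _
  have hτdvd : ∀ z (b : R) (d : ℕ), b ≠ 0 → (PowerSeries.X ^ d ∣ τ z b ↔
      (d : ℤ) ≤ (T z).ord (algebraMap R F b)) := by
    intro z b d hb
    have hbF : algebraMap R F b ≠ 0 := fun h => hb (hinjR (h.trans (map_zero _).symm))
    have h := Taylor.X_pow_dvd_taylor_iff htr
      (Place.ofHeightOneSpectrum (K := K) (F := F) (w z)) (algebraMap R F (π z)) (hπ1 z)
      (Model.toValuationSubring (K := K) (F := F) (w z) b) d
    rw [Model.coe_toValuationSubring] at h
    have he : (Place.ofHeightOneSpectrum (K := K) (F := F) (w z)).ord (algebraMap R F b)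
        = (T z).ord (algebraMap R F b) := by rw [hw z]
    have h' := h.trans (or_iff_right hbF)
    rw [he] at h'
    exact h'
  -- Step 8: the formal solution
  obtain ⟨c, u, hc0, hc, hu, hup, hjets⟩ := FormalMarked.exists_formal_solution μ z₀ m
    (fun z _ => hμ z) (fun z _ => Nat.cast_ne_zero.mpr (hμ z).ne') hm (fun z j => τ z (r j))
    (fun z i hi => PSetupRaw.coeff_r_zero hv0 hb₁0 hb₁w hr hτdvd z i hi)
    (fun z _ => PSetupRaw.coeff_r_mu hv0 hb₁0 hb₁w hr hτdvd z)
    (fun x hx0 h1 h2 =>
      PSetupRaw.nondeg_raw hT hv0 hvi hvm hb₁0 hb₁w hr hτdvd z₀ hnsp x hx0 h1 h2)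
  exact ⟨{
    m := m
    w := w
    w_spec := hw
    v := v
    v_zero := hv0
    v_indep := hvi
    v_mem := hvm
    v_span := hvs
    b₁ := b₁
    b₁_ne := hb₁0
    ord_b₁ := hb₁w
    r := r
    r_spec := hr
    π := π
    τ := τ
    τ_π := hτπ
    τ_dvd := hτdvd
    c := c
    c_zero := hc0
    c_const := hc
    u := u
    u_zero := hu
    u_param := hup
    jets := hjets }⟩

omit [IsAlgClosed K] [CharZero K] [Algebra.EssFiniteType K F] in
/-- The number of functions of a `PSetup` is the dimension of `L(B)`. -/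
theorem psetup_m_add_one {ι : Type} [Fintype ι] {μ : ι → ℕ} {z₀ : ι} {T : ι → Place K F}
    (s : PSetup (K := K) (F := F) R μ z₀ T) :
    s.m + 1 = Module.finrank K
      ↥(riemannRochSpace (∑ z, (μ z : ℤ) • Finsupp.single (T z) (1 : ℤ))) := by
  have hspan : Submodule.span K (Set.range s.v)
      = riemannRochSpace (∑ z, (μ z : ℤ) • Finsupp.single (T z) (1 : ℤ)) := by
    refine le_antisymm (Submodule.span_le.mpr ?_) (fun f hf => s.v_span f hf)
    rintro _ ⟨j, rfl⟩
    exact s.v_mem j
  rw [← hspan, finrank_span_eq_card s.v_indep, Fintype.card_fin]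

omit [IsAlgClosed K] [Algebra.EssFiniteType K F] in
/-- Uniqueness (U) of the formal solution of a `PSetup`, given the count of `L(B)`. -/
theorem psetup_unique_of_count {ι : Type} [Fintype ι] [DecidableEq ι] {μ : ι → ℕ} {z₀ : ι}
    (hμ : ∀ z, 0 < μ z) {T : ι → Place K F} (hT : Function.Injective T)
    (hnsp : Module.finrank K ↥(riemannRochSpace
      (∑ z ∈ Finset.univ.erase z₀, Finsupp.single (T z) (1 : ℤ))) = 1)
    (hcount : Module.finrank K
      ↥(riemannRochSpace (∑ z, (μ z : ℤ) • Finsupp.single (T z) (1 : ℤ))) + Fintype.card ι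
        = ∑ z, μ z + 2)
    (s : PSetup (K := K) (F := F) R μ z₀ T)
    (c : Fin (s.m + 1) → PowerSeries K) (u : ι → PowerSeries K) (hc0 : c 0 = 1)
    (hc : ∀ j, j ≠ 0 → PowerSeries.constantCoeff (c j) = 0)
    (hu : ∀ z, PowerSeries.constantCoeff (u z) = 0) (hu0 : u z₀ = PowerSeries.X)
    (hjets : ∀ z, ∀ i < μ z, ∑ j, c j * (hasse i (s.τ z (s.r j))).subst (u z) = 0) :
    c = s.c ∧ u = s.u := by
  classical
  have hm : s.m + Fintype.card ι = 1 + ∑ z, μ z := by
    have h := psetup_m_add_one s
    omega
  exact FormalMarked.formal_solution_unique μ z₀ s.m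
    (fun z _ => hμ z) (fun z _ => Nat.cast_ne_zero.mpr (hμ z).ne') hm
    (fun z j => s.τ z (s.r j))
    (fun z i hi => PSetupRaw.coeff_r_zero s.v_zero s.b₁_ne s.ord_b₁ s.r_spec s.τ_dvd z i hi)
    (fun z _ => PSetupRaw.coeff_r_mu s.v_zero s.b₁_ne s.ord_b₁ s.r_spec s.τ_dvd z)
    (fun x hx0 h1 h2 => PSetupRaw.nondeg_raw hT s.v_zero s.v_indep s.v_mem s.b₁_ne s.ord_b₁
      s.r_spec s.τ_dvd z₀ hnsp x hx0 h1 h2)
    c s.c u s.u hc0 hc hu hu0 hjets s.c_zero s.c_const s.u_zero s.u_param s.jets

/-- **The formal solution through a base tuple exists** (`g + 1` distinct points of the model,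
the `g` points other than the parameter point `none` non-special). -/
theorem nonempty_psetup (htr : Algebra.trdeg K F = 1) {g : ℕ}
    (hg : g = Fermat.Agent.S17.R.gR K F) (μ : Option (Fin g) → ℕ) (hμ : ∀ z, 0 < μ z)
    (T : Option (Fin g) → Place K F) (hT : Function.Injective T)
    (hR : ∀ z, ∃ w : HeightOneSpectrum R, Place.ofHeightOneSpectrum (K := K) (F := F) w = T z)
    (hnsp : Module.finrank K ↥(riemannRochSpace
      (∑ z ∈ Finset.univ.erase none, Finsupp.single (T z) (1 : ℤ))) = 1) :
    Nonempty (PSetup (K := K) (F := F) R μ none T) := by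
  have hcard : Fintype.card (Option (Fin g)) = Fermat.Agent.S17.R.gR K F + 1 := by
    rw [Fintype.card_option, Fintype.card_fin, hg]
  obtain ⟨m, v, hm, hv0, hvi, hvm, hvs⟩ :=
    PSetupBasis.exists_basis htr hcard μ hμ T hT none hnsp
  exact nonempty_psetup_of_basis htr μ none hμ T hT hR hnsp m (by rw [hcard]; omega) v hv0 hvi
    hvm hvs

/-- **Uniqueness (U) of the formal solution of a `PSetup`.** -/
theorem psetup_unique (htr : Algebra.trdeg K F = 1) {g : ℕ}
    (hg : g = Fermat.Agent.S17.R.gR K F) {μ : Option (Fin g) → ℕ} (hμ : ∀ z, 0 < μ z)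
    {T : Option (Fin g) → Place K F} (hT : Function.Injective T)
    (hnsp : Module.finrank K ↥(riemannRochSpace
      (∑ z ∈ Finset.univ.erase none, Finsupp.single (T z) (1 : ℤ))) = 1)
    (s : PSetup (K := K) (F := F) R μ none T)
    (c : Fin (s.m + 1) → PowerSeries K) (u : Option (Fin g) → PowerSeries K) (hc0 : c 0 = 1)
    (hc : ∀ j, j ≠ 0 → PowerSeries.constantCoeff (c j) = 0)
    (hu : ∀ z, PowerSeries.constantCoeff (u z) = 0) (hu0 : u none = PowerSeries.X)
    (hjets : ∀ z, ∀ i < μ z, ∑ j, c j * (hasse i (s.τ z (s.r j))).subst (u z) = 0) :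
    c = s.c ∧ u = s.u := by
  have hcard : Fintype.card (Option (Fin g)) = Fermat.Agent.S17.R.gR K F + 1 := by
    rw [Fintype.card_option, Fintype.card_fin, hg]
  have hcount := PSetupBasis.finrank_L_profile htr hcard μ hμ T hT none hnsp
  exact psetup_unique_of_count hμ hT hnsp (by rw [hcard]; omega) s c u hc0 hc hu hu0 hjets

end Fermat.Agent.S27.C.PSetupExists
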