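import Mathlib
import Fermat.Agent.S27.C.PSetupExists
import Fermat.Agent.S17.R.Places

/-!
# Program PJ (statement S27), strand C: the formal solution through a base tuple, model-free

`exists_psetup`: for `g + 1` pairwise distinct places `T z` (any finite label type `ι` with
`card ι = gR + 1`, any marked parameter label `z₀`), positive multiplicities and the `g` points
other than `T z₀` non-special, there is a model `R` of `F / K` containing every `T z` and a formal
solution `PSetup R μ z₀ T`.  The model is `S17.D.Model.exists_model` at a place `Q₀` off the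
tuple.
-/

set_option autoImplicit false

open AlgebraicCurve IsDedekindDomain

namespace Fermat.Agent.S27.C.PSetupModel

universe uK uF

variable {K : Type uK} {F : Type uF} [Field K] [Field F] [Algebra K F]
variable [IsAlgClosed K] [CharZero K] [Algebra.EssFiniteType K F]

/-- A model containing finitely many given places. -/
theorem exists_model_of_finite (htr : Algebra.trdeg K F = 1) (S : Finset (Place K F)) :
    ∃ (R : Type uF) (_ : CommRing R) (_ : IsDedekindDomain R) (_ : Algebra R F)
      (_ : IsFractionRing R F) (_ : Algebra K R) (_ : IsScalarTower K R F),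
      ∀ v ∈ S, ∃ w : HeightOneSpectrum R, Place.ofHeightOneSpectrum (K := K) (F := F) w = v := by
  classical
  obtain ⟨Q₀, hQ₀⟩ := Fermat.Agent.S17.R.exists_place_notMem htr S
  obtain ⟨R, i1, i2, i3, i4, i5, i6, _, hR⟩ := Fermat.Agent.S17.D.Model.exists_model htr Q₀
  exact ⟨R, i1, i2, i3, i4, i5, i6, fun v hv => (hR v).mp (fun h => hQ₀ (h ▸ hv))⟩

/-- **The formal solution through a base tuple exists** (model existential, general labels). -/
theorem exists_psetup (htr : Algebra.trdeg K F = 1) {ι : Type} [Fintype ι] [DecidableEq ι]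
    (hcard : Fintype.card ι = Fermat.Agent.S17.R.gR K F + 1) (z₀ : ι) (μ : ι → ℕ)
    (hμ : ∀ z, 0 < μ z) (T : ι → Place K F) (hT : Function.Injective T)
    (hnsp : Module.finrank K ↥(riemannRochSpace
      (∑ z ∈ Finset.univ.erase z₀, Finsupp.single (T z) (1 : ℤ))) = 1) :
    ∃ (R : Type uF) (_ : CommRing R) (_ : IsDedekindDomain R) (_ : Algebra R F)
      (_ : IsFractionRing R F) (_ : Algebra K R) (_ : IsScalarTower K R F),
      Nonempty (PSetup (K := K) (F := F) R μ z₀ T) := by
  classical
  obtain ⟨R, i1, i2, i3, i4, i5, i6, hR⟩ := exists_model_of_finite htr (Finset.univ.image T)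
  obtain ⟨m, v, hm, hv0, hvi, hvm, hvs⟩ :=
    PSetupBasis.exists_basis htr hcard μ hμ T hT z₀ hnsp
  exact ⟨R, i1, i2, i3, i4, i5, i6,
    PSetupExists.nonempty_psetup_of_basis htr μ z₀ hμ T hT
      (fun z => hR (T z) (Finset.mem_image_of_mem T (Finset.mem_univ z))) hnsp m
      (by rw [hcard]; omega) v hv0 hvi hvm hvs⟩

/-- Uniqueness (U) of the formal solution, general labels. -/
theorem psetup_unique {R : Type*} [CommRing R] [IsDedekindDomain R] [Algebra R F]
    [IsFractionRing R F] [Algebra K R] [IsScalarTower K R F]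
    (htr : Algebra.trdeg K F = 1) {ι : Type} [Fintype ι] [DecidableEq ι]
    (hcard : Fintype.card ι = Fermat.Agent.S17.R.gR K F + 1) {z₀ : ι} {μ : ι → ℕ}
    (hμ : ∀ z, 0 < μ z) {T : ι → Place K F} (hT : Function.Injective T)
    (hnsp : Module.finrank K ↥(riemannRochSpace
      (∑ z ∈ Finset.univ.erase z₀, Finsupp.single (T z) (1 : ℤ))) = 1)
    (s : PSetup (K := K) (F := F) R μ z₀ T)
    (c : Fin (s.m + 1) → PowerSeries K) (u : ι → PowerSeries K) (hc0 : c 0 = 1)
    (hc : ∀ j, j ≠ 0 → PowerSeries.constantCoeff (c j) = 0)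
    (hu : ∀ z, PowerSeries.constantCoeff (u z) = 0) (hu0 : u z₀ = PowerSeries.X)
    (hjets : ∀ z, ∀ i < μ z,
      ∑ j, c j * (Fermat.Agent.S17.D.hasse i (s.τ z (s.r j))).subst (u z) = 0) :
    c = s.c ∧ u = s.u := by
  have hcount := PSetupBasis.finrank_L_profile htr hcard μ hμ T hT z₀ hnsp
  exact PSetupExists.psetup_unique_of_count hμ hT hnsp (by rw [hcard]; omega) s c u hc0 hc hu hu0
    hjets

omit [IsAlgClosed K] [Algebra.EssFiniteType K F] in
/-- **Every point moves to first order**, general labels: if the points other than `T z` are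
non-special, the coordinate `s.u z` has a non-zero coefficient of `X`. -/
theorem coeff_one_u_ne_zero {R : Type*} [CommRing R] [IsDedekindDomain R] [Algebra R F]
    [IsFractionRing R F] [Algebra K R] [IsScalarTower K R F]
    {ι : Type} [Fintype ι] [DecidableEq ι] {z₀ : ι} {μ : ι → ℕ}
    (hμ : ∀ z, 0 < μ z) {T : ι → Place K F} (hT : Function.Injective T)
    (s : PSetup (K := K) (F := F) R μ z₀ T) (z : ι)
    (hz : Module.finrank K ↥(riemannRochSpace
      (∑ z' ∈ Finset.univ.erase z, Finsupp.single (T z') (1 : ℤ))) = 1) :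
    PowerSeries.coeff 1 (s.u z) ≠ 0 := by
  by_cases hzz : z = z₀
  · rw [hzz, s.u_param, PowerSeries.coeff_one_X]
    exact one_ne_zero
  · exact FormalMarked.coeff_one_u_ne_zero μ z₀ s.m (hμ z₀) (Nat.cast_ne_zero.mpr (hμ z₀).ne')
      (fun z j => s.τ z (s.r j))
      (fun z i hi => PSetupRaw.coeff_r_zero s.v_zero s.b₁_ne s.ord_b₁ s.r_spec s.τ_dvd z i hi)
      (PSetupRaw.coeff_r_mu s.v_zero s.b₁_ne s.ord_b₁ s.r_spec s.τ_dvd z₀) z hzz
      (fun x hx0 hA hB hD =>
        PSetupRaw.nondeg_raw hT s.v_zero s.v_indep s.v_mem s.b₁_ne s.ord_b₁ s.r_spec s.τ_dvd z hz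
          x hx0
          (fun z' hz' i hi => by
            by_cases h : z' = z₀
            · rw [h]
              exact hD i (by rw [← h]; exact hi)
            · exact hA z' h hz' i hi)
          hB)
      s.c s.u s.c_zero s.c_const s.u_zero s.u_param s.jets

end Fermat.Agent.S27.C.PSetupModel
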