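import Mathlib
import Fermat.Agent.S27.C.PSetupModel
import Fermat.Agent.S27.C.Join
import Fermat.Agent.S27.C.JoinGen
import Fermat.Agent.S27.C.PRho
import Fermat.Agent.S27.C.DX
import Fermat.Agent.S27.C.Desc
import Fermat.Agent.S27.C.BasePlace
import Fermat.Agent.S27.C.TauTay
import Fermat.Agent.S27.L.Defs
import Fermat.Agent.S17.HB.CarChainLoc3

/-!
# Program PJ (statement S27), strand C: the carrier through an ordered regular point (core)

* `exists_carrier_of_psetup` : for a formal solution `s : PSetup R μ none T` of a base tuple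
  `T : Option (Fin g) → Place K F` all of whose points move to first order, the field
  `M = Join.joinField (fun z => PRho.rho s z _)` generated inside `K⸨X⸩` by the moving points
  carries a profile configuration `L.Data htr M (Option (Fin g)) μ m (∑ μ z • T z) δ`
  (functions `s.v`, points `Join.joinRho`, coefficients the `s.c j`, which lie in `M` by
  `Desc.c_mem`, jets through the given derivation by `DX.jets_delta`) and a base place `w₀`
  (the `X`-adic order, `BasePlace.place`) at which the centre of the `z`-th point is `T z` and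
  every point is unramified.  The transcendence degree of `M` and the generation of `M` by its
  points are hypotheses here.
* `exists_carrier_option_of_trdeg` : the exit of the carrier (the literal of
  `Carrier.exists_carrier_option`) from ONE hypothesis, the transcendence degree of the field of
  the moving points of every formal solution (`S27/C/Alg.trdeg_joinField`): the model and the
  formal solution are `PSetupModel.exists_psetup`, every point moves by
  `PSetupModel.coeff_one_u_ne_zero`, the finiteness and the generation are `JoinGen`.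
-/

set_option autoImplicit false

open AlgebraicCurve IsDedekindDomain

namespace Fermat.Agent.S27.C.CarrierCore

open Fermat.Agent.S27.C (PSetup)
open Fermat.Agent.S17 Fermat.Agent.S17.HB

universe u v

variable {K : Type u} {F : Type v} [Field K] [Field F] [Algebra K F] [IsAlgClosed K]
  [CharZero K] [Algebra.EssFiniteType K F]
variable {R : Type*} [CommRing R] [IsDedekindDomain R] [Algebra R F] [IsFractionRing R F]
  [Algebra K R] [IsScalarTower K R F]

/-- The constant divisor of a profile is effective. -/
theorem profile_nonneg {ι : Type*} [Fintype ι] (μ : ι → ℕ) (T : ι → Place K F) :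
    (0 : Divisor K F) ≤ ∑ z, (μ z : ℤ) • Finsupp.single (T z) (1 : ℤ) := by
  classical
  rw [Finsupp.le_def]
  intro P
  rw [Finsupp.zero_apply, Finsupp.finsetSum_apply]
  refine Finset.sum_nonneg fun z _ => ?_
  rw [Finsupp.smul_apply, Finsupp.single_apply, smul_eq_mul]
  refine mul_nonneg (Int.natCast_nonneg _) ?_
  split_ifs
  · exact zero_le_one
  · exact le_refl _

/-- **The carrier of a formal solution**, on a given model; the finiteness and the transcendence
degree of the field of the moving points are hypotheses. -/
theorem exists_carrier_of_psetup (htr : Algebra.trdeg K F = 1) {g : ℕ}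
    {μ : Option (Fin g) → ℕ} (hμ : ∀ z, 0 < μ z) {T : Option (Fin g) → Place K F}
    (hT : Function.Injective T)
    (hnsp : Module.finrank K ↥(riemannRochSpace
      (∑ z ∈ Finset.univ.erase none, Finsupp.single (T z) (1 : ℤ))) = 1)
    (δ : Derivation K F F) (hδ : δ ≠ 0)
    (s : PSetup (K := K) (F := F) R μ none T) (hu : ∀ z, s.u z ≠ 0)
    (h1 : ∀ z, PowerSeries.coeff 1 (s.u z) ≠ 0)
    (htrM : Algebra.trdeg K (Join.joinField (fun z => PRho.rho s z (hu z))) = 1)
    (hgen : IntermediateField.adjoin K
      (⋃ z, Set.range (Join.joinRho (fun z => PRho.rho s z (hu z)) z)) = ⊤) :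
    ∃ (m : ℕ) (d : L.Data htr (Join.joinField (fun z => PRho.rho s z (hu z)))
        (Option (Fin g)) μ m (∑ z, (μ z : ℤ) • Finsupp.single (T z) (1 : ℤ)) δ)
      (w₀ : Place K (Join.joinField (fun z => PRho.rho s z (hu z)))),
      (∀ z, L.cen htr htrM (d.ρ z) w₀ = T z) ∧ (∀ z, Loc2.ram (d.ρ z) w₀ = 1) ∧
      IntermediateField.adjoin K (⋃ z, Set.range (d.ρ z)) = ⊤ := by
  classical
  -- the orders of the moving points
  have hord : ∀ (z : Option (Fin g)) (f : F), f ≠ 0 →
      (PRho.rho s z (hu z) f).order = (T z).ord f := fun z f hf =>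
    PRho.order_rho s z (hu z) (h1 z) hf
  have hπ0 : ∀ z, algebraMap R F (s.π z) ≠ 0 := fun z =>
    (map_ne_zero_iff _ (IsFractionRing.injective R F)).mpr (TauTay.π_ne_zero s z)
  -- the base place
  have hx : ((Join.joinField (fun z => PRho.rho s z (hu z))).val
      (Join.joinRho (fun z => PRho.rho s z (hu z)) none (algebraMap R F (s.π none)))).order
        = 1 := by
    show (PRho.rho s none (hu none) (algebraMap R F (s.π none))).order = 1
    rw [hord none _ (hπ0 none), TauTay.ord_π]
  set w₀ : Place K (Join.joinField (fun z => PRho.rho s z (hu z))) :=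
    BasePlace.place (Join.joinField (fun z => PRho.rho s z (hu z))).val
      (Join.joinRho (fun z => PRho.rho s z (hu z)) none (algebraMap R F (s.π none))) hx
    with hw₀
  have hw₀ord : ∀ (z : Option (Fin g)) (f : F),
      w₀.ord (Join.joinRho (fun z => PRho.rho s z (hu z)) z f)
        = (PRho.rho s z (hu z) f).order := fun z f =>
    BasePlace.ord_place _ _ hx _
  -- the centres
  have hcen : ∀ z, L.cen htr htrM (Join.joinRho (fun z => PRho.rho s z (hu z)) z) w₀ = T z := by
    intro z
    refine Loc2.centre_eq_of_forall_mem _ _ w₀ (T z) fun f hf => ?_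
    show 0 ≤ (PRho.rho s z (hu z) f).order
    rcases eq_or_ne f 0 with rfl | hf0
    · rw [map_zero, HahnSeries.order_zero]
    · rw [hord z f hf0]
      exact Fermat.Agent.S24.FF.ord_nonneg_of_mem (T z) hf
  -- ramification
  have hram : ∀ z, Loc2.ram (Join.joinRho (fun z => PRho.rho s z (hu z)) z) w₀ = 1 := by
    intro z
    have h := L.ord_map htr htrM (Join.joinRho (fun z => PRho.rho s z (hu z)) z) w₀
      (algebraMap R F (s.π z))
    rw [hcen z, hw₀ord, hord z _ (hπ0 z), TauTay.ord_π, mul_one] at h
    exact_mod_cast h.symm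
  -- the points are pairwise distinct
  have hinj : Function.Injective (Join.joinRho (fun z => PRho.rho s z (hu z))) := by
    intro z z' h
    apply hT
    rw [← hcen z, ← hcen z', h]
  -- the coefficients
  have hcmem : ∀ j, HahnSeries.ofPowerSeries ℤ K (s.c j) ∈
      Join.joinField (fun z => PRho.rho s z (hu z)) := fun j =>
    Desc.c_mem htr hμ hT s hnsp hu (fun z => DX.dX s z δ) (fun z => DX.isDX_dX htr s z hδ)
      (Join.joinField (fun z => PRho.rho s z (hu z))).toSubfield
      (fun z f => Join.map_mem_joinField (fun z => PRho.rho s z (hu z)) z f) j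
  refine ⟨s.m,
    { v := s.v
      v_indep := s.v_indep
      v_mem := s.v_mem
      B_nonneg := profile_nonneg μ T
      degree_B := by
        rw [PSetupBasis.degree_profile htr μ T, Nat.cast_sum]
      ρ := Join.joinRho (fun z => PRho.rho s z (hu z))
      ρ_inj := hinj
      cM := fun j => ⟨HahnSeries.ofPowerSeries ℤ K (s.c j), hcmem j⟩
      cM_zero := by
        apply Subtype.ext
        show HahnSeries.ofPowerSeries ℤ K (s.c 0) = 1
        rw [s.c_zero, map_one]
      chain := CarChainLoc3.chainRule htr hδ
      jets := by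
        intro z i hi
        have h := DX.jets_delta htr s z (hu z) hδ i hi
        apply (map_eq_zero (Join.joinField (fun z => PRho.rho s z (hu z))).val).mp
        rw [map_sum]
        exact (Finset.sum_congr rfl fun j _ => rfl).trans h },
    w₀, hcen, hram, hgen⟩

/-- **The carrier through an ordered regular point**, from the transcendence degree of the field
of the moving points (`halg` is `S27/C/Alg.trdeg_joinField`). -/
theorem exists_carrier_option_of_trdeg (htr : Algebra.trdeg K F = 1) {g : ℕ}
    (hg : g = Fermat.Agent.S17.R.gR K F) (μ : Option (Fin g) → ℕ) (hμ : ∀ z, 0 < μ z)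
    (T : Option (Fin g) → Place K F) (hT : Function.Injective T)
    (hns : ∀ z, Module.finrank K ↥(riemannRochSpace
      (∑ z' ∈ Finset.univ.erase z, Finsupp.single (T z') (1 : ℤ))) = 1)
    (δ : Derivation K F F) (hδ : δ ≠ 0)
    (halg : ∀ (R : Type v) [CommRing R] [IsDedekindDomain R] [Algebra R F] [IsFractionRing R F]
      [Algebra K R] [IsScalarTower K R F] (s : PSetup (K := K) (F := F) R μ none T)
      (hu : ∀ z, s.u z ≠ 0),
      Algebra.trdeg K (Join.joinField (fun z => PRho.rho s z (hu z))) = 1) :
    ∃ (M : Type u) (_ : Field M) (_ : Algebra K M) (_ : Algebra.EssFiniteType K M)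
      (htrM : Algebra.trdeg K M = 1) (m : ℕ)
      (d : L.Data htr M (Option (Fin g)) μ m
        (∑ z, (μ z : ℤ) • Finsupp.single (T z) (1 : ℤ)) δ) (w₀ : Place K M),
      (∀ z, L.cen htr htrM (d.ρ z) w₀ = T z) ∧ (∀ z, Loc2.ram (d.ρ z) w₀ = 1) ∧
      IntermediateField.adjoin K (⋃ z, Set.range (d.ρ z)) = ⊤ := by
  have hcard : Fintype.card (Option (Fin g)) = Fermat.Agent.S17.R.gR K F + 1 := by
    rw [Fintype.card_option, Fintype.card_fin, hg]
  obtain ⟨R, i1, i2, i3, i4, i5, i6, ⟨s⟩⟩ :=
    PSetupModel.exists_psetup htr hcard none μ hμ T hT (hns none)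
  have h1 : ∀ z, PowerSeries.coeff 1 (s.u z) ≠ 0 := fun z =>
    PSetupModel.coeff_one_u_ne_zero hμ hT s z (hns z)
  have hu : ∀ z, s.u z ≠ 0 := fun z h => h1 z (by rw [h, map_zero])
  have htrM := halg R s hu
  obtain ⟨m, d, w₀, hcen, hram, hgen⟩ := exists_carrier_of_psetup htr hμ hT (hns none) δ hδ s hu
    h1 htrM (JoinGen.adjoin_range_joinRho _)
  exact ⟨↥(Join.joinField (fun z => PRho.rho s z (hu z))), inferInstance, inferInstance,
    JoinGen.essFiniteType_joinField _, htrM, m, d, w₀, hcen, hram, hgen⟩

end Fermat.Agent.S27.C.CarrierCore
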