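import Mathlib
import Fermat.Agent.S27.C.CarrierCore
import Fermat.Agent.S27.C.Alg

/-!
# Program PJ (statement S27), strand C: the carrier through an ordered regular point

* `exists_carrier_option` : a base tuple `T : Option (Fin g) → Place K F` of `gR + 1` distinct
  places with `ℓ(∑_{z' ≠ z} T z') = 1` for every label `z` lies on a profile configuration:
  there are a curve `M` over `K` (the field generated inside `K⸨X⸩` by the moving points of a
  formal solution), a configuration `d : L.Data htr M (Option (Fin g)) μ m (∑ μ z • T z) δ` and
  a place `w₀` of `M` at which the centre of the `z`-th point is `T z`, every point is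
  unramified, and `M` is generated over `K` by the points.

This is `CarrierCore.exists_carrier_option_of_trdeg` with its one hypothesis (the field of the
moving points has transcendence degree one) discharged by `Alg.trdeg_joinField`.
-/

set_option autoImplicit false

open AlgebraicCurve IsDedekindDomain

namespace Fermat.Agent.S27.C.Carrier

open Fermat.Agent.S27.C (PSetup)
open Fermat.Agent.S17 Fermat.Agent.S17.HB

universe u v

/-- **The carrier exit (E1), ordered form.**  Through a base tuple of `gR + 1` distinct places,
every sub-tuple of `gR` of which is non-special, passes a profile configuration: a curve `M`,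
a configuration `d` on `M` with the given derivation `δ`, and a place `w₀` of `M` at which the
`z`-th point is centred at `T z` and unramified; `M` is generated by its points. -/
theorem exists_carrier_option {K : Type u} {F : Type v} [Field K] [Field F] [Algebra K F]
    [IsAlgClosed K] [CharZero K] [Algebra.EssFiniteType K F]
    (htr : Algebra.trdeg K F = 1) {g : ℕ}
    (hg : g = Fermat.Agent.S17.R.gR K F) (μ : Option (Fin g) → ℕ) (hμ : ∀ z, 0 < μ z)
    (T : Option (Fin g) → Place K F) (hT : Function.Injective T)
    (hns : ∀ z, Module.finrank K ↥(riemannRochSpace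
      (∑ z' ∈ Finset.univ.erase z, Finsupp.single (T z') (1 : ℤ))) = 1)
    (δ : Derivation K F F) (hδ : δ ≠ 0) :
    ∃ (M : Type u) (_ : Field M) (_ : Algebra K M) (_ : Algebra.EssFiniteType K M)
      (htrM : Algebra.trdeg K M = 1) (m : ℕ)
      (d : L.Data htr M (Option (Fin g)) μ m
        (∑ z, (μ z : ℤ) • Finsupp.single (T z) (1 : ℤ)) δ) (w₀ : Place K M),
      (∀ z, L.cen htr htrM (d.ρ z) w₀ = T z) ∧ (∀ z, Loc2.ram (d.ρ z) w₀ = 1) ∧
      IntermediateField.adjoin K (⋃ z, Set.range (d.ρ z)) = ⊤ :=
  CarrierCore.exists_carrier_option_of_trdeg htr hg μ hμ T hT hns δ hδ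
    (fun _ _ _ _ _ _ _ s hu => Alg.trdeg_joinField htr hμ hT s hu (hns none))

end Fermat.Agent.S27.C.Carrier
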