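import Mathlib
import Fermat.Agent.S27.G.AsmIface
import Fermat.Agent.S27.C.Carrier

/-!
# Program PJ (statement S27), strand C: the carrier for any label type, and `AsmIface.CarrierExit`

`S27/C/Carrier.lean` builds the carrier of a regular base tuple labelled by `Option (Fin g)`
(`g = gR K F`; the parameter point is `none`).  This file re-indexes it:

* `reindex e hμ hB d'` : a profile configuration `d' : L.Data htr M ι' μ' m B' δ` read through an
  equivalence of label types `e : ι ≃ ι'` (`μ z = μ' (e z)`, `B = B'`);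
* `exists_carrier` : (C-E1) for ANY label type `ι : Type` with `gR + 1` labels: through every
  injective tuple `T : ι → Place K F` all of whose sub-families of `gR` points are non-special
  there is a profile configuration `M`, generated over `K` by its points, with a place `w₀` of
  centres `T`, unramified for every point;
* `carrierExit` : the exit `G.AsmIface.CarrierExit htr e₁ e₂ n δ` consumed by the assembly of
  strand G (`ι = Fin e₁ ⊕ Fin e₂`, `μ = AsmIface.mu e₁ e₂ n`).
-/

set_option autoImplicit false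

open AlgebraicCurve

namespace Fermat.Agent.S27.C.CarrierExit

open Fermat.Agent.S17 Fermat.Agent.S17.HB

universe u v

section Reindex

variable {K : Type*} {F : Type*} [Field K] [Field F] [Algebra K F]
variable [IsAlgClosed K] [CharZero K] [Algebra.EssFiniteType K F]

/-- A profile configuration read through an equivalence of the label types. -/
def reindex {htr : Algebra.trdeg K F = 1} {M : Type*} [Field M] [Algebra K M]
    {ι ι' : Type*} [Fintype ι] [Fintype ι'] (e : ι ≃ ι') {μ : ι → ℕ} {μ' : ι' → ℕ}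
    (hμ : ∀ z, μ z = μ' (e z)) {m : ℕ} {B B' : Divisor K F} (hB : B = B')
    {δ : Derivation K F F} (d' : L.Data htr M ι' μ' m B' δ) : L.Data htr M ι μ m B δ where
  v := d'.v
  v_indep := d'.v_indep
  v_mem := fun j => by
    rw [hB]
    exact d'.v_mem j
  B_nonneg := by
    rw [hB]
    exact d'.B_nonneg
  degree_B := by
    rw [hB, d'.degree_B, ← Equiv.sum_comp e]
    exact Finset.sum_congr rfl fun z _ => by rw [hμ z]
  ρ := fun z => d'.ρ (e z)
  ρ_inj := d'.ρ_inj.comp e.injective
  cM := d'.cM
  cM_zero := d'.cM_zero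
  chain := d'.chain
  jets := fun z i hi => d'.jets (e z) i (by rw [← hμ z]; exact hi)

theorem reindex_ρ {htr : Algebra.trdeg K F = 1} {M : Type*} [Field M] [Algebra K M]
    {ι ι' : Type*} [Fintype ι] [Fintype ι'] (e : ι ≃ ι') {μ : ι → ℕ} {μ' : ι' → ℕ}
    (hμ : ∀ z, μ z = μ' (e z)) {m : ℕ} {B B' : Divisor K F} (hB : B = B')
    {δ : Derivation K F F} (d' : L.Data htr M ι' μ' m B' δ) (z : ι) :
    (reindex e hμ hB d').ρ z = d'.ρ (e z) := rfl

end Reindex

variable {K : Type u} {F : Type v} [Field K] [Field F] [Algebra K F]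
variable [IsAlgClosed K] [CharZero K] [Algebra.EssFiniteType K F]

/-- The carrier for any label type with `gR + 1` labels (no marked label). -/
theorem exists_carrier_of_card (htr : Algebra.trdeg K F = 1) {ι : Type} [Fintype ι]
    [DecidableEq ι] (hcard : Fintype.card ι = R.gR K F + 1) (μ : ι → ℕ) (hμ : ∀ z, 0 < μ z)
    (T : ι → Place K F) (hT : Function.Injective T)
    (hns : ∀ z, Module.finrank K ↥(riemannRochSpace
      (∑ z' ∈ Finset.univ.erase z, Finsupp.single (T z') (1 : ℤ))) = 1)
    (δ : Derivation K F F) (hδ : δ ≠ 0) :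
    ∃ (M : Type u) (_ : Field M) (_ : Algebra K M) (_ : Algebra.EssFiniteType K M)
      (htrM : Algebra.trdeg K M = 1) (m : ℕ)
      (d : L.Data htr M ι μ m (∑ z, (μ z : ℤ) • Finsupp.single (T z) (1 : ℤ)) δ)
      (w₀ : Place K M),
      (∀ z, L.cen htr htrM (d.ρ z) w₀ = T z) ∧ (∀ z, Loc2.ram (d.ρ z) w₀ = 1) ∧
      IntermediateField.adjoin K (⋃ z, Set.range (d.ρ z)) = ⊤ := by
  have hc : Fintype.card ι = Fintype.card (Option (Fin (R.gR K F))) := by
    rw [hcard, Fintype.card_option, Fintype.card_fin]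
  obtain ⟨e⟩ : Nonempty (ι ≃ Option (Fin (R.gR K F))) := Fintype.card_eq.mp hc
  have hns' : ∀ z' : Option (Fin (R.gR K F)), Module.finrank K ↥(riemannRochSpace
      (∑ z'' ∈ Finset.univ.erase z', Finsupp.single (T (e.symm z'')) (1 : ℤ))) = 1 := by
    intro z'
    have h1 : (∑ z'' ∈ Finset.univ.erase z', Finsupp.single (T (e.symm z'')) (1 : ℤ) :
        Divisor K F) = ∑ z ∈ Finset.univ.erase (e.symm z'), Finsupp.single (T z) (1 : ℤ) := by
      refine Finset.sum_equiv e.symm ?_ ?_
      · intro i
        simp only [Finset.mem_erase, Finset.mem_univ, and_true, ne_eq,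
          EmbeddingLike.apply_eq_iff_eq]
      · intro i _
        rfl
    rw [h1]
    exact hns (e.symm z')
  obtain ⟨M, iF, iA, iE, htrM, m, d', w₀, hcen, hram, hgen⟩ :=
    Carrier.exists_carrier_option htr rfl (fun z' => μ (e.symm z')) (fun z' => hμ (e.symm z'))
      (fun z' => T (e.symm z')) (hT.comp e.symm.injective) hns' δ hδ
  have hμe : ∀ z, μ z = (fun z' => μ (e.symm z')) (e z) := fun z => by
    show μ z = μ (e.symm (e z))
    rw [e.symm_apply_apply]
  have hB : (∑ z, (μ z : ℤ) • Finsupp.single (T z) (1 : ℤ) : Divisor K F) =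
      ∑ z', (μ (e.symm z') : ℤ) • Finsupp.single (T (e.symm z')) (1 : ℤ) :=
    (Equiv.sum_comp e.symm fun z => (μ z : ℤ) • (Finsupp.single (T z) (1 : ℤ) : Divisor K F)).symm
  refine ⟨M, iF, iA, iE, htrM, m, reindex e hμe hB d', w₀, ?_, ?_, ?_⟩
  · intro z
    rw [reindex_ρ, hcen (e z)]
    show T (e.symm (e z)) = T z
    rw [e.symm_apply_apply]
  · intro z
    rw [reindex_ρ]
    exact hram (e z)
  · have h2 : (⋃ z, Set.range ((reindex e hμe hB d').ρ z)) = ⋃ z', Set.range (d'.ρ z') :=
      e.surjective.iUnion_comp fun z' => Set.range (d'.ρ z')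
    rw [h2]
    exact hgen

/-- **(C-E1) The carrier**, for any label type `ι` with `gR + 1` labels and a marked label
`z₀` (the marked label plays no role in the statement). -/
theorem exists_carrier (htr : Algebra.trdeg K F = 1) {ι : Type} [Fintype ι] [DecidableEq ι]
    (hcard : Fintype.card ι = R.gR K F + 1) (z₀ : ι) (μ : ι → ℕ) (hμ : ∀ z, 0 < μ z)
    (T : ι → Place K F) (hT : Function.Injective T)
    (hns : ∀ z, Module.finrank K ↥(riemannRochSpace
      (∑ z' ∈ Finset.univ.erase z, Finsupp.single (T z') (1 : ℤ))) = 1)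
    (δ : Derivation K F F) (hδ : δ ≠ 0) :
    ∃ (M : Type u) (_ : Field M) (_ : Algebra K M) (_ : Algebra.EssFiniteType K M)
      (htrM : Algebra.trdeg K M = 1) (m : ℕ)
      (d : L.Data htr M ι μ m (∑ z, (μ z : ℤ) • Finsupp.single (T z) (1 : ℤ)) δ)
      (w₀ : Place K M),
      (∀ z, L.cen htr htrM (d.ρ z) w₀ = T z) ∧ (∀ z, Loc2.ram (d.ρ z) w₀ = 1) ∧
      IntermediateField.adjoin K (⋃ z, Set.range (d.ρ z)) = ⊤ :=
  have _ := z₀
  exists_carrier_of_card htr hcard μ hμ T hT hns δ hδ

/-- **The exit of strand C (carrier)** consumed by the assembly of strand G. -/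
theorem carrierExit (htr : Algebra.trdeg K F = 1) (e₁ e₂ n : ℕ) (hn : 0 < n)
    (he : e₁ + e₂ = R.gR K F + 1) (δ : Derivation K F F) (hδ : δ ≠ 0) :
    G.AsmIface.CarrierExit htr e₁ e₂ n δ := by
  intro T hT hns
  have hcard : Fintype.card (Fin e₁ ⊕ Fin e₂) = R.gR K F + 1 := by
    rw [Fintype.card_sum, Fintype.card_fin, Fintype.card_fin, he]
  have hμ : ∀ z, 0 < G.AsmIface.mu e₁ e₂ n z := by
    intro z
    rcases z with i | j
    · exact one_pos
    · exact hn
  exact exists_carrier_of_card htr hcard (G.AsmIface.mu e₁ e₂ n) hμ T hT hns δ hδ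

end Fermat.Agent.S27.C.CarrierExit
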