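import Mathlib
import Fermat.Agent.S17.HB.Loc3
import Fermat.Agent.S17.D.TaylorL

/-!
# Program PJ (statement S27), strand C, leaf C7 (uniqueness): from equal expansions to an
isomorphism of configuration fields

`F / K` is the function field of the curve, `M`, `M'` two function fields of one variable over
`K` carrying families of embeddings `ρ z : F →ₐ[K] M`, `ρ' z : F →ₐ[K] M'` (`z : ι`).  Let `w`,
`w'` be places of `M`, `M'` with uniformisers `ϖ`, `ϖ'` such that for every `z` the two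
embeddings have the same centre `T z` on `F` and the same expansion of a uniformiser `t z` at
`T z`:  `tay w ϖ (ρ z (t z)) = tay w' ϖ' (ρ' z (t z))`.

* `taylorLR_map` : the Laurent expansion at `w` of `ρ f` is the expansion of `f` at the centre
  followed by the substitution `X ↦ tay w ϖ (ρ t)` (`f` regular at the centre);
* `taylorLR_comp_eq` : under the hypotheses above the two Laurent expansions
  `taylorLR w ϖ ∘ ρ z` and `taylorLR w' ϖ' ∘ ρ' z` are EQUAL on all of `F`;
* `exists_algEquiv` : if moreover `M` and `M'` are generated over `K` by the images of their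
  embeddings, there is an isomorphism `φ : M ≃ₐ[K] M'` with `φ ∘ ρ z = ρ' z` for all `z`.

This is the last step of the uniqueness (U) of configurations: two configurations whose formal
solutions at their base places agree are isomorphic over all their points.
-/

set_option autoImplicit false

open AlgebraicCurve

namespace Fermat.Agent.S27.C.UniqIso

open Fermat.Agent.S17 Fermat.Agent.S17.D Fermat.Agent.S17.HB

variable {K F M M' : Type*} [Field K] [Field F] [Algebra K F] [Field M] [Algebra K M]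
  [Field M'] [Algebra K M']
variable [IsAlgClosed K] [CharZero K] [Algebra.EssFiniteType K F] [Algebra.EssFiniteType K M]
  [Algebra.EssFiniteType K M']

omit [Field M'] [Algebra K M'] [Algebra.EssFiniteType K M'] in
/-- The Laurent expansion at `w` of `ρ f`, for `f` regular at the centre `T` of `ρ` at `w`: the
expansion of `f` at `T` followed by the substitution `X ↦ tay w ϖ (ρ t)`. -/
theorem taylorLR_map (htr : Algebra.trdeg K F = 1) (htrM : Algebra.trdeg K M = 1)
    {ρ : F →ₐ[K] M} {w : Place K M} {T : Place K F} (hT : Loc3.IsCentre ρ w T)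
    (t : F) (ht : T.ord t = 1) (ϖ : M) (hϖ : w.ord ϖ = 1) {f : F}
    (hf : f ∈ T.toValuationSubring) :
    TaylorL.taylorLR htrM w ϖ hϖ (ρ f) = HahnSeries.ofPowerSeries ℤ K
      ((Loc3.tay htr T t ht f).subst (Loc3.tay htrM w ϖ hϖ (ρ t))) := by
  rw [TaylorL.taylorLR_of_mem htrM w ϖ hϖ (hT.map_mem hf),
    ← Loc3.tay_of_mem htrM w ϖ hϖ (hT.map_mem hf),
    (Loc3.tay_map_eq_subst htr htrM hT t ht ϖ hϖ).2 f hf]

/-- Two embeddings into two configuration fields with the same centre and the same expansion of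
a uniformiser at the centre have the same Laurent expansion. -/
theorem taylorLR_comp_eq (htr : Algebra.trdeg K F = 1) (htrM : Algebra.trdeg K M = 1)
    (htrM' : Algebra.trdeg K M' = 1) {ρ : F →ₐ[K] M} {ρ' : F →ₐ[K] M'} {w : Place K M}
    {w' : Place K M'} {T : Place K F} (hT : Loc3.IsCentre ρ w T) (hT' : Loc3.IsCentre ρ' w' T)
    (t : F) (ht : T.ord t = 1) (ϖ : M) (hϖ : w.ord ϖ = 1) (ϖ' : M') (hϖ' : w'.ord ϖ' = 1)
    (heq : Loc3.tay htrM w ϖ hϖ (ρ t) = Loc3.tay htrM' w' ϖ' hϖ' (ρ' t)) (f : F) :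
    TaylorL.taylorLR htrM w ϖ hϖ (ρ f) = TaylorL.taylorLR htrM' w' ϖ' hϖ' (ρ' f) := by
  have key : ∀ f : F, f ∈ T.toValuationSubring →
      TaylorL.taylorLR htrM w ϖ hϖ (ρ f) = TaylorL.taylorLR htrM' w' ϖ' hϖ' (ρ' f) := by
    intro f hf
    rw [taylorLR_map htr htrM hT t ht ϖ hϖ hf, taylorLR_map htr htrM' hT' t ht ϖ' hϖ' hf, heq]
  rcases T.toValuationSubring.mem_or_inv_mem f with hf | hf
  · exact key f hf
  · have h := key f⁻¹ hf
    rw [map_inv₀, map_inv₀, map_inv₀, map_inv₀] at h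
    exact inv_injective h

/-- **(U), last step.**  Two configuration fields, each generated by its embeddings, whose
embeddings have the same centres and the same expansions of uniformisers at two places are
isomorphic over all their embeddings. -/
theorem exists_algEquiv (htr : Algebra.trdeg K F = 1) (htrM : Algebra.trdeg K M = 1)
    (htrM' : Algebra.trdeg K M' = 1) {ι : Type*} (ρ : ι → (F →ₐ[K] M)) (ρ' : ι → (F →ₐ[K] M'))
    (w : Place K M) (w' : Place K M') (T : ι → Place K F)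
    (hT : ∀ z, Loc3.IsCentre (ρ z) w (T z)) (hT' : ∀ z, Loc3.IsCentre (ρ' z) w' (T z))
    (t : ι → F) (ht : ∀ z, (T z).ord (t z) = 1)
    (ϖ : M) (hϖ : w.ord ϖ = 1) (ϖ' : M') (hϖ' : w'.ord ϖ' = 1)
    (heq : ∀ z, Loc3.tay htrM w ϖ hϖ (ρ z (t z)) = Loc3.tay htrM' w' ϖ' hϖ' (ρ' z (t z)))
    (hgen : IntermediateField.adjoin K (⋃ z, Set.range (ρ z)) = ⊤)
    (hgen' : IntermediateField.adjoin K (⋃ z, Set.range (ρ' z)) = ⊤) :
    ∃ φ : M ≃ₐ[K] M', ∀ z, (φ : M →ₐ[K] M').comp (ρ z) = ρ' z := by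
  have hcomp : ∀ z f, TaylorL.taylorLR htrM w ϖ hϖ (ρ z f) =
      TaylorL.taylorLR htrM' w' ϖ' hϖ' (ρ' z f) := fun z f =>
    taylorLR_comp_eq htr htrM htrM' (hT z) (hT' z) (t z) (ht z) ϖ hϖ ϖ' hϖ' (heq z) f
  have hEinj : Function.Injective (TaylorL.taylorLR htrM w ϖ hϖ) :=
    TaylorL.taylorLR_injective htrM w ϖ hϖ
  have hE'inj : Function.Injective (TaylorL.taylorLR htrM' w' ϖ' hϖ') :=
    TaylorL.taylorLR_injective htrM' w' ϖ' hϖ'
  -- the two images coincide
  have hrange : ∀ x : M, ∃ y : M', TaylorL.taylorLR htrM' w' ϖ' hϖ' y =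
      TaylorL.taylorLR htrM w ϖ hϖ x := by
    intro x
    have hx : x ∈ IntermediateField.adjoin K (⋃ z, Set.range (ρ z)) := by
      rw [hgen]; exact IntermediateField.mem_top
    have hle : (IntermediateField.adjoin K (⋃ z, Set.range (ρ z))).map
        (TaylorL.taylorLR htrM w ϖ hϖ) ≤ (TaylorL.taylorLR htrM' w' ϖ' hϖ').fieldRange := by
      rw [IntermediateField.adjoin_map, IntermediateField.adjoin_le_iff]
      rintro _ ⟨y, hy, rfl⟩
      obtain ⟨z, hz⟩ := Set.mem_iUnion.mp hy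
      obtain ⟨f, rfl⟩ := hz
      exact ⟨ρ' z f, (hcomp z f).symm⟩
    exact hle ⟨x, hx, rfl⟩
  have hrange' : ∀ y : M', ∃ x : M, TaylorL.taylorLR htrM w ϖ hϖ x =
      TaylorL.taylorLR htrM' w' ϖ' hϖ' y := by
    intro y
    have hy : y ∈ IntermediateField.adjoin K (⋃ z, Set.range (ρ' z)) := by
      rw [hgen']; exact IntermediateField.mem_top
    have hle : (IntermediateField.adjoin K (⋃ z, Set.range (ρ' z))).map
        (TaylorL.taylorLR htrM' w' ϖ' hϖ') ≤ (TaylorL.taylorLR htrM w ϖ hϖ).fieldRange := by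
      rw [IntermediateField.adjoin_map, IntermediateField.adjoin_le_iff]
      rintro _ ⟨x, hx, rfl⟩
      obtain ⟨z, hz⟩ := Set.mem_iUnion.mp hx
      obtain ⟨f, rfl⟩ := hz
      exact ⟨ρ z f, hcomp z f⟩
    exact hle ⟨y, hy, rfl⟩
  -- the isomorphism
  let e' := AlgEquiv.ofInjective (TaylorL.taylorLR htrM' w' ϖ' hϖ') hE'inj
  let φ₀ : M →ₐ[K] M' := (e'.symm : _ →ₐ[K] M').comp
    ((TaylorL.taylorLR htrM w ϖ hϖ).codRestrict (TaylorL.taylorLR htrM' w' ϖ' hϖ').range
      (fun x => hrange x))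
  have hφ₀ : ∀ x : M, TaylorL.taylorLR htrM' w' ϖ' hϖ' (φ₀ x) =
      TaylorL.taylorLR htrM w ϖ hϖ x := by
    intro x
    have h1 : e' (φ₀ x) = (TaylorL.taylorLR htrM w ϖ hϖ).codRestrict
        (TaylorL.taylorLR htrM' w' ϖ' hϖ').range (fun x => hrange x) x :=
      e'.apply_symm_apply _
    have h2 := congrArg Subtype.val h1
    exact h2
  have hinj : Function.Injective φ₀ := fun x y hxy =>
    hEinj (by rw [← hφ₀ x, ← hφ₀ y, hxy])
  have hsurj : Function.Surjective φ₀ := by
    intro y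
    obtain ⟨x, hx⟩ := hrange' y
    exact ⟨x, hE'inj (by rw [hφ₀ x, hx])⟩
  refine ⟨AlgEquiv.ofBijective φ₀ ⟨hinj, hsurj⟩, fun z => ?_⟩
  ext f
  apply hE'inj
  show TaylorL.taylorLR htrM' w' ϖ' hϖ' (φ₀ (ρ z f)) = _
  rw [hφ₀, hcomp z f]

end Fermat.Agent.S27.C.UniqIso
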