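import Mathlib
import Fermat.Agent.S17.HB.Loc1
import Fermat.Agent.S27.C.PSetup
import Fermat.Agent.S27.C.PSetupRaw
import Fermat.Agent.S27.L.Loc
import Fermat.Agent.S27.C.UniqIso
import Fermat.Agent.S27.C.UniqFormal

/-!
# Program PJ (statement S27), strand C, leaf C7 (uniqueness): the formal solution of a
configuration at ANY place with the right centres (no regularity of the coefficients)

`S27/C/UniqFormal.lean` proves the formal half of (U) at a place `w` of `M` at which the
coefficients `d.cM j` of the configuration are regular.  The assembly of strand G applies (U)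
at arbitrary places of arbitrary generated configurations, where nothing bounds the poles of
the `d.cM j`.  This file removes the hypothesis: the specialisation at `w` is taken with the
normalising exponent `e` of `L.Loc.exists_exponent` (the series `tay w ϖ (ϖ ^ e * d.cM j)`),
and the rest of the argument of `UniqFormal.exists_solution` is unchanged (the jet equations
are invariant under scaling of the coefficients).

* `exists_solution` : the expansions `u z = tay w ϖ (d.ρ z (π z))` of the points at `w` solve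
  the jet equations of the formal solution `s` with normalised coefficients;
* `tay_eq_u` : if the jet equations of `s` have a unique normalised solution, then
  `tay w (d.ρ z₀ (π z₀)) (d.ρ z (π z)) = s.u z`;
* `tay_eq_tay` : hence two configurations over the same base tuple have the same expansions
  of their points at places with the same ordered centres (the hypothesis `heq` of
  `UniqIso.exists_algEquiv` and of its variants);
* `config_unique` : (U) in the isomorphism form, without regularity hypotheses.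
-/

set_option autoImplicit false
set_option linter.unusedSectionVars false

open AlgebraicCurve IsDedekindDomain

namespace Fermat.Agent.S27.C.UniqFormalGen

open Fermat.Agent.S17 Fermat.Agent.S17.D Fermat.Agent.S17.HB

variable {K F : Type*} [Field K] [Field F] [Algebra K F]
variable {R : Type*} [CommRing R] [IsDedekindDomain R] [Algebra R F] [IsFractionRing R F]
  [Algebra K R] [IsScalarTower K R F]
variable {ι : Type} [Fintype ι] {μ : ι → ℕ} {z₀ : ι} {T : ι → Place K F}
variable [IsAlgClosed K] [CharZero K] [Algebra.EssFiniteType K F]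
variable {M : Type*} [Field M] [Algebra K M] [Algebra.EssFiniteType K M]

/-- **The formal solution of a configuration at a place with centres `T`** (no regularity of
the coefficients).  Let `s` be a formal solution (`PSetup`) over the base tuple `(μ, T)` and `d`
a profile configuration on `M` (any constant divisor `B`) with a place `w` of `M` at which the
`z`-th point has centre `T z` for every `z`.  Then the expansions at `w` (uniformiser `ϖ`) of
the points, `u z = tay w ϖ (ρ z (π z))`, satisfy the jet equations of `s` with suitable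
normalised coefficients `c`. -/
theorem exists_solution (htr : Algebra.trdeg K F = 1) (htrM : Algebra.trdeg K M = 1)
    (hT : Function.Injective T) (s : PSetup (K := K) (F := F) R μ z₀ T)
    {m : ℕ} {B : Divisor K F} {δ : Derivation K F F} (d : L.Data htr M ι μ m B δ)
    (w : Place K M) (hcen : ∀ z, L.cen htr htrM (d.ρ z) w = T z)
    (ϖ : M) (hϖ : w.ord ϖ = 1) :
    ∃ c : Fin (s.m + 1) → PowerSeries K, c 0 = 1 ∧
      (∀ j, j ≠ 0 → PowerSeries.constantCoeff (c j) = 0) ∧
      ∀ z, ∀ i < μ z, ∑ j, c j * (hasse i (s.τ z (s.r j))).subst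
        (Loc3.tay htrM w ϖ hϖ (d.ρ z (algebraMap R F (s.π z)))) = 0 := by
  classical
  -- the specialisation at `w`
  obtain ⟨e, he, he0⟩ := L.Loc.exists_exponent d w ϖ hϖ
  obtain ⟨hΨ0, hΨdiv⟩ := L.divOf_spec htr htrM d w ϖ hϖ e he he0
  obtain ⟨C, hC⟩ : ∃ C : Fin (m + 1) → PowerSeries K,
      ∀ j, C j = Loc3.tay htrM w ϖ hϖ (ϖ ^ e * d.cM j) := ⟨_, fun _ => rfl⟩
  simp only [← hC] at hΨ0 hΨdiv
  obtain ⟨Ψ, hΨ⟩ : ∃ Ψ : F, Ψ = ∑ j, PowerSeries.constantCoeff (C j) • d.v j := ⟨_, rfl⟩
  rw [← hΨ] at hΨ0 hΨdiv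
  have hordΨ : ∀ P : Place K F,
      P.ord Ψ = (∑ z, (μ z : ℤ) • Finsupp.single (T z) (1 : ℤ)) P - B P := by
    intro P
    have h1 := congrArg (fun D : Divisor K F => D P) hΨdiv
    simp only [Fermat.Agent.S17.R.divOf_apply htr, hcen] at h1
    rw [h1, Finsupp.sub_apply]
  -- re-basing into the basis of the formal solution
  have hv' : ∀ j, d.v j * Ψ⁻¹ ∈
      riemannRochSpace (∑ z, (μ z : ℤ) • Finsupp.single (T z) (1 : ℤ)) := by
    intro j
    have hvj0 : d.v j ≠ 0 := d.v_indep.ne_zero j
    rw [Fermat.Agent.S17.R.mem_L_of_ne_zero (mul_ne_zero hvj0 (inv_ne_zero hΨ0))]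
    intro P
    rw [P.ord_mul hvj0 (inv_ne_zero hΨ0), Place.ord_inv, hordΨ P]
    have h1 := (Fermat.Agent.S17.R.mem_L_of_ne_zero hvj0).mp (d.v_mem j) P
    omega
  have hA : ∀ j, ∃ a : Fin (s.m + 1) → K, ∑ i, a i • s.v i = d.v j * Ψ⁻¹ := fun j =>
    (Submodule.mem_span_range_iff_exists_fun K).mp (s.v_span _ (hv' j))
  choose A hA using hA
  obtain ⟨ct, hct⟩ : ∃ ct : Fin (s.m + 1) → PowerSeries K,
      ∀ i, ct i = ∑ j, C j * PowerSeries.C (A j i) := ⟨_, fun _ => rfl⟩
  have hct0 : ∀ i, PowerSeries.constantCoeff (ct i) = if i = 0 then 1 else 0 := by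
    have hsum : ∑ i, (∑ j, PowerSeries.constantCoeff (C j) * A j i) • s.v i = s.v 0 := by
      rw [s.v_zero]
      calc ∑ i, (∑ j, PowerSeries.constantCoeff (C j) * A j i) • s.v i
          = ∑ j, PowerSeries.constantCoeff (C j) • ∑ i, A j i • s.v i := by
            simp only [Finset.sum_smul, Finset.smul_sum, mul_smul]
            rw [Finset.sum_comm]
        _ = ∑ j, PowerSeries.constantCoeff (C j) • (d.v j * Ψ⁻¹) := by simp only [hA]
        _ = (∑ j, PowerSeries.constantCoeff (C j) • d.v j) * Ψ⁻¹ := by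
            rw [Finset.sum_mul]; simp only [smul_mul_assoc]
        _ = 1 := by rw [← hΨ, mul_inv_cancel₀ hΨ0]
    have hlin := Fintype.linearIndependent_iff.mp s.v_indep
      (fun i => (∑ j, PowerSeries.constantCoeff (C j) * A j i) - if i = 0 then 1 else 0) (by
        simp only [sub_smul, Finset.sum_sub_distrib, hsum, ite_smul, one_smul, zero_smul,
          Finset.sum_ite_eq', Finset.mem_univ, if_true, sub_self])
    intro i
    have h2 := hlin i
    rw [hct i, map_sum]
    simp only [map_mul, PowerSeries.constantCoeff_C]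
    exact sub_eq_zero.mp h2
  -- the jets
  have hjets : ∀ z, ∀ i < μ z, ∑ j, ct j * (hasse i (s.τ z (s.r j))).subst
      (Loc3.tay htrM w ϖ hϖ (d.ρ z (algebraMap R F (s.π z)))) = 0 := by
    intro z i hi
    obtain ⟨t, ht_def⟩ : ∃ t : F, t = algebraMap R F (s.π z) := ⟨_, rfl⟩
    have ht : (T z).ord t = 1 := by rw [ht_def]; exact UniqFormal.ord_π s z
    rw [← ht_def]
    obtain ⟨W, hW⟩ : ∃ W : Fin (m + 1) → PowerSeries K,
        ∀ j, W j = Loc3.tay htr (T z) t ht (t ^ (B (T z)).toNat * d.v j) := ⟨_, fun _ => rfl⟩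
    obtain ⟨r, hr⟩ : ∃ r : {z' : ι // L.cen htr htrM (d.ρ z') w = T z} → PowerSeries K,
        ∀ z', r z' = Loc3.tay htrM w ϖ hϖ (d.ρ z'.1 t) := ⟨_, fun _ => rfl⟩
    obtain ⟨hWmem, -, hr0, -, hJ, -⟩ :=
      L.loc1_hyps htr htrM d w ϖ hϖ e he he0 (T z) t ht C W hC hW r hr
    obtain ⟨u, hu⟩ : ∃ u : PowerSeries K, u = Loc3.tay htrM w ϖ hϖ (d.ρ z t) := ⟨_, rfl⟩
    rw [← hu]
    have hJz : ∀ i < μ z, ∑ j, C j * (hasse i (W j)).subst u = 0 := by
      intro i hi
      have h1 := hJ ⟨z, hcen z⟩ i hi
      rwa [hr, ← hu] at h1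
    have hu0 : PowerSeries.constantCoeff u = 0 := by
      have h1 := hr0 ⟨z, hcen z⟩
      rwa [hr, ← hu] at h1
    have hsub : PowerSeries.HasSubst u := PowerSeries.HasSubst.of_constantCoeff_zero' hu0
    have hS : ∀ f : PowerSeries K, f.subst u = PowerSeries.substAlgHom hsub f := fun f => by
      rw [PowerSeries.coe_substAlgHom]
    -- the regular factor between the two families of numerators
    obtain ⟨N, hN⟩ : ∃ N : ℕ, N = (B (T z)).toNat := ⟨_, rfl⟩
    have hBN : (N : ℤ) = B (T z) := by
      rw [hN]; exact Int.toNat_of_nonneg (Finsupp.le_def.mp d.B_nonneg (T z))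
    rw [← hN] at hW hWmem
    have hb₁ : algebraMap R F s.b₁ ≠ 0 :=
      (map_ne_zero_iff _ (IsFractionRing.injective R F)).mpr s.b₁_ne
    have ht0 : t ≠ 0 := by
      intro h; rw [h, Place.ord_zero] at ht; exact zero_ne_one ht
    have htN0 : t ^ N ≠ 0 := pow_ne_zero N ht0
    obtain ⟨h, hh⟩ : ∃ h : F, h = algebraMap R F s.b₁ * Ψ⁻¹ * (t ^ N)⁻¹ := ⟨_, rfl⟩
    have hh0 : h ≠ 0 := by
      rw [hh]; exact mul_ne_zero (mul_ne_zero hb₁ (inv_ne_zero hΨ0)) (inv_ne_zero htN0)
    have hordtN : (T z).ord (t ^ N) = N := by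
      have h1 := Loc3.ord_pow_mul (T z) ht N (one_ne_zero (α := F))
      rwa [mul_one, Place.ord_one, add_zero] at h1
    have hhord : (T z).ord h = 0 := by
      rw [hh, (T z).ord_mul (mul_ne_zero hb₁ (inv_ne_zero hΨ0)) (inv_ne_zero htN0),
        (T z).ord_mul hb₁ (inv_ne_zero hΨ0), Place.ord_inv, Place.ord_inv, s.ord_b₁ z,
        hordΨ (T z), PSetupRaw.sum_smul_single_apply_self T hT (fun z => (μ z : ℤ)) z, hordtN]
      omega
    have hhmem : h ∈ (T z).toValuationSubring :=
      (Fermat.Agent.S24.FF.ord_nonneg_iff (T z) hh0).mp (by rw [hhord])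
    obtain ⟨U, hU⟩ : ∃ U : PowerSeries K, U = Loc3.tay htr (T z) t ht h := ⟨_, rfl⟩
    have hstar : ∀ j, ∑ i', A j i' • s.τ z (s.r i') = U * W j := by
      intro j
      have e1 : ∑ i', A j i' • algebraMap R F (s.r i') = h * (t ^ N * d.v j) := by
        calc ∑ i', A j i' • algebraMap R F (s.r i')
            = algebraMap R F s.b₁ * ∑ i', A j i' • s.v i' := by
              rw [Finset.mul_sum]
              refine Finset.sum_congr rfl fun i' _ => ?_
              rw [s.r_spec, mul_smul_comm]
          _ = algebraMap R F s.b₁ * (d.v j * Ψ⁻¹) := by rw [hA]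
          _ = h * (t ^ N * d.v j) := by
              rw [hh]; field_simp
      have e2 := congrArg (Loc3.tay htr (T z) t ht) e1
      rw [Loc3.tay_sum htr (T z) t ht _ _ (fun i' _ => by
          rw [Algebra.smul_def]
          exact mul_mem ((T z).algebraMap_mem' _) (UniqFormal.model_mem s z _)),
        Loc3.tay_mul htr (T z) t ht hhmem (hWmem j), ← hW j, ← hU] at e2
      rw [← e2]
      refine Finset.sum_congr rfl fun i' _ => ?_
      rw [Loc3.tay_smul htr (T z) t ht _ (UniqFormal.model_mem s z _), UniqFormal.τ_eq_tay htr s z]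
      subst ht_def
      rfl
    calc ∑ j', ct j' * (hasse i (s.τ z (s.r j'))).subst u
        = ∑ j, C j * (hasse i (∑ i', A j i' • s.τ z (s.r i'))).subst u := by
          simp only [hct, Finset.sum_mul, hS]
          rw [Finset.sum_comm]
          refine Finset.sum_congr rfl fun j _ => ?_
          rw [Loc1.hasse_sum, map_sum, Finset.mul_sum]
          refine Finset.sum_congr rfl fun i' _ => ?_
          rw [hasse_smul, map_smul, PowerSeries.smul_eq_C_mul]
          ring
      _ = ∑ j, C j * (hasse i (U * W j)).subst u := by simp only [hstar]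
      _ = ∑ a ∈ Finset.range (i + 1),
            (hasse a U).subst u * ∑ j, C j * (hasse (i - a) (W j)).subst u := by
          simp only [hasse_mul, hS, map_sum, map_mul, Finset.mul_sum]
          rw [Finset.sum_comm]
          refine Finset.sum_congr rfl fun a _ => Finset.sum_congr rfl fun j _ => by ring
      _ = 0 := by
          refine Finset.sum_eq_zero fun a ha => ?_
          rw [hJz (i - a) (by omega), mul_zero]
  -- normalisation
  have hct00 : PowerSeries.constantCoeff (ct 0) ≠ 0 := by
    rw [hct0 0, if_pos rfl]; exact one_ne_zero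
  refine ⟨fun j => ct j * (ct 0)⁻¹, PowerSeries.mul_inv_cancel _ hct00, ?_, ?_⟩
  · intro j hj
    rw [map_mul, hct0 j, if_neg hj, zero_mul]
  · intro z i hi
    have h1 := hjets z i hi
    calc ∑ j, ct j * (ct 0)⁻¹ * (hasse i (s.τ z (s.r j))).subst
          (Loc3.tay htrM w ϖ hϖ (d.ρ z (algebraMap R F (s.π z))))
        = (ct 0)⁻¹ * ∑ j, ct j * (hasse i (s.τ z (s.r j))).subst
          (Loc3.tay htrM w ϖ hϖ (d.ρ z (algebraMap R F (s.π z)))) := by
          rw [Finset.mul_sum]
          refine Finset.sum_congr rfl fun j _ => by ring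
      _ = 0 := by rw [h1, mul_zero]

/-- **The formal half of (U), without regularity.**  If the jet equations of the formal solution
`s` have a unique normalised solution (`huniq`: the conclusion of `psetup_unique`), then at
every place `w` of every configuration over the same base tuple with centres `T`, the parameter
point `z₀` unramified, the expansions of the points with respect to the uniformiser
`ρ z₀ (π z₀)` are the series `s.u z` of the formal solution. -/
theorem tay_eq_u (htr : Algebra.trdeg K F = 1) (htrM : Algebra.trdeg K M = 1)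
    (hT : Function.Injective T) (s : PSetup (K := K) (F := F) R μ z₀ T)
    (huniq : ∀ (c : Fin (s.m + 1) → PowerSeries K) (u : ι → PowerSeries K), c 0 = 1 →
      (∀ j, j ≠ 0 → PowerSeries.constantCoeff (c j) = 0) →
      (∀ z, PowerSeries.constantCoeff (u z) = 0) → u z₀ = PowerSeries.X →
      (∀ z, ∀ i < μ z, ∑ j, c j * (hasse i (s.τ z (s.r j))).subst (u z) = 0) →
      c = s.c ∧ u = s.u)
    {m : ℕ} {B : Divisor K F} {δ : Derivation K F F} (d : L.Data htr M ι μ m B δ)
    (w : Place K M) (hcen : ∀ z, L.cen htr htrM (d.ρ z) w = T z)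
    (hunr : w.ord (d.ρ z₀ (algebraMap R F (s.π z₀))) = 1) (z : ι) :
    Loc3.tay htrM w (d.ρ z₀ (algebraMap R F (s.π z₀))) hunr
      (d.ρ z (algebraMap R F (s.π z))) = s.u z := by
  obtain ⟨c, hc0, hc, hj⟩ := exists_solution htr htrM hT s d w hcen
    (d.ρ z₀ (algebraMap R F (s.π z₀))) hunr
  have h := huniq c (fun z => Loc3.tay htrM w (d.ρ z₀ (algebraMap R F (s.π z₀))) hunr
      (d.ρ z (algebraMap R F (s.π z)))) hc0 hc
    (fun z => UniqFormal.constantCoeff_tay_π htr htrM s d.ρ w hcen _ hunr z)
    (Loc3.tay_unif htrM w _ hunr) hj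
  exact congrFun h.2 z

/-- **Equal expansions.**  Two configurations over the same base tuple `(μ, T)`, with places
`w`, `w'` of centres `T` at which the parameter point `z₀` is unramified, have the same
expansions of all their points (with respect to the uniformisers `ρ z₀ (π z₀)`): this is the
hypothesis `heq` of `UniqIso.exists_algEquiv`. -/
theorem tay_eq_tay (htr : Algebra.trdeg K F = 1)
    (hT : Function.Injective T) (s : PSetup (K := K) (F := F) R μ z₀ T)
    (huniq : ∀ (c : Fin (s.m + 1) → PowerSeries K) (u : ι → PowerSeries K), c 0 = 1 →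
      (∀ j, j ≠ 0 → PowerSeries.constantCoeff (c j) = 0) →
      (∀ z, PowerSeries.constantCoeff (u z) = 0) → u z₀ = PowerSeries.X →
      (∀ z, ∀ i < μ z, ∑ j, c j * (hasse i (s.τ z (s.r j))).subst (u z) = 0) →
      c = s.c ∧ u = s.u)
    {M' : Type*} [Field M'] [Algebra K M'] [Algebra.EssFiniteType K M']
    (htrM : Algebra.trdeg K M = 1) (htrM' : Algebra.trdeg K M' = 1)
    {m m' : ℕ} {B B' : Divisor K F} {δ δ' : Derivation K F F}
    (d : L.Data htr M ι μ m B δ) (d' : L.Data htr M' ι μ m' B' δ')
    (w : Place K M) (w' : Place K M')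
    (hcen : ∀ z, L.cen htr htrM (d.ρ z) w = T z)
    (hcen' : ∀ z, L.cen htr htrM' (d'.ρ z) w' = T z)
    (hunr : w.ord (d.ρ z₀ (algebraMap R F (s.π z₀))) = 1)
    (hunr' : w'.ord (d'.ρ z₀ (algebraMap R F (s.π z₀))) = 1) (z : ι) :
    Loc3.tay htrM w (d.ρ z₀ (algebraMap R F (s.π z₀))) hunr
        (d.ρ z (algebraMap R F (s.π z))) =
      Loc3.tay htrM' w' (d'.ρ z₀ (algebraMap R F (s.π z₀))) hunr'
        (d'.ρ z (algebraMap R F (s.π z))) := by
  rw [tay_eq_u htr htrM hT s huniq d w hcen hunr z,
    tay_eq_u htr htrM' hT s huniq d' w' hcen' hunr' z]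

/-- **(U): uniqueness of the configuration through a base tuple, without regularity.**  Two
configurations `(M, d)`, `(M', d')` over the same base tuple `(μ, T)` (the constant divisors
`B`, `B'` and the derivations may differ), each generated by its points, with places `w`, `w'`
at which the `z`-th point has centre `T z` and the parameter point `z₀` is unramified, are
isomorphic over all their points. -/
theorem config_unique (htr : Algebra.trdeg K F = 1)
    (hT : Function.Injective T) (s : PSetup (K := K) (F := F) R μ z₀ T)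
    (huniq : ∀ (c : Fin (s.m + 1) → PowerSeries K) (u : ι → PowerSeries K), c 0 = 1 →
      (∀ j, j ≠ 0 → PowerSeries.constantCoeff (c j) = 0) →
      (∀ z, PowerSeries.constantCoeff (u z) = 0) → u z₀ = PowerSeries.X →
      (∀ z, ∀ i < μ z, ∑ j, c j * (hasse i (s.τ z (s.r j))).subst (u z) = 0) →
      c = s.c ∧ u = s.u)
    {M' : Type*} [Field M'] [Algebra K M'] [Algebra.EssFiniteType K M']
    (htrM : Algebra.trdeg K M = 1) (htrM' : Algebra.trdeg K M' = 1)
    {m m' : ℕ} {B B' : Divisor K F} {δ δ' : Derivation K F F}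
    (d : L.Data htr M ι μ m B δ) (d' : L.Data htr M' ι μ m' B' δ')
    (w : Place K M) (w' : Place K M')
    (hcen : ∀ z, L.cen htr htrM (d.ρ z) w = T z)
    (hcen' : ∀ z, L.cen htr htrM' (d'.ρ z) w' = T z)
    (t₀ : F) (ht₀ : (T z₀).ord t₀ = 1)
    (hunr : w.ord (d.ρ z₀ t₀) = 1) (hunr' : w'.ord (d'.ρ z₀ t₀) = 1)
    (hgen : IntermediateField.adjoin K (⋃ z, Set.range (d.ρ z)) = ⊤)
    (hgen' : IntermediateField.adjoin K (⋃ z, Set.range (d'.ρ z)) = ⊤) :
    ∃ φ : M ≃ₐ[K] M', ∀ z, (φ : M →ₐ[K] M').comp (d.ρ z) = d'.ρ z := by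
  have h1 := UniqFormal.ord_map_π htr htrM s (d.ρ z₀) w z₀ (hcen z₀) t₀ ht₀ hunr
  have h1' := UniqFormal.ord_map_π htr htrM' s (d'.ρ z₀) w' z₀ (hcen' z₀) t₀ ht₀ hunr'
  exact UniqIso.exists_algEquiv htr htrM htrM' d.ρ d'.ρ w w' T
    (fun z => hcen z ▸ L.isCentre_cen htr htrM (d.ρ z) w)
    (fun z => hcen' z ▸ L.isCentre_cen htr htrM' (d'.ρ z) w')
    (fun z => algebraMap R F (s.π z)) (fun z => UniqFormal.ord_π s z) _ h1 _ h1'
    (fun z => tay_eq_tay htr hT s huniq htrM htrM' d d' w w' hcen hcen' h1 h1' z) hgen hgen'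

end Fermat.Agent.S27.C.UniqFormalGen
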