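import Mathlib
import Fermat.Agent.S27.C.UniqIso

/-!
# Program PJ (statement S27), strand C, leaf C7 (uniqueness): the isomorphism of two
configuration fields respects the places

`exists_algEquiv_ord` is `UniqIso.exists_algEquiv` with one more conclusion: the isomorphism
`φ : M ≃ₐ[K] M'` built from the two Laurent expansions at the places `w`, `w'` carries `w` to
`w'`, i.e. `w'.ord (φ x) = w.ord x` for every `x : M` (the expansions satisfy
`taylorLR w' ϖ' (φ x) = taylorLR w ϖ x`, and the order of an expansion is the order at the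
place).  This clause is what makes an ordered regular tuple determine the place inside one
configuration field.
-/

set_option autoImplicit false

open AlgebraicCurve

namespace Fermat.Agent.S27.C.UniqIsoOrd

open Fermat.Agent.S17 Fermat.Agent.S17.D Fermat.Agent.S17.HB
open Fermat.Agent.S27.C.UniqIso (taylorLR_comp_eq)

variable {K F M M' : Type*} [Field K] [Field F] [Algebra K F] [Field M] [Algebra K M]
  [Field M'] [Algebra K M']
variable [IsAlgClosed K] [CharZero K] [Algebra.EssFiniteType K F] [Algebra.EssFiniteType K M]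
  [Algebra.EssFiniteType K M']

/-- **(U), last step, with the places.**  Two configuration fields, each generated by its
embeddings, whose embeddings have the same centres and the same expansions of uniformisers at
two places `w`, `w'`, are isomorphic over all their embeddings by an isomorphism carrying `w`
to `w'`. -/
theorem exists_algEquiv_ord (htr : Algebra.trdeg K F = 1) (htrM : Algebra.trdeg K M = 1)
    (htrM' : Algebra.trdeg K M' = 1) {ι : Type*} (ρ : ι → (F →ₐ[K] M)) (ρ' : ι → (F →ₐ[K] M'))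
    (w : Place K M) (w' : Place K M') (T : ι → Place K F)
    (hT : ∀ z, Loc3.IsCentre (ρ z) w (T z)) (hT' : ∀ z, Loc3.IsCentre (ρ' z) w' (T z))
    (t : ι → F) (ht : ∀ z, (T z).ord (t z) = 1)
    (ϖ : M) (hϖ : w.ord ϖ = 1) (ϖ' : M') (hϖ' : w'.ord ϖ' = 1)
    (heq : ∀ z, Loc3.tay htrM w ϖ hϖ (ρ z (t z)) = Loc3.tay htrM' w' ϖ' hϖ' (ρ' z (t z)))
    (hgen : IntermediateField.adjoin K (⋃ z, Set.range (ρ z)) = ⊤)
    (hgen' : IntermediateField.adjoin K (⋃ z, Set.range (ρ' z)) = ⊤) :
    ∃ φ : M ≃ₐ[K] M', (∀ z, (φ : M →ₐ[K] M').comp (ρ z) = ρ' z) ∧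
      ∀ x : M, w'.ord (φ x) = w.ord x := by
  have hcomp : ∀ z f, TaylorL.taylorLR htrM w ϖ hϖ (ρ z f) =
      TaylorL.taylorLR htrM' w' ϖ' hϖ' (ρ' z f) := fun z f =>
    taylorLR_comp_eq htr htrM htrM' (hT z) (hT' z) (t z) (ht z) ϖ hϖ ϖ' hϖ' (heq z) f
  have hEinj : Function.Injective (TaylorL.taylorLR htrM w ϖ hϖ) :=
    TaylorL.taylorLR_injective htrM w ϖ hϖ
  have hE'inj : Function.Injective (TaylorL.taylorLR htrM' w' ϖ' hϖ') :=
    TaylorL.taylorLR_injective htrM' w' ϖ' hϖ'
  -- the two images coincide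
  have hrange : ∀ x : M, ∃ y : M', TaylorL.taylorLR htrM' w' ϖ' hϖ' y =
      TaylorL.taylorLR htrM w ϖ hϖ x := by
    intro x
    have hx : x ∈ IntermediateField.adjoin K (⋃ z, Set.range (ρ z)) := by
      rw [hgen]; exact IntermediateField.mem_top
    have hle : (IntermediateField.adjoin K (⋃ z, Set.range (ρ z))).map
        (TaylorL.taylorLR htrM w ϖ hϖ) ≤ (TaylorL.taylorLR htrM' w' ϖ' hϖ').fieldRange := by
      rw [IntermediateField.adjoin_map, IntermediateField.adjoin_le_iff]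
      rintro _ ⟨y, hy, rfl⟩
      obtain ⟨z, hz⟩ := Set.mem_iUnion.mp hy
      obtain ⟨f, rfl⟩ := hz
      exact ⟨ρ' z f, (hcomp z f).symm⟩
    exact hle ⟨x, hx, rfl⟩
  have hrange' : ∀ y : M', ∃ x : M, TaylorL.taylorLR htrM w ϖ hϖ x =
      TaylorL.taylorLR htrM' w' ϖ' hϖ' y := by
    intro y
    have hy : y ∈ IntermediateField.adjoin K (⋃ z, Set.range (ρ' z)) := by
      rw [hgen']; exact IntermediateField.mem_top
    have hle : (IntermediateField.adjoin K (⋃ z, Set.range (ρ' z))).map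
        (TaylorL.taylorLR htrM' w' ϖ' hϖ') ≤ (TaylorL.taylorLR htrM w ϖ hϖ).fieldRange := by
      rw [IntermediateField.adjoin_map, IntermediateField.adjoin_le_iff]
      rintro _ ⟨x, hx, rfl⟩
      obtain ⟨z, hz⟩ := Set.mem_iUnion.mp hx
      obtain ⟨f, rfl⟩ := hz
      exact ⟨ρ z f, hcomp z f⟩
    exact hle ⟨y, hy, rfl⟩
  -- the isomorphism
  let e' := AlgEquiv.ofInjective (TaylorL.taylorLR htrM' w' ϖ' hϖ') hE'inj
  let φ₀ : M →ₐ[K] M' := (e'.symm : _ →ₐ[K] M').comp
    ((TaylorL.taylorLR htrM w ϖ hϖ).codRestrict (TaylorL.taylorLR htrM' w' ϖ' hϖ').range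
      (fun x => hrange x))
  have hφ₀ : ∀ x : M, TaylorL.taylorLR htrM' w' ϖ' hϖ' (φ₀ x) =
      TaylorL.taylorLR htrM w ϖ hϖ x := by
    intro x
    have h1 : e' (φ₀ x) = (TaylorL.taylorLR htrM w ϖ hϖ).codRestrict
        (TaylorL.taylorLR htrM' w' ϖ' hϖ').range (fun x => hrange x) x :=
      e'.apply_symm_apply _
    have h2 := congrArg Subtype.val h1
    exact h2
  have hinj : Function.Injective φ₀ := fun x y hxy =>
    hEinj (by rw [← hφ₀ x, ← hφ₀ y, hxy])
  have hsurj : Function.Surjective φ₀ := by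
    intro y
    obtain ⟨x, hx⟩ := hrange' y
    exact ⟨x, hE'inj (by rw [hφ₀ x, hx])⟩
  refine ⟨AlgEquiv.ofBijective φ₀ ⟨hinj, hsurj⟩, fun z => ?_, fun x => ?_⟩
  · ext f
    apply hE'inj
    show TaylorL.taylorLR htrM' w' ϖ' hϖ' (φ₀ (ρ z f)) = _
    rw [hφ₀, hcomp z f]
  · show w'.ord (φ₀ x) = w.ord x
    by_cases hx : x = 0
    · rw [hx, map_zero, Place.ord_zero, Place.ord_zero]
    · have hφx : φ₀ x ≠ 0 := fun h => hx (hinj (h.trans (map_zero φ₀).symm))
      rw [← TaylorL.order_taylorLR htrM' w' ϖ' hϖ' hφx, hφ₀,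
        TaylorL.order_taylorLR htrM w ϖ hϖ hx]


end Fermat.Agent.S27.C.UniqIsoOrd
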