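import Mathlib
import Fermat.Agent.S27.C.PSetupModel
import Fermat.Agent.S27.C.UniqFormalGen
import Fermat.Agent.S27.C.UniqIsoOrd

/-!
# Program PJ (statement S27), strand C, exit (C-E3): uniqueness (U) of the configuration
through a base tuple, isomorphism form with the places

`config_unique`: two profile configurations `(M, d)`, `(M', d')` over the same multiplicities
`μ` (any finite label type `ι` with `card ι = gR + 1`, any marked label `z₀`; the constant
divisors `B`, `B'` may differ), each generated by its points, with places `w`, `w'` having the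
same ordered centres, these centres pairwise distinct with every `g` of them non-special, and
the marked point unramified at `w` and at `w'`, are isomorphic over all their points by an
isomorphism carrying `w` to `w'`.

No hypothesis on the coefficients `d.cM j` at `w` is needed (`UniqFormalGen`), and no model of
`F / K` appears in the statement: the model and the formal solution `PSetup` over the tuple of
centres are produced inside the proof (`PSetupModel.exists_psetup`), with the uniqueness of
the formal solution (`PSetupModel.psetup_unique`).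

`tay_eq_u` is the same statement in its formal shape: at such a place the expansions of the
points are the series of the formal solution.
-/

set_option autoImplicit false

open AlgebraicCurve

namespace Fermat.Agent.S27.C.UniqExit

open Fermat.Agent.S17 Fermat.Agent.S17.HB

variable {K F M M' : Type*} [Field K] [Field F] [Algebra K F] [Field M] [Algebra K M]
  [Field M'] [Algebra K M']
  [IsAlgClosed K] [CharZero K] [Algebra.EssFiniteType K F] [Algebra.EssFiniteType K M]
  [Algebra.EssFiniteType K M']

/-- **(C-E3) Formal uniqueness (U), isomorphism form.** -/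
theorem config_unique (htr : Algebra.trdeg K F = 1) (htrM : Algebra.trdeg K M = 1)
    (htrM' : Algebra.trdeg K M' = 1) {ι : Type} [Fintype ι] [DecidableEq ι]
    (hcard : Fintype.card ι = R.gR K F + 1) (z₀ : ι) {μ : ι → ℕ} (hμ : ∀ z, 0 < μ z)
    {m m' : ℕ} {B B' : Divisor K F} {δ : Derivation K F F} (hδ : δ ≠ 0)
    (d : L.Data htr M ι μ m B δ) (d' : L.Data htr M' ι μ m' B' δ)
    (w : Place K M) (w' : Place K M')
    (hcen : ∀ z, L.cen htr htrM (d.ρ z) w = L.cen htr htrM' (d'.ρ z) w')
    (hT : Function.Injective fun z => L.cen htr htrM (d.ρ z) w)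
    (hns : ∀ z, Module.finrank K ↥(riemannRochSpace
      (∑ z' ∈ Finset.univ.erase z, Finsupp.single (L.cen htr htrM (d.ρ z') w) (1 : ℤ))) = 1)
    (hram : Loc2.ram (d.ρ z₀) w = 1) (hram' : Loc2.ram (d'.ρ z₀) w' = 1)
    (hgen : IntermediateField.adjoin K (⋃ z, Set.range (d.ρ z)) = ⊤)
    (hgen' : IntermediateField.adjoin K (⋃ z, Set.range (d'.ρ z)) = ⊤) :
    ∃ φ : M ≃ₐ[K] M', (∀ z, (φ : M →ₐ[K] M').comp (d.ρ z) = d'.ρ z) ∧
      ∀ x : M, w'.ord (φ x) = w.ord x := by
  classical
  obtain ⟨Rm, i1, i2, i3, i4, i5, i6, ⟨s⟩⟩ := PSetupModel.exists_psetup htr hcard z₀ μ hμ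
    (fun z => L.cen htr htrM (d.ρ z) w) hT (hns z₀)
  have huniq : ∀ (c : Fin (s.m + 1) → PowerSeries K) (u : ι → PowerSeries K), c 0 = 1 →
      (∀ j, j ≠ 0 → PowerSeries.constantCoeff (c j) = 0) →
      (∀ z, PowerSeries.constantCoeff (u z) = 0) → u z₀ = PowerSeries.X →
      (∀ z, ∀ i < μ z,
        ∑ j, c j * (Fermat.Agent.S17.D.hasse i (s.τ z (s.r j))).subst (u z) = 0) →
      c = s.c ∧ u = s.u := fun c u hc0 hc hu hu0 hjets =>
    PSetupModel.psetup_unique htr hcard hμ hT (hns z₀) s c u hc0 hc hu hu0 hjets
  have h1 : w.ord (d.ρ z₀ (algebraMap Rm F (s.π z₀))) = 1 := by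
    rw [L.ord_map htr htrM (d.ρ z₀) w, hram, UniqFormal.ord_π s z₀]
    norm_num
  have h1' : w'.ord (d'.ρ z₀ (algebraMap Rm F (s.π z₀))) = 1 := by
    rw [L.ord_map htr htrM' (d'.ρ z₀) w', hram', ← hcen z₀, UniqFormal.ord_π s z₀]
    norm_num
  exact UniqIsoOrd.exists_algEquiv_ord htr htrM htrM' d.ρ d'.ρ w w'
    (fun z => L.cen htr htrM (d.ρ z) w)
    (fun z => L.isCentre_cen htr htrM (d.ρ z) w)
    (fun z => hcen z ▸ L.isCentre_cen htr htrM' (d'.ρ z) w')
    (fun z => algebraMap Rm F (s.π z)) (fun z => UniqFormal.ord_π s z) _ h1 _ h1'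
    (fun z => UniqFormalGen.tay_eq_tay htr hT s huniq htrM htrM' d d' w w' (fun _ => rfl)
      (fun z => (hcen z).symm) h1 h1' z) hgen hgen'

end Fermat.Agent.S27.C.UniqExit
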