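import Mathlib
import Fermat.Agent.S17.HB.Deg.Defs
import Fermat.Agent.S17.HB.Deg.HasseTaylor
import Fermat.Agent.S27.L.Defs
import Fermat.Agent.S27.G.AsmIface
import Fermat.Agent.S27.C.UniqExit

/-!
# Program PJ (statement S27), strand C: the exit `UniqueExit` of the assembly

`G/AsmIface.UniqueExit htr e₁ e₂ n δ` is the proposition which the assembly `G/AsmInst` consumes
for the formal uniqueness: two profile configurations of type `(e₁, e₂)` at level `n`, generated
by their points, with places unramified for every point, of the same ordered centres, regular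
(`AsmIface.Nsp`), are isomorphic over all the points and the isomorphism carries the one place to
the other.

* `ne_zero_of_chainRule` : a derivation with the chain rule (`Loc3.ChainRule`) is non-zero
  (`η * δ t = 1` at a uniformiser `t`);
* `uniqueExit` : `AsmIface.UniqueExit htr e₁ e₂ n δ` for `0 < n` and `e₁ + e₂ = gR + 1`, from the
  formal uniqueness `UniqExit.config_unique` of strand C at the label type `Fin e₁ ⊕ Fin e₂`
  (any label is a parameter label: every point is unramified at both places).
-/

set_option autoImplicit false

open AlgebraicCurve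

namespace Fermat.Agent.S27.C.UniqueExit

open Fermat.Agent.S17 Fermat.Agent.S17.HB

universe u v

variable {K : Type u} {F : Type v} [Field K] [Field F] [Algebra K F]
  [IsAlgClosed K] [CharZero K] [Algebra.EssFiniteType K F]

/-- A derivation of `F` with the chain rule at a place is non-zero. -/
theorem ne_zero_of_chainRule (htr : Algebra.trdeg K F = 1) {δ : Derivation K F F}
    (chain : Loc3.ChainRule htr δ) (T : Place K F) : δ ≠ 0 := by
  intro h
  obtain ⟨η, -, hη⟩ := chain T (Deg.unif T) (Deg.ord_unif T)
  have h1 := Deg.eta_mul_eq_one htr T (Deg.unif T) (Deg.ord_unif T) δ η hη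
  rw [h, Derivation.coe_zero, Pi.zero_apply, mul_zero] at h1
  exact zero_ne_one h1

/-- **The exit `UniqueExit` of strand C.**  Two generated profile configurations of type
`(e₁, e₂)` at level `n` with unramified regular places of the same ordered centres are
isomorphic over all the points, the isomorphism carrying the one place to the other. -/
theorem uniqueExit (htr : Algebra.trdeg K F = 1) (e₁ e₂ n : ℕ) (hn : 0 < n)
    (he : e₁ + e₂ = R.gR K F + 1) (δ : Derivation K F F) :
    G.AsmIface.UniqueExit htr e₁ e₂ n δ := by
  intro M M' _ _ _ _ _ _ htrM htrM' m m' B B' d d' w w' hgen hgen' hram hram' hnsp hcen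
  have hcard : Fintype.card (Fin e₁ ⊕ Fin e₂) = R.gR K F + 1 := by
    rw [Fintype.card_sum, Fintype.card_fin, Fintype.card_fin, he]
  have hne : Nonempty (Fin e₁ ⊕ Fin e₂) := Fintype.card_pos_iff.mp (by omega)
  obtain ⟨z₀⟩ := hne
  have hμ : ∀ z, 0 < G.AsmIface.mu e₁ e₂ n z := by
    rintro (i | j)
    · exact one_pos
    · exact hn
  have hδ : δ ≠ 0 := ne_zero_of_chainRule htr d.chain (L.cen htr htrM (d.ρ z₀) w)
  exact UniqExit.config_unique htr htrM htrM' hcard z₀ hμ hδ d d' w w' hcen hnsp.1 hnsp.2
    (hram z₀) (hram' z₀) hgen hgen'

end Fermat.Agent.S27.C.UniqueExit
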