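import Mathlib
import Fermat.Agent.Lib.FFNorm.Value
import Fermat.Agent.S24.FF.Ord
import Fermat.Agent.S24.FF.Residue
import Fermat.Agent.S17.R.LSpace
import Fermat.Agent.S17.HB.Loc3

/-!
# Program PJ (statement S27), strand C: centres of the points of a configuration

`F / K` is the function field of the curve, `M / K` a second function field of one variable (a
configuration field), `ρ : F →ₐ[K] M` a point of the curve over `M`.  For a place `w` of `M` the
centre `cen htr htrM ρ w` of the point at `w` is a place of `F` (LOC2's `centre`, in total form).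

* `cen`, `isCentre_cen`, `cen_eq_iff`, `mem_cen_iff` : the centre;
* `exists_cen_eq` : every place of `F` is the centre of a place of `M`;
* `ord_map_pos` : a function of `F` vanishing at the centre vanishes at `w`;
* `finite_cen_eq_cen` : two distinct points have the same centre at finitely many places of `M`
  only;
* `exists_finset_injective_cen` : for a finite family of pairwise distinct points, the centres
  are pairwise distinct at all but finitely many places of `M`.
-/

set_option autoImplicit false
set_option linter.unusedSectionVars false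

open AlgebraicCurve

namespace Fermat.Agent.S27.C.Cen

open Fermat.Agent.S17 Fermat.Agent.S17.HB

variable {K F M : Type*} [Field K] [Field F] [Algebra K F] [Field M] [Algebra K M]

/-- The centre on `F` of the place `w` of `M` under the point `ρ`. -/
noncomputable def cen (htr : Algebra.trdeg K F = 1) (htrM : Algebra.trdeg K M = 1)
    (ρ : F →ₐ[K] M) (w : Place K M) : Place K F :=
  Loc2.centre ρ (Loc2.algHom_isIntegral htr htrM ρ) w

theorem isCentre_cen (htr : Algebra.trdeg K F = 1) (htrM : Algebra.trdeg K M = 1)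
    (ρ : F →ₐ[K] M) (w : Place K M) : Loc3.IsCentre ρ w (cen htr htrM ρ w) := rfl

theorem cen_eq_iff (htr : Algebra.trdeg K F = 1) (htrM : Algebra.trdeg K M = 1)
    (ρ : F →ₐ[K] M) (w : Place K M) (T : Place K F) :
    cen htr htrM ρ w = T ↔ Loc3.IsCentre ρ w T := by
  constructor
  · intro h
    rw [← h]
    exact isCentre_cen htr htrM ρ w
  · intro h
    exact Place.ext ((isCentre_cen htr htrM ρ w).trans h.symm)

theorem mem_cen_iff (htr : Algebra.trdeg K F = 1) (htrM : Algebra.trdeg K M = 1)
    (ρ : F →ₐ[K] M) (w : Place K M) (f : F) :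
    f ∈ (cen htr htrM ρ w).toValuationSubring ↔ ρ f ∈ w.toValuationSubring := Iff.rfl

/-- A function of `F` vanishing at the centre of `ρ` at `w` vanishes at `w`. -/
theorem ord_map_pos (htr : Algebra.trdeg K F = 1) (htrM : Algebra.trdeg K M = 1)
    (ρ : F →ₐ[K] M) (w : Place K M) {g : F} (hg : 0 < (cen htr htrM ρ w).ord g) :
    0 < w.ord (ρ g) := by
  have hg0 : g ≠ 0 := by
    rintro rfl
    rw [Place.ord_zero] at hg
    exact lt_irrefl _ hg
  have hρg0 : ρ g ≠ 0 := (map_ne_zero ρ.toRingHom).mpr hg0
  have hmem : ρ g ∈ w.toValuationSubring :=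
    (mem_cen_iff htr htrM ρ w g).mp (Fermat.Agent.S24.FF.mem_of_ord_pos _ hg)
  have h1 : 0 ≤ w.ord (ρ g) := Fermat.Agent.S24.FF.ord_nonneg_of_mem w hmem
  rcases h1.lt_or_eq with h | h
  · exact h
  · exfalso
    have hinv : (ρ g)⁻¹ ∈ w.toValuationSubring := by
      refine (Fermat.Agent.S24.FF.ord_nonneg_iff w (inv_ne_zero hρg0)).mp ?_
      rw [Place.ord_inv, ← h]
      simp
    have hinv' : g⁻¹ ∈ (cen htr htrM ρ w).toValuationSubring := by
      rw [mem_cen_iff, map_inv₀]
      exact hinv
    have h2 := Fermat.Agent.S24.FF.ord_nonneg_of_mem _ hinv'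
    rw [Place.ord_inv] at h2
    omega

section Curve

variable [IsAlgClosed K] [CharZero K] [Algebra.EssFiniteType K F] [Algebra.EssFiniteType K M]

/-- Every place of `F` is the centre of a place of `M`. -/
theorem exists_cen_eq (htr : Algebra.trdeg K F = 1) (htrM : Algebra.trdeg K M = 1)
    (ρ : F →ₐ[K] M) (A : Place K F) : ∃ w : Place K M, cen htr htrM ρ w = A := by
  classical
  have hρ : ρ.toRingHom.IsIntegral := Loc2.algHom_isIntegral htr htrM ρ
  haveI : HasPrincipalDivisors K M := Fermat.Agent.Lib.FFNorm.hasPrincipalDivisors htrM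
  have hsum := Fermat.Agent.Lib.FFNorm.sum_ramificationIndexAlong_fiberAlong ρ hρ htr htrM A
  have hpos : 0 < finrankAlong K ρ := by
    letI := algebraAlong ρ
    haveI := isScalarTower_along ρ
    haveI : Module.Finite F M := Fermat.Agent.Lib.FFNorm.finite_of_trdeg htr htrM
    exact Module.finrank_pos
  have hne : (Place.fiberAlong ρ hρ A).Nonempty := by
    by_contra hemp
    rw [Finset.not_nonempty_iff_eq_empty] at hemp
    rw [hemp, Finset.sum_empty] at hsum
    omega
  obtain ⟨c, hc⟩ := hne
  refine ⟨c, ?_⟩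
  rw [Place.mem_fiberAlong] at hc
  rw [← hc]
  rfl

/-- Two distinct points of the curve over `M` have the same centre at finitely many places of
`M` only. -/
theorem finite_cen_eq_cen (htr : Algebra.trdeg K F = 1) (htrM : Algebra.trdeg K M = 1)
    (ρ ρ' : F →ₐ[K] M) (h : ρ ≠ ρ') :
    {w : Place K M | cen htr htrM ρ w = cen htr htrM ρ' w}.Finite := by
  classical
  obtain ⟨f, hf⟩ : ∃ f : F, ρ f ≠ ρ' f := by
    by_contra hall
    exact h (AlgHom.ext fun f => by_contra fun hne => hall ⟨f, hne⟩)
  have hf0 : f ≠ 0 := by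
    rintro rfl
    exact hf (by rw [map_zero, map_zero])
  have hρf0 : ρ f ≠ 0 := (map_ne_zero ρ.toRingHom).mpr hf0
  have hh0 : ρ f - ρ' f ≠ 0 := sub_ne_zero.mpr hf
  refine Set.Finite.subset
    (((R.divOf K (ρ f - ρ' f)).support ∪ (R.divOf K (ρ f)).support).finite_toSet) ?_
  intro w hw0
  have hw : cen htr htrM ρ w = cen htr htrM ρ' w := hw0
  rw [Finset.mem_coe, Finset.mem_union, Finsupp.mem_support_iff, Finsupp.mem_support_iff,
    R.divOf_apply htrM, R.divOf_apply htrM]
  by_cases hreg : ρ f ∈ w.toValuationSubring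
  · left
    -- `f` is regular at the common centre `T`; subtract its value
    have hfT : f ∈ (cen htr htrM ρ w).toValuationSubring := (mem_cen_iff htr htrM ρ w f).mpr hreg
    obtain ⟨c, hc⟩ := Fermat.Agent.S24.FF.exists_residue_sub_mem htr (cen htr htrM ρ w) ⟨f, hfT⟩
    have hg0 : f - algebraMap K F c ≠ 0 := by
      intro h0
      have hfc : f = algebraMap K F c := sub_eq_zero.mp h0
      apply hf
      rw [hfc, AlgHom.commutes, AlgHom.commutes]
    have hpos : 0 < (cen htr htrM ρ w).ord (f - algebraMap K F c) := by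
      have h1 := (Fermat.Agent.S24.FF.mem_maximalIdeal_iff_ord_pos (cen htr htrM ρ w)
        (⟨f, hfT⟩ - algebraMap K (cen htr htrM ρ w).toValuationSubring c) hg0).mp hc
      exact h1
    have hpos' : 0 < (cen htr htrM ρ' w).ord (f - algebraMap K F c) := by
      rw [← hw]
      exact hpos
    have h1 := ord_map_pos htr htrM ρ w hpos
    have h2 := ord_map_pos htr htrM ρ' w hpos'
    have heq : ρ f - ρ' f = ρ (f - algebraMap K F c) - ρ' (f - algebraMap K F c) := by
      rw [map_sub, map_sub, AlgHom.commutes, AlgHom.commutes]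
      ring
    have hne' : ρ (f - algebraMap K F c) - ρ' (f - algebraMap K F c) ≠ 0 := by
      rw [← heq]
      exact hh0
    have h3 := Fermat.Agent.S24.FF.ord_sub_ge w hne'
    rw [← heq] at h3
    have h4 : 0 < min (w.ord (ρ (f - algebraMap K F c))) (w.ord (ρ' (f - algebraMap K F c))) :=
      lt_min h1 h2
    omega
  · right
    intro h0
    exact hreg ((Fermat.Agent.S24.FF.ord_nonneg_iff w hρf0).mp h0.ge)

/-- For a finite family of pairwise distinct points the centres are pairwise distinct at all but
finitely many places of `M`. -/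
theorem exists_finset_injective_cen (htr : Algebra.trdeg K F = 1) (htrM : Algebra.trdeg K M = 1)
    {X : Type*} [Finite X] (ρ : X → (F →ₐ[K] M)) (hρ : Function.Injective ρ) :
    ∃ S : Finset (Place K M), ∀ w ∉ S, Function.Injective fun x => cen htr htrM (ρ x) w := by
  classical
  have hfin : (⋃ p : {p : X × X // p.1 ≠ p.2},
      {w : Place K M | cen htr htrM (ρ p.1.1) w = cen htr htrM (ρ p.1.2) w}).Finite :=
    Set.finite_iUnion fun p => finite_cen_eq_cen htr htrM (ρ p.1.1) (ρ p.1.2) (hρ.ne p.2)
  refine ⟨hfin.toFinset, fun w hw x y hxy => ?_⟩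
  by_contra hne
  apply hw
  rw [Set.Finite.mem_toFinset, Set.mem_iUnion]
  exact ⟨⟨(x, y), hne⟩, hxy⟩

end Curve

end Fermat.Agent.S27.C.Cen
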