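import Mathlib
import Fermat.Agent.S27.L.Loc
import Fermat.Agent.S27.G.Defs
import Fermat.Agent.S27.C.Cen

/-!
# Program PJ (statement S27), strand C: places of a configuration give K-solutions

`F / K` is the function field of the curve, `M / K` the function field of a profile configuration
`d : L.Data htr M ι μ m B δ` (points `d.ρ z : F →ₐ[K] M` with multiplicities `μ z`, a function
`∑ j, cM j ⊗ v j` of `L(B)` over `M` vanishing to order `μ z` at `ρ z`, `cM 0 = 1`).  For a place
`w` of `M` the centres `L.cen htr htrM (d.ρ z) w` of the points are places of `F`, and the tuple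
of centres is a K-solution of the profile system:

* `cen_eq`, `exists_cen_eq`, `finite_cen_eq_cen`, `exists_finset_injective_cen` : the facts of
  `S27/C/Cen.lean` for the centres `L.cen` of strand L (the two definitions agree by `rfl`);
* `exists_spec`, `principal_spec` : at EVERY place `w` of `M` there is `Ψ ≠ 0` with
  `div Ψ = ∑ z, μ z • cen (ρ z) w - B`; so that divisor is principal;
* `ptsG`, `ptsF` : for the profile `α ⊕ β`, `μ = (1, n)`: the finite sets of centres of the simple
  points and of the `n`-fold points; `card_ptsG`, `card_ptsF`, `disjoint_ptsG_ptsF` at a place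
  where the centres are pairwise distinct;
* `dv_mem_principal` : `∑ ptsG + n • ∑ ptsF - B` is principal (the divisor clause of the
  contract's `Sol`);
* `mem_Sol_erase_F`, `mem_Sol_erase_G` : removing the centre of one `n`-fold (resp. simple) point
  gives an element of the contract's `Sol K F n k c'` with `c' = B - n • Q` (resp. `B - P`), given
  the invariant (I*) of the remaining `g` points;
* `mem_Tup` : the unordered tuple of centres at `w` is a regular point `G.Defs.Tup K F n k B`,
  given that the centres are pairwise distinct and every `g` of them are non-special.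
-/

set_option autoImplicit false
set_option linter.unusedSectionVars false

open AlgebraicCurve

namespace Fermat.Agent.S27.C.PlaceSol

open Fermat.Agent.S17 Fermat.Agent.S17.HB Fermat.Agent.S27.L

variable {K F M : Type*} [Field K] [Field F] [Algebra K F] [Field M] [Algebra K M]

section Curve

variable [IsAlgClosed K] [CharZero K] [Algebra.EssFiniteType K F] [Algebra.EssFiniteType K M]

/-! ### The centres of strand L -/

omit [IsAlgClosed K] [CharZero K] [Algebra.EssFiniteType K F] [Algebra.EssFiniteType K M] in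
/-- The centres of `S27/C/Cen.lean` and of `S27/L/Defs.lean` are the same. -/
theorem cen_eq (htr : Algebra.trdeg K F = 1) (htrM : Algebra.trdeg K M = 1)
    (ρ : F →ₐ[K] M) (w : Place K M) : C.Cen.cen htr htrM ρ w = cen htr htrM ρ w := rfl

/-- Every place of `F` is the centre of a place of `M`. -/
theorem exists_cen_eq (htr : Algebra.trdeg K F = 1) (htrM : Algebra.trdeg K M = 1)
    (ρ : F →ₐ[K] M) (A : Place K F) : ∃ w : Place K M, cen htr htrM ρ w = A :=
  C.Cen.exists_cen_eq htr htrM ρ A

/-- Two distinct points have the same centre at finitely many places of `M` only. -/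
theorem finite_cen_eq_cen (htr : Algebra.trdeg K F = 1) (htrM : Algebra.trdeg K M = 1)
    (ρ ρ' : F →ₐ[K] M) (h : ρ ≠ ρ') :
    {w : Place K M | cen htr htrM ρ w = cen htr htrM ρ' w}.Finite :=
  C.Cen.finite_cen_eq_cen htr htrM ρ ρ' h

/-- The centres of the points of a configuration are pairwise distinct at all but finitely many
places of `M`. -/
theorem exists_finset_injective_cen (htr : Algebra.trdeg K F = 1)
    (htrM : Algebra.trdeg K M = 1) {X : Type*} [Finite X] (ρ : X → (F →ₐ[K] M))
    (hρ : Function.Injective ρ) :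
    ∃ S : Finset (Place K M), ∀ w ∉ S, Function.Injective fun x => cen htr htrM (ρ x) w :=
  C.Cen.exists_finset_injective_cen htr htrM ρ hρ

/-! ### The K-solution at a place -/

variable {ι : Type*} [Fintype ι] {μ : ι → ℕ} {m : ℕ} {B : Divisor K F} {δ : Derivation K F F}

/-- **Places of `M` give K-solutions, function form.**  At every place `w` of `M` there is a
function `Ψ ≠ 0` of `F` with `div Ψ = ∑ z, μ z • cen (ρ z) w - B`. -/
theorem exists_spec (htr : Algebra.trdeg K F = 1) (htrM : Algebra.trdeg K M = 1)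
    (d : Data htr M ι μ m B δ) (w : Place K M) :
    ∃ Ψ : F, Ψ ≠ 0 ∧ R.divOf K Ψ =
      ∑ z, (μ z : ℤ) • Finsupp.single (cen htr htrM (d.ρ z) w) (1 : ℤ) - B := by
  obtain ⟨ϖ, hϖ⟩ := HB.Loc3.exists_unif w
  obtain ⟨e, he, he0⟩ := Loc.exists_exponent d w ϖ hϖ
  obtain ⟨h0, hdiv⟩ := divOf_spec htr htrM d w ϖ hϖ e he he0
  exact ⟨_, h0, hdiv⟩

/-- **Places of `M` give K-solutions, divisor form.**  At every place `w` of `M` the divisor
`∑ z, μ z • cen (ρ z) w - B` is principal. -/
theorem principal_spec (htr : Algebra.trdeg K F = 1) (htrM : Algebra.trdeg K M = 1)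
    (d : Data htr M ι μ m B δ) (w : Place K M) :
    ∑ z, (μ z : ℤ) • Finsupp.single (cen htr htrM (d.ρ z) w) (1 : ℤ) - B ∈
      Divisor.principal (K := K) (F := F) := by
  obtain ⟨Ψ, h0, hdiv⟩ := exists_spec htr htrM d w
  rw [← hdiv]
  exact R.divOf_mem_principal htr h0

end Curve

/-! ### The unordered form: the profile `(1, n)` on `α ⊕ β` -/

section Unordered

variable {α β : Type*} [Fintype α] [Fintype β]

open Classical in
/-- The centres at `w` of the simple points. -/
noncomputable def ptsG (htr : Algebra.trdeg K F = 1) (htrM : Algebra.trdeg K M = 1)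
    (ρ : α ⊕ β → (F →ₐ[K] M)) (w : Place K M) : Finset (Place K F) :=
  Finset.univ.image fun a : α => cen htr htrM (ρ (Sum.inl a)) w

open Classical in
/-- The centres at `w` of the `n`-fold points. -/
noncomputable def ptsF (htr : Algebra.trdeg K F = 1) (htrM : Algebra.trdeg K M = 1)
    (ρ : α ⊕ β → (F →ₐ[K] M)) (w : Place K M) : Finset (Place K F) :=
  Finset.univ.image fun b : β => cen htr htrM (ρ (Sum.inr b)) w

theorem mem_ptsG (htr : Algebra.trdeg K F = 1) (htrM : Algebra.trdeg K M = 1)
    (ρ : α ⊕ β → (F →ₐ[K] M)) (w : Place K M) (a : α) :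
    cen htr htrM (ρ (Sum.inl a)) w ∈ ptsG htr htrM ρ w := by
  classical
  exact Finset.mem_image_of_mem _ (Finset.mem_univ a)

theorem mem_ptsF (htr : Algebra.trdeg K F = 1) (htrM : Algebra.trdeg K M = 1)
    (ρ : α ⊕ β → (F →ₐ[K] M)) (w : Place K M) (b : β) :
    cen htr htrM (ρ (Sum.inr b)) w ∈ ptsF htr htrM ρ w := by
  classical
  exact Finset.mem_image_of_mem _ (Finset.mem_univ b)

variable (htr : Algebra.trdeg K F = 1) (htrM : Algebra.trdeg K M = 1)
  (ρ : α ⊕ β → (F →ₐ[K] M)) (w : Place K M)
  (hinj : Function.Injective fun x : α ⊕ β => cen htr htrM (ρ x) w)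

include hinj in
theorem card_ptsG : (ptsG htr htrM ρ w).card = Fintype.card α := by
  classical
  unfold ptsG
  rw [Finset.card_image_of_injective _ (fun a a' h => Sum.inl_injective (hinj h)),
    Finset.card_univ]

include hinj in
theorem card_ptsF : (ptsF htr htrM ρ w).card = Fintype.card β := by
  classical
  unfold ptsF
  rw [Finset.card_image_of_injective _ (fun b b' h => Sum.inr_injective (hinj h)),
    Finset.card_univ]

include hinj in
theorem disjoint_ptsG_ptsF : Disjoint (ptsG htr htrM ρ w) (ptsF htr htrM ρ w) := by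
  classical
  rw [Finset.disjoint_left]
  intro v hG hF
  unfold ptsG at hG
  unfold ptsF at hF
  obtain ⟨a, -, ha⟩ := Finset.mem_image.mp hG
  obtain ⟨b, -, hb⟩ := Finset.mem_image.mp hF
  have h : Sum.inl a = Sum.inr b := hinj (ha.trans hb.symm)
  exact Sum.inl_ne_inr h

include hinj in
/-- The weighted sum of the centres in unordered form. -/
theorem sum_eq_dv (n : ℕ) :
    ∑ x : α ⊕ β, ((Sum.elim (fun _ : α => 1) (fun _ : β => n) x : ℕ) : ℤ) •
        Finsupp.single (cen htr htrM (ρ x) w) (1 : ℤ) =
      ∑ v ∈ ptsG htr htrM ρ w, Finsupp.single v (1 : ℤ) +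
        (n : ℤ) • ∑ v ∈ ptsF htr htrM ρ w, Finsupp.single v (1 : ℤ) := by
  classical
  rw [Fintype.sum_sum_type]
  unfold ptsG ptsF
  rw [Finset.sum_image (fun a _ a' _ h => Sum.inl_injective (hinj h)),
    Finset.sum_image (fun b _ b' _ h => Sum.inr_injective (hinj h)), Finset.smul_sum]
  simp only [Sum.elim_inl, Sum.elim_inr, Nat.cast_one, one_smul]

end Unordered

section Solutions

variable [IsAlgClosed K] [CharZero K] [Algebra.EssFiniteType K F] [Algebra.EssFiniteType K M]
variable {α β : Type*} [Fintype α] [Fintype β] {n : ℕ} {m : ℕ}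
  {B : Divisor K F} {δ : Derivation K F F}

/-- **Places of `M` give K-solutions, unordered form**: `∑ ptsG + n • ∑ ptsF - B` is principal
at every place of `M` where the centres are pairwise distinct. -/
theorem dv_mem_principal (htr : Algebra.trdeg K F = 1) (htrM : Algebra.trdeg K M = 1)
    (d : Data htr M (α ⊕ β) (Sum.elim (fun _ : α => 1) (fun _ : β => n)) m B δ)
    (w : Place K M)
    (hinj : Function.Injective fun x : α ⊕ β => cen htr htrM (d.ρ x) w) :
    (∑ v ∈ ptsG htr htrM d.ρ w, Finsupp.single v (1 : ℤ) +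
        (n : ℤ) • ∑ v ∈ ptsF htr htrM d.ρ w, Finsupp.single v (1 : ℤ)) - B ∈
      Divisor.principal (K := K) (F := F) := by
  have h := principal_spec htr htrM d w
  rwa [sum_eq_dv htr htrM d.ρ w hinj n] at h

open Classical in
/-- **Removing an `n`-fold point**: the centres at `w`, without the centre `Q` of the `n`-fold
point `b₀`, form a K-solution of type `(card α, card β - 1)` in the class of `B - n • Q`, given
the invariant (I*) of these `g` points. -/
theorem mem_Sol_erase_F (htr : Algebra.trdeg K F = 1) (htrM : Algebra.trdeg K M = 1)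
    (d : Data htr M (α ⊕ β) (Sum.elim (fun _ : α => 1) (fun _ : β => n)) m B δ)
    (w : Place K M)
    (hinj : Function.Injective fun x : α ⊕ β => cen htr htrM (d.ρ x) w)
    (hcard : Fintype.card α + Fintype.card β = S17.R.gR K F + 1) (b₀ : β)
    (hI : Module.finrank K ↥(riemannRochSpace
      (∑ v ∈ ptsG htr htrM d.ρ w, Finsupp.single v (1 : ℤ) +
        ∑ v ∈ (ptsF htr htrM d.ρ w).erase (cen htr htrM (d.ρ (Sum.inr b₀)) w),
          Finsupp.single v (1 : ℤ))) = 1) :
    (ptsG htr htrM d.ρ w, (ptsF htr htrM d.ρ w).erase (cen htr htrM (d.ρ (Sum.inr b₀)) w)) ∈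
      Sol K F n (Fintype.card α)
        (B - (n : ℤ) • Finsupp.single (cen htr htrM (d.ρ (Sum.inr b₀)) w) (1 : ℤ)) := by
  classical
  have hmem := mem_ptsF htr htrM d.ρ w b₀
  refine ⟨?_, card_ptsG htr htrM d.ρ w hinj, ?_, hI, ?_⟩
  · exact (disjoint_ptsG_ptsF htr htrM d.ρ w hinj).mono_right (Finset.erase_subset _ _)
  · show (ptsG htr htrM d.ρ w).card + ((ptsF htr htrM d.ρ w).erase _).card = _
    rw [card_ptsG htr htrM d.ρ w hinj, Finset.card_erase_of_mem hmem,
      card_ptsF htr htrM d.ρ w hinj]
    have hpos : 0 < Fintype.card β := Fintype.card_pos_iff.mpr ⟨b₀⟩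
    omega
  · have h := dv_mem_principal htr htrM d w hinj
    have hsum := Finset.add_sum_erase (ptsF htr htrM d.ρ w)
      (fun v => Finsupp.single v (1 : ℤ)) hmem
    have heq : (∑ v ∈ ptsG htr htrM d.ρ w, Finsupp.single v (1 : ℤ) +
          (n : ℤ) • ∑ v ∈ (ptsF htr htrM d.ρ w).erase (cen htr htrM (d.ρ (Sum.inr b₀)) w),
            Finsupp.single v (1 : ℤ)) -
        (B - (n : ℤ) • Finsupp.single (cen htr htrM (d.ρ (Sum.inr b₀)) w) (1 : ℤ)) =
        (∑ v ∈ ptsG htr htrM d.ρ w, Finsupp.single v (1 : ℤ) +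
          (n : ℤ) • ∑ v ∈ ptsF htr htrM d.ρ w, Finsupp.single v (1 : ℤ)) - B := by
      rw [← hsum, smul_add]
      abel
    show _ - _ ∈ _
    rw [heq]
    exact h

open Classical in
/-- **Removing a simple point**: the centres at `w`, without the centre `P` of the simple point
`a₀`, form a K-solution of type `(card α - 1, card β)` in the class of `B - P`, given the
invariant (I*) of these `g` points. -/
theorem mem_Sol_erase_G (htr : Algebra.trdeg K F = 1) (htrM : Algebra.trdeg K M = 1)
    (d : Data htr M (α ⊕ β) (Sum.elim (fun _ : α => 1) (fun _ : β => n)) m B δ)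
    (w : Place K M)
    (hinj : Function.Injective fun x : α ⊕ β => cen htr htrM (d.ρ x) w)
    (hcard : Fintype.card α + Fintype.card β = S17.R.gR K F + 1) (a₀ : α)
    (hI : Module.finrank K ↥(riemannRochSpace
      (∑ v ∈ (ptsG htr htrM d.ρ w).erase (cen htr htrM (d.ρ (Sum.inl a₀)) w),
          Finsupp.single v (1 : ℤ) +
        ∑ v ∈ ptsF htr htrM d.ρ w, Finsupp.single v (1 : ℤ))) = 1) :
    ((ptsG htr htrM d.ρ w).erase (cen htr htrM (d.ρ (Sum.inl a₀)) w), ptsF htr htrM d.ρ w) ∈
      Sol K F n (Fintype.card α - 1)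
        (B - Finsupp.single (cen htr htrM (d.ρ (Sum.inl a₀)) w) (1 : ℤ)) := by
  classical
  have hmem := mem_ptsG htr htrM d.ρ w a₀
  have hpos : 0 < Fintype.card α := Fintype.card_pos_iff.mpr ⟨a₀⟩
  refine ⟨?_, ?_, ?_, hI, ?_⟩
  · exact (disjoint_ptsG_ptsF htr htrM d.ρ w hinj).mono_left (Finset.erase_subset _ _)
  · show ((ptsG htr htrM d.ρ w).erase _).card = _
    rw [Finset.card_erase_of_mem hmem, card_ptsG htr htrM d.ρ w hinj]
  · show ((ptsG htr htrM d.ρ w).erase _).card + (ptsF htr htrM d.ρ w).card = _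
    rw [Finset.card_erase_of_mem hmem, card_ptsG htr htrM d.ρ w hinj,
      card_ptsF htr htrM d.ρ w hinj]
    omega
  · have h := dv_mem_principal htr htrM d w hinj
    have hsum := Finset.add_sum_erase (ptsG htr htrM d.ρ w)
      (fun v => Finsupp.single v (1 : ℤ)) hmem
    have heq : (∑ v ∈ (ptsG htr htrM d.ρ w).erase (cen htr htrM (d.ρ (Sum.inl a₀)) w),
            Finsupp.single v (1 : ℤ) +
          (n : ℤ) • ∑ v ∈ ptsF htr htrM d.ρ w, Finsupp.single v (1 : ℤ)) -
        (B - Finsupp.single (cen htr htrM (d.ρ (Sum.inl a₀)) w) (1 : ℤ)) =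
        (∑ v ∈ ptsG htr htrM d.ρ w, Finsupp.single v (1 : ℤ) +
          (n : ℤ) • ∑ v ∈ ptsF htr htrM d.ρ w, Finsupp.single v (1 : ℤ)) - B := by
      rw [← hsum]
      abel
    show _ - _ ∈ _
    rw [heq]
    exact h

open Classical in
/-- **The regular point at a place**: the unordered tuple of the centres at `w` is a regular
point of type `(k + 1, g - k)` in the class of `B`, when the centres are pairwise distinct and
every `g` of the `g + 1` centres are non-special. -/
theorem mem_Tup (htr : Algebra.trdeg K F = 1) (htrM : Algebra.trdeg K M = 1)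
    (d : Data htr M (α ⊕ β) (Sum.elim (fun _ : α => 1) (fun _ : β => n)) m B δ)
    (w : Place K M)
    (hinj : Function.Injective fun x : α ⊕ β => cen htr htrM (d.ρ x) w)
    {k : ℕ} (hα : Fintype.card α = k + 1)
    (hcard : Fintype.card α + Fintype.card β = S17.R.gR K F + 1)
    (hIG : ∀ P ∈ ptsG htr htrM d.ρ w, Module.finrank K ↥(riemannRochSpace
      (∑ v ∈ (ptsG htr htrM d.ρ w).erase P, Finsupp.single v (1 : ℤ) +
        ∑ v ∈ ptsF htr htrM d.ρ w, Finsupp.single v (1 : ℤ))) = 1)
    (hIF : ∀ Q ∈ ptsF htr htrM d.ρ w, Module.finrank K ↥(riemannRochSpace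
      (∑ v ∈ ptsG htr htrM d.ρ w, Finsupp.single v (1 : ℤ) +
        ∑ v ∈ (ptsF htr htrM d.ρ w).erase Q, Finsupp.single v (1 : ℤ))) = 1) :
    (ptsG htr htrM d.ρ w, ptsF htr htrM d.ρ w) ∈ G.Defs.Tup K F n k B := by
  refine ⟨disjoint_ptsG_ptsF htr htrM d.ρ w hinj, ?_, ?_, ?_, ?_⟩
  · show (ptsG htr htrM d.ρ w).card = k + 1
    rw [card_ptsG htr htrM d.ρ w hinj, hα]
  · show (ptsG htr htrM d.ρ w).card + (ptsF htr htrM d.ρ w).card = _
    rw [card_ptsG htr htrM d.ρ w hinj, card_ptsF htr htrM d.ρ w hinj, hcard]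
  · intro P hP
    have hP' := hP
    unfold ptsG at hP'
    obtain ⟨a₀, -, rfl⟩ := Finset.mem_image.mp hP'
    have h := mem_Sol_erase_G htr htrM d w hinj hcard a₀ (hIG _ hP)
    rw [hα, Nat.add_sub_cancel] at h
    exact h
  · intro Q hQ
    have hQ' := hQ
    unfold ptsF at hQ'
    obtain ⟨b₀, -, rfl⟩ := Finset.mem_image.mp hQ'
    have h := mem_Sol_erase_F htr htrM d w hinj hcard b₀ (hIF _ hQ)
    rw [hα] at h
    exact h

end Solutions

end Fermat.Agent.S27.C.PlaceSol
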