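import Mathlib
import Fermat.Agent.S27.C.BasePlace
import Fermat.Agent.S27.L.Defs
import Fermat.Agent.S17.D.TaylorL

/-!
# Program PJ (statement S27), strand C: centres and ramification at the base place

`M / K` a function field of one variable with an embedding `E : M →ₐ[K] K⸨X⸩` and the base place
`w₀ = BasePlace.place E x hx` (`(E x).order = 1`).  For an embedding `ρ : F →ₐ[K] M` and a place
`T` of `F` with `(E (ρ f)).order = e * T.ord f` for all `f ≠ 0` (`e ≥ 1`):

* `cen_place`  : the centre of `ρ` at `w₀` is `T` (`L.cen htrF htrM ρ w₀ = T`);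
* `ram_place`  : the ramification index of `ρ` at `w₀` is `e` (`Loc2.ram ρ w₀ = e`);
* `mem_place_of_ofPowerSeries` : an element whose expansion is a power series lies in the local
  ring of `w₀`.

With `M` the field generated by the moving points of a formal solution, `ρ` a moving point and
`e = 1` (`PRho.order_rho`), these are the clauses "centre `T z`", "unramified" and
"`cM j` regular" of the carrier exit.
-/

set_option autoImplicit false

open AlgebraicCurve

namespace Fermat.Agent.S27.C.BaseCen

open Fermat.Agent.S17.HB
open Fermat.Agent.S27.C.BasePlace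

variable {K F M : Type*} [Field K] [Field F] [Algebra K F] [Field M] [Algebra K M]

/-- **The centre at the base place.** -/
theorem cen_place (htrF : Algebra.trdeg K F = 1) (htrM : Algebra.trdeg K M = 1)
    (E : M →ₐ[K] LaurentSeries K) (x : M) (hx : (E x).order = 1)
    (ρ : F →ₐ[K] M) (T : Place K F) (e : ℕ) (he : 0 < e)
    (hρ : ∀ f : F, f ≠ 0 → (E (ρ f)).order = (e : ℤ) * T.ord f) :
    Fermat.Agent.S27.L.cen htrF htrM ρ (place E x hx) = T :=
  Place.ext ((Fermat.Agent.S27.L.cen_toValuationSubring htrF htrM ρ (place E x hx)).trans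
    (comap_place_eq E x hx ρ T e he hρ).symm)

/-- **The ramification index at the base place.** -/
theorem ram_place (htrF : Algebra.trdeg K F = 1) (htrM : Algebra.trdeg K M = 1)
    (E : M →ₐ[K] LaurentSeries K) (x : M) (hx : (E x).order = 1)
    (ρ : F →ₐ[K] M) (T : Place K F) (e : ℕ) (he : 0 < e)
    (hρ : ∀ f : F, f ≠ 0 → (E (ρ f)).order = (e : ℤ) * T.ord f) :
    Loc2.ram ρ (place E x hx) = e := by
  have h1 := Fermat.Agent.S27.L.ord_map htrF htrM ρ (place E x hx) (Deg.unif T)
  rw [cen_place htrF htrM E x hx ρ T e he hρ, Deg.ord_unif,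
    ord_place_map E x hx ρ T (e : ℤ) hρ, Deg.ord_unif, mul_one, mul_one] at h1
  exact_mod_cast h1.symm

/-- An element whose expansion is a power series is regular at the base place. -/
theorem mem_place_of_ofPowerSeries (E : M →ₐ[K] LaurentSeries K) (x : M)
    (hx : (E x).order = 1) (a : M) (p : PowerSeries K)
    (ha : E a = HahnSeries.ofPowerSeries ℤ K p) :
    a ∈ (place E x hx).toValuationSubring := by
  rw [mem_place_iff, ha]
  rcases eq_or_ne p 0 with rfl | hp
  · rw [map_zero, HahnSeries.order_zero]
  · rw [Fermat.Agent.S17.D.TaylorL.order_ofPowerSeries _ hp]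
    exact Int.natCast_nonneg _

end Fermat.Agent.S27.C.BaseCen
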