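import Mathlib
import Fermat.Agent.S17.D.Hasse

/-!
# Program PJ (statement S27), strand C: Hasse jets, units and changes of basis

Pure power series.  `u` is a series without constant term (a moving point), and
"`∑ j, C j ⊗ h j` vanishes to order `μ` at `u`" is the system
`∀ i < μ, ∑ j, C j * (hasse i (h j)).subst u = 0` of strand D.

* `jets_mul` : the system for `h j` gives the system for `Υ * h j` (Hasse-Leibniz);
* `jets_of_mul_unit` : conversely when `Υ` is a unit;
* `jets_change` : re-basing the functions by a matrix with constant coefficients;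
* `jets_scale` : multiplying the coefficients by one series.
-/

set_option autoImplicit false

namespace Fermat.Agent.S27.C.JetUnit

open Fermat.Agent.S17.D (hasse)

variable {K : Type*} [Field K] {κ : Type*} [Fintype κ]

/-- The jets of `Υ * h j` vanish at `u` when those of `h j` do. -/
theorem jets_mul (C h : κ → PowerSeries K) (Υ u : PowerSeries K)
    (hu : PowerSeries.constantCoeff u = 0) (μ : ℕ)
    (hv : ∀ i < μ, ∑ j, C j * (hasse i (h j)).subst u = 0) :
    ∀ i < μ, ∑ j, C j * (hasse i (Υ * h j)).subst u = 0 := by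
  obtain ⟨Θ, hΘ, hJ⟩ := Fermat.Agent.S17.D.isJet_hasse_subst u hu μ
  intro i hi
  have key : ∀ j, (hasse i (Υ * h j)).subst u =
      ∑ a ∈ Finset.range (i + 1), Θ a Υ * (hasse (i - a) (h j)).subst u := by
    intro j
    rw [← hΘ, hJ.leibniz i hi]
    refine Finset.sum_congr rfl fun a _ => ?_
    rw [hΘ (i - a)]
  have step : ∑ j, C j * (hasse i (Υ * h j)).subst u =
      ∑ a ∈ Finset.range (i + 1), Θ a Υ * ∑ j, C j * (hasse (i - a) (h j)).subst u := by
    calc ∑ j, C j * (hasse i (Υ * h j)).subst u
        = ∑ j, ∑ a ∈ Finset.range (i + 1), C j * (Θ a Υ * (hasse (i - a) (h j)).subst u) := by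
          refine Finset.sum_congr rfl fun j _ => ?_
          rw [key j, Finset.mul_sum]
      _ = ∑ a ∈ Finset.range (i + 1), ∑ j, C j * (Θ a Υ * (hasse (i - a) (h j)).subst u) :=
          Finset.sum_comm
      _ = ∑ a ∈ Finset.range (i + 1), Θ a Υ * ∑ j, C j * (hasse (i - a) (h j)).subst u := by
          refine Finset.sum_congr rfl fun a _ => ?_
          rw [Finset.mul_sum]
          refine Finset.sum_congr rfl fun j _ => ?_
          ring
  rw [step]
  refine Finset.sum_eq_zero fun a _ => ?_
  rw [hv (i - a) (lt_of_le_of_lt (Nat.sub_le _ _) hi), mul_zero]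

/-- The jets of `h j` vanish at `u` when those of `Υ * h j` do and `Υ` is a unit. -/
theorem jets_of_mul_unit (C h : κ → PowerSeries K) (Υ u : PowerSeries K)
    (hu : PowerSeries.constantCoeff u = 0) (hΥ : PowerSeries.constantCoeff Υ ≠ 0) (μ : ℕ)
    (hv : ∀ i < μ, ∑ j, C j * (hasse i (Υ * h j)).subst u = 0) :
    ∀ i < μ, ∑ j, C j * (hasse i (h j)).subst u = 0 := by
  have hinv : Υ⁻¹ * Υ = 1 := PowerSeries.inv_mul_cancel Υ hΥ
  have h1 := jets_mul C (fun j => Υ * h j) Υ⁻¹ u hu μ hv
  intro i hi
  have h2 := h1 i hi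
  have h3 : ∀ j, Υ⁻¹ * (Υ * h j) = h j := fun j => by rw [← mul_assoc, hinv, one_mul]
  simp only [h3] at h2
  exact h2

/-- Re-basing the functions by a matrix with constant coefficients. -/
theorem jets_change {κ' : Type*} [Fintype κ'] (C W : κ → PowerSeries K)
    (V : κ' → PowerSeries K) (A : κ → κ' → K) (hW : ∀ j, W j = ∑ k, A j k • V k)
    (u : PowerSeries K) (hu : PowerSeries.constantCoeff u = 0) (i : ℕ) :
    ∑ j, C j * (hasse i (W j)).subst u =
      ∑ k, (∑ j, C j * PowerSeries.C (A j k)) * (hasse i (V k)).subst u := by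
  obtain ⟨Θ, hΘ, -⟩ := Fermat.Agent.S17.D.isJet_hasse_subst u hu 0
  have key : ∀ j, (hasse i (W j)).subst u = ∑ k, PowerSeries.C (A j k) * (hasse i (V k)).subst u := by
    intro j
    rw [← hΘ, hW j, map_sum]
    refine Finset.sum_congr rfl fun k _ => ?_
    rw [map_smul, hΘ, PowerSeries.smul_eq_C_mul]
  calc ∑ j, C j * (hasse i (W j)).subst u
      = ∑ j, ∑ k, C j * PowerSeries.C (A j k) * (hasse i (V k)).subst u := by
        refine Finset.sum_congr rfl fun j _ => ?_
        rw [key j, Finset.mul_sum]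
        refine Finset.sum_congr rfl fun k _ => ?_
        ring
    _ = ∑ k, ∑ j, C j * PowerSeries.C (A j k) * (hasse i (V k)).subst u := Finset.sum_comm
    _ = ∑ k, (∑ j, C j * PowerSeries.C (A j k)) * (hasse i (V k)).subst u := by
        refine Finset.sum_congr rfl fun k _ => ?_
        rw [Finset.sum_mul]

/-- Multiplying the coefficients by one series. -/
theorem jets_scale (c₀ : PowerSeries K) (C h : κ → PowerSeries K)
    (u : PowerSeries K) (μ : ℕ)
    (hv : ∀ i < μ, ∑ j, C j * (hasse i (h j)).subst u = 0) :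
    ∀ i < μ, ∑ j, (c₀ * C j) * (hasse i (h j)).subst u = 0 := by
  intro i hi
  have h1 : ∑ j, (c₀ * C j) * (hasse i (h j)).subst u =
      c₀ * ∑ j, C j * (hasse i (h j)).subst u := by
    rw [Finset.mul_sum]
    refine Finset.sum_congr rfl fun j _ => ?_
    ring
  rw [h1, hv i hi, mul_zero]

end Fermat.Agent.S27.C.JetUnit
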