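import Mathlib
import Fermat.Agent.S27.C.Nondeg
import Fermat.Agent.S27.C.FormalTangent

/-!
# Program PJ (statement S27), strand C: every point of a `PSetup` moves to first order

For a formal datum `s : PSetup R μ none T` of a base tuple `T : Option (Fin g) → Place K F`
(`S27/C/PSetup`) and a point `z` of the tuple such that the OTHER `g` points are non-special
(`l(∑_{z' ≠ z} T z') = 1`), the coordinate `s.u z` of the `z`-th moving point has a non-zero
coefficient of `X`:

* `coeff_τ_r_zero`, `coeff_τ_r_zero_mu` : the expansion of the multiplier `r 0 = b₁` at `T z`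
  has order exactly `μ z`;
* `coeff_one_u_ne_zero` : `PowerSeries.coeff 1 (s.u z) ≠ 0`.

For `z = none` this is `u none = X`; for `z = some z₀` it is the tangent argument
(`FormalTangent.coeff_one_u_ne_zero`) with the non-degeneracy `Nondeg.psetup_nondeg` at
`z₁ = some z₀`.
-/

set_option autoImplicit false

open AlgebraicCurve IsDedekindDomain

namespace Fermat.Agent.S27.C.Moves

open Fermat.Agent.S27.C (PSetup)

universe uK uF

variable {K : Type uK} {F : Type uF} [Field K] [Field F] [Algebra K F] [IsAlgClosed K]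
  [CharZero K] [Algebra.EssFiniteType K F]
variable {R : Type*} [CommRing R] [IsDedekindDomain R] [Algebra R F] [IsFractionRing R F]
  [Algebra K R] [IsScalarTower K R F]

/-- The expansion of `r 0 = b₁` at `T z` vanishes to order `μ z`. -/
theorem coeff_τ_r_zero {ι : Type} [Fintype ι] {μ : ι → ℕ} {z₀ : ι} {T : ι → Place K F}
    (s : PSetup (K := K) (F := F) R μ z₀ T) (z : ι) (i : ℕ) (hi : i < μ z) :
    PowerSeries.coeff i (s.τ z (s.r 0)) = 0 := by
  rw [Nondeg.r_zero]
  have hdvd : PowerSeries.X ^ μ z ∣ s.τ z s.b₁ :=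
    (s.τ_dvd z s.b₁ (μ z) s.b₁_ne).mpr (by rw [s.ord_b₁ z])
  exact PowerSeries.X_pow_dvd_iff.mp hdvd i hi

/-- The expansion of `r 0 = b₁` at `T z` vanishes to order exactly `μ z`. -/
theorem coeff_τ_r_zero_mu {ι : Type} [Fintype ι] {μ : ι → ℕ} {z₀ : ι} {T : ι → Place K F}
    (s : PSetup (K := K) (F := F) R μ z₀ T) (z : ι) :
    PowerSeries.coeff (μ z) (s.τ z (s.r 0)) ≠ 0 := by
  intro h0
  have hdvd : PowerSeries.X ^ (μ z + 1) ∣ s.τ z s.b₁ := by
    rw [PowerSeries.X_pow_dvd_iff]
    intro i hi
    rcases Nat.lt_succ_iff_lt_or_eq.mp hi with h | h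
    · have := coeff_τ_r_zero s z i h
      rwa [Nondeg.r_zero] at this
    · rw [h, ← Nondeg.r_zero]; exact h0
  have h1 := (s.τ_dvd z s.b₁ (μ z + 1) s.b₁_ne).mp hdvd
  rw [s.ord_b₁ z] at h1
  push_cast at h1
  omega

/-- **Every point moves to first order**: if the other `g` points of the base tuple are
non-special, the coordinate `s.u z` of the `z`-th moving point has a non-zero coefficient
of `X`. -/
theorem coeff_one_u_ne_zero (htr : Algebra.trdeg K F = 1) {g : ℕ} {μ : Option (Fin g) → ℕ}
    (hμ : ∀ z, 0 < μ z) {T : Option (Fin g) → Place K F} (hT : Function.Injective T)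
    (s : PSetup (K := K) (F := F) R μ none T) (z : Option (Fin g))
    (hz : Module.finrank K ↥(riemannRochSpace
      (∑ z' ∈ Finset.univ.erase z, Finsupp.single (T z') (1 : ℤ))) = 1) :
    PowerSeries.coeff 1 (s.u z) ≠ 0 := by
  cases z with
  | none =>
    rw [s.u_param, PowerSeries.coeff_one_X]
    exact one_ne_zero
  | some z₀ =>
    refine Fermat.Agent.S27.C.FormalTangent.coeff_one_u_ne_zero (μ none)
      (fun k => μ (some k)) (hμ none) (Nat.cast_ne_zero.mpr (hμ none).ne')
      (fun k j => s.τ (some k) (s.r j)) (fun j => s.τ none (s.r j))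
      (fun k i hi => coeff_τ_r_zero s (some k) i hi)
      (fun i hi => coeff_τ_r_zero s none i hi) (coeff_τ_r_zero_mu s none) z₀ ?_
      s.c (fun k => s.u (some k)) s.c_zero (fun j => s.c_const j.succ (Fin.succ_ne_zero j))
      (fun k => s.u_zero (some k)) ?_ (fun k i hi => s.jets (some k) i hi)
    · intro x hx0 hb hb₀ hd
      refine Nondeg.psetup_nondeg htr hμ hT s (some z₀) hz x hx0 ?_ hb₀
      intro z' hz' i hi
      cases z' with
      | none => exact hd i hi
      | some k => exact hb k (fun h => hz' (congrArg some h)) i hi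
    · intro i hi
      have h := s.jets none i hi
      rw [s.u_param] at h
      simpa only [PowerSeries.X_subst] using h

end Fermat.Agent.S27.C.Moves
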