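import Mathlib
import Fermat.Prelude.Def_AlgebraicCurve_Repartitions
import Fermat.Prelude.Def_AlgebraicCurve_IsCurveOver
import Fermat.Agent.S17.D.Hasse

/-!
# Program PJ (statement S27), strand C: the setup of a multiplicity profile (definitions)

This is `S17/D/SetupDef` for an arbitrary multiplicity profile.  `F / K` is a function field of
one variable, `R` a model (a Dedekind domain with fraction field `F`), `Q₀` the base position of
the PARAMETER point, of multiplicity `μ₀`, and `E k` (`k : Fin g`) the base positions of the `g`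
MOVING points, of multiplicities `μ k`.  The constant divisor is `B = ∑ k, μ k • E k + μ₀ • Q₀`.

* `PData R μ₀ Q₀ E μ` : everything before the formal solution: the primes `w k` of the points
  `E k`, an independent family `v j` of `L(B)` with `v 0 = 1` (`m + 1` functions,
  `m + g = μ₀ + ∑ k, μ k`), the multiplier `b₁` of order `μ k` at `E k` with the numerators
  `r j = b₁ * v j` in the model, the Taylor maps `τ k` at the points `E k`, a uniformiser `ϖ` at
  `Q₀` with the Laurent expansion `τL` (`τL ϖ = X`), and the power series `ω j`, the expansion of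
  `ϖ ^ μ₀ * v j` at `Q₀`.
* `PSetup R μ₀ Q₀ E μ` : `PData` together with THE formal solution `(c, u)` of the system of
  `S27/C/FormalProfile` for `β k j = τ k (r j)` and `ω`: the function `∑ c j • v j` vanishes to
  order `μ₀` at the parameter point (whose coordinate is `X`: field `generic`) and to order `μ k`
  at the `k`-th moving point, of coordinate `u k` (field `jets`); `c 0 = 1`, all other `c j` and
  all `u k` have no constant term, and the solution is unique with these properties (field
  `unique`: this is (U) of the route).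

For `μ₀ = 1` and `μ k = n` this is `S17.D.Setup` (there `generic` reads
`∑ j, c j * τL (v j) = 0`; here it is multiplied by `X ^ μ₀`).
-/

set_option autoImplicit false

open AlgebraicCurve IsDedekindDomain

namespace Fermat.Agent.S27.C.SetupDef

open Fermat.Agent.S17.D (hasse)

variable {K F : Type*} [Field K] [Field F] [Algebra K F]

/-- The data of a multiplicity profile before the formal solution: see the header. -/
structure PData (R : Type*) [CommRing R] [IsDedekindDomain R] [Algebra R F] [IsFractionRing R F]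
    [Algebra K R] [IsScalarTower K R F] (μ₀ : ℕ) (Q₀ : Place K F) {g : ℕ}
    (E : Fin g → Place K F) (μ : Fin g → ℕ) where
  m : ℕ
  m_eq : m + g = μ₀ + ∑ k, μ k
  w : Fin g → HeightOneSpectrum R
  w_spec : ∀ k, Place.ofHeightOneSpectrum (K := K) (F := F) (w k) = E k
  v : Fin (m + 1) → F
  v_zero : v 0 = 1
  v_indep : LinearIndependent K v
  v_mem : ∀ j, v j ∈ riemannRochSpace
    (∑ k, Finsupp.single (E k) (μ k : ℤ) + Finsupp.single Q₀ (μ₀ : ℤ))
  b₁ : R
  b₁_ne : b₁ ≠ 0
  ord_b₁ : ∀ k, (Place.ofHeightOneSpectrum (K := K) (F := F) (w k)).ord (algebraMap R F b₁) = μ k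
  r : Fin (m + 1) → R
  r_spec : ∀ j, algebraMap R F (r j) = algebraMap R F b₁ * v j
  π : Fin g → R
  τ : Fin g → (R →ₐ[K] PowerSeries K)
  τ_π : ∀ k, τ k (π k) = PowerSeries.X
  τ_dvd : ∀ k (b : R) (d : ℕ), b ≠ 0 → (PowerSeries.X ^ d ∣ τ k b ↔
    (d : ℤ) ≤ (Place.ofHeightOneSpectrum (K := K) (F := F) (w k)).ord (algebraMap R F b))
  ϖ : F
  ord_ϖ : Q₀.ord ϖ = 1
  τL : F →ₐ[K] LaurentSeries K
  τL_ϖ : τL ϖ = HahnSeries.single 1 1
  order_τL : ∀ f : F, f ≠ 0 → (τL f).order = Q₀.ord f
  ω : Fin (m + 1) → PowerSeries K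
  ω_spec : ∀ j, τL (ϖ ^ μ₀ * v j) = HahnSeries.ofPowerSeries ℤ K (ω j)

/-- The setup of a multiplicity profile: `PData` with the formal solution `(c, u)` and its
uniqueness. -/
structure PSetup (R : Type*) [CommRing R] [IsDedekindDomain R] [Algebra R F] [IsFractionRing R F]
    [Algebra K R] [IsScalarTower K R F] (μ₀ : ℕ) (Q₀ : Place K F) {g : ℕ}
    (E : Fin g → Place K F) (μ : Fin g → ℕ) extends PData (K := K) (F := F) R μ₀ Q₀ E μ where
  c : Fin (m + 1) → PowerSeries K
  c_zero : c 0 = 1
  c_const : ∀ j : Fin m, PowerSeries.constantCoeff (c j.succ) = 0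
  u : Fin g → PowerSeries K
  u_zero : ∀ k, PowerSeries.constantCoeff (u k) = 0
  generic : ∀ i < μ₀, ∑ j, c j * hasse i (ω j) = 0
  jets : ∀ k, ∀ i < μ k, ∑ j, c j * (hasse i (τ k (r j))).subst (u k) = 0
  unique : ∀ (c' : Fin (m + 1) → PowerSeries K) (u' : Fin g → PowerSeries K), c' 0 = 1 →
    (∀ j : Fin m, PowerSeries.constantCoeff (c' j.succ) = 0) →
    (∀ k, PowerSeries.constantCoeff (u' k) = 0) →
    (∀ i < μ₀, ∑ j, c' j * hasse i (ω j) = 0) →
    (∀ k, ∀ i < μ k, ∑ j, c' j * (hasse i (τ k (r j))).subst (u' k) = 0) →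
    c' = c ∧ u' = u

end Fermat.Agent.S27.C.SetupDef
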