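import Mathlib
import Fermat.Agent.S27.C.SetupDef
import Fermat.Agent.S17.D.Setup

/-!
# Program PJ (statement S27), strand C: the data of a multiplicity profile exist

`nonempty_pdata`: for a model `R` (a Dedekind domain with fraction field `F` whose places are the
places `≠ Q₀`), pairwise distinct points `E k ≠ Q₀` with multiplicities `μ k`, a multiplicity
`μ₀` of the parameter point `Q₀`, and the Riemann inequality
`l(∑ μ k • E k + μ₀ • Q₀) ≥ μ₀ + ∑ μ k + 1 - g`, the structure `PData R μ₀ Q₀ E μ` of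
`S27/C/SetupDef` is inhabited.

Construction (Steps 1-6 of `S17/D/Setup` for an arbitrary profile): `w k` are the primes of the
points `E k`; `v` extends `1` to a linearly independent family of `m + 1` elements of `L(B)`,
`m = μ₀ + ∑ μ k - g`; `b₁` has order `μ k` at `w k`; `r j = b₁ * v j` lies in the model;
`τ k` is the Taylor expansion at `w k` with respect to a uniformiser `π k` of the model; `τL` is
the Laurent expansion at `Q₀` with respect to a uniformiser `ϖ`, and `ω j` the Taylor expansion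
of `ϖ ^ μ₀ * v j` at `Q₀`.
-/

set_option autoImplicit false

open AlgebraicCurve IsDedekindDomain

namespace Fermat.Agent.S27.C.SetupData

open Fermat.Agent.S17.D
open Fermat.Agent.S27.C.SetupDef

variable {K F : Type*} [Field K] [Field F] [Algebra K F]

/-- The coefficients of the constant divisor `B = ∑ μ k • E k + μ₀ • Q₀` of a profile. -/
theorem divisor_apply (μ₀ : ℕ) (Q₀ : Place K F) {g : ℕ} (E : Fin g → Place K F) (μ : Fin g → ℕ)
    (P : Place K F) [DecidableEq (Place K F)] :
    (∑ k, Finsupp.single (E k) (μ k : ℤ) + Finsupp.single Q₀ (μ₀ : ℤ) : Divisor K F) P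
      = (∑ k, if E k = P then (μ k : ℤ) else 0) + (if Q₀ = P then (μ₀ : ℤ) else 0) := by
  classical
  rw [Finsupp.add_apply, Finsupp.finsetSum_apply]
  simp only [Finsupp.single_apply]

variable [IsAlgClosed K] [CharZero K] [Algebra.EssFiniteType K F]
variable {R : Type*} [CommRing R] [IsDedekindDomain R] [Algebra R F] [IsFractionRing R F]
  [Algebra K R] [IsScalarTower K R F]

/-- The data of a multiplicity profile exist. -/
theorem nonempty_pdata (htr : Algebra.trdeg K F = 1) (μ₀ : ℕ) (Q₀ : Place K F) {g : ℕ}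
    (E : Fin g → Place K F) (μ : Fin g → ℕ)
    (hR : ∀ v : Place K F, v ≠ Q₀ ↔
        ∃ w : HeightOneSpectrum R, Place.ofHeightOneSpectrum (K := K) (F := F) w = v)
    (hE_inj : Function.Injective E) (hEQ : ∀ k, E k ≠ Q₀)
    (hg : g ≤ μ₀ + ∑ k, μ k)
    (hdim : μ₀ + ∑ k, μ k + 1 ≤ Module.finrank K
      ↥(riemannRochSpace (∑ k, Finsupp.single (E k) (μ k : ℤ) + Finsupp.single Q₀ (μ₀ : ℤ)))
        + g) :
    Nonempty (PData (K := K) (F := F) R μ₀ Q₀ E μ) := by
  classical
  -- the constant divisor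
  have hB := fun P : Place K F => divisor_apply μ₀ Q₀ E μ P
  have hBE : ∀ k, (∑ k, Finsupp.single (E k) (μ k : ℤ) + Finsupp.single Q₀ (μ₀ : ℤ) :
      Divisor K F) (E k) = μ k := by
    intro k
    rw [hB, if_neg (fun h => hEQ k h.symm), add_zero,
      Finset.sum_eq_single k (fun k' _ hk' => if_neg fun h => hk' (hE_inj h))
        (fun h => absurd (Finset.mem_univ k) h), if_pos rfl]
  have hBQ : (∑ k, Finsupp.single (E k) (μ k : ℤ) + Finsupp.single Q₀ (μ₀ : ℤ) :
      Divisor K F) Q₀ = μ₀ := by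
    rw [hB, if_pos rfl, Finset.sum_eq_zero (fun k _ => if_neg (hEQ k)), zero_add]
  have hBoff : ∀ P : Place K F, (∀ k, E k ≠ P) → P ≠ Q₀ →
      (∑ k, Finsupp.single (E k) (μ k : ℤ) + Finsupp.single Q₀ (μ₀ : ℤ) : Divisor K F) P = 0 := by
    intro P hP hPQ
    rw [hB, if_neg (fun h => hPQ h.symm), Finset.sum_eq_zero (fun k _ => if_neg (hP k)), zero_add]
  have hBnn : ∀ P : Place K F, 0 ≤
      (∑ k, Finsupp.single (E k) (μ k : ℤ) + Finsupp.single Q₀ (μ₀ : ℤ) : Divisor K F) P := by
    intro P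
    rw [hB]
    refine add_nonneg (Finset.sum_nonneg fun k _ => ?_) ?_
    · split_ifs
      · exact Int.natCast_nonneg _
      · exact le_rfl
    · split_ifs
      · exact Int.natCast_nonneg _
      · exact le_rfl
  -- Step 1: the primes of the points `E k`
  choose w hw using fun k : Fin g => (hR _).mp (hEQ k)
  have hw_inj : Function.Injective w := fun k k' h => hE_inj (by rw [← hw k, ← hw k', h])
  have hw_ne : ∀ w' : HeightOneSpectrum R,
      Place.ofHeightOneSpectrum (K := K) (F := F) w' ≠ Q₀ := fun w' => (hR _).mpr ⟨w', rfl⟩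
  have hreg : ∀ (w' : HeightOneSpectrum R) (b : R),
      0 ≤ (Place.ofHeightOneSpectrum (K := K) (F := F) w').ord (algebraMap R F b) := fun w' b =>
    Fermat.Agent.S24.FF.ord_nonneg_of_mem _ (Model.toValuationSubring (K := K) (F := F) w' b).2
  have hinjR : Function.Injective (algebraMap R F) := IsFractionRing.injective R F
  -- Step 2: the independent family in `L(B)`
  have h1Λ : (1 : F) ∈ riemannRochSpace
      (∑ k, Finsupp.single (E k) (μ k : ℤ) + Finsupp.single Q₀ (μ₀ : ℤ)) := by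
    rw [mem_riemannRochSpace_iff]
    intro P
    right
    rw [Place.ord_one]
    have := hBnn P
    omega
  obtain ⟨v', hv'0, hv'ind⟩ := exists_linearIndependent_zero_eq (K := K)
    (⟨1, h1Λ⟩ : ↥(riemannRochSpace
      (∑ k, Finsupp.single (E k) (μ k : ℤ) + Finsupp.single Q₀ (μ₀ : ℤ))))
    (fun h => one_ne_zero (congrArg Subtype.val h)) (μ₀ + ∑ k, μ k - g) (by omega)
  have hv0 : (v' 0 : F) = 1 := by rw [hv'0]
  have hvind : LinearIndependent K (fun j => (v' j : F)) :=
    hv'ind.map' (Submodule.subtype _) (Submodule.ker_subtype _)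
  have hv_mem : ∀ j, (v' j : F) ∈ riemannRochSpace
      (∑ k, Finsupp.single (E k) (μ k : ℤ) + Finsupp.single Q₀ (μ₀ : ℤ)) := fun j => (v' j).2
  -- Step 3: the multiplier
  obtain ⟨b₁, hb₁0, hb₁⟩ := Model.exists_ord_eq (K := K) (F := F) (Finset.univ.image w)
    (fun w' => if h : ∃ k, w k = w' then μ h.choose else 0)
  have hb₁w : ∀ k, (Place.ofHeightOneSpectrum (K := K) (F := F) (w k)).ord (algebraMap R F b₁)
      = μ k := by
    intro k
    have hex : ∃ k', w k' = w k := ⟨k, rfl⟩
    rw [hb₁ (w k) (Finset.mem_image_of_mem w (Finset.mem_univ k)), dif_pos hex,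
      hw_inj hex.choose_spec]
  have hb₁F : algebraMap R F b₁ ≠ 0 := fun h => hb₁0 (hinjR (h.trans (map_zero _).symm))
  -- Step 4: the numerators
  have hregv : ∀ j, ∀ w' : HeightOneSpectrum R,
      0 ≤ (Place.ofHeightOneSpectrum (K := K) (F := F) w').ord
        (algebraMap R F b₁ * (v' j : F)) := by
    intro j w'
    rcases eq_or_ne (v' j : F) 0 with h0 | h0
    · rw [h0, mul_zero, Place.ord_zero]
    rw [Place.ord_mul _ hb₁F h0]
    have h1 := (mem_riemannRochSpace_iff.mp (hv_mem j))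
      (Place.ofHeightOneSpectrum (K := K) (F := F) w')
    rcases h1 with h1 | h1
    · exact absurd h1 h0
    by_cases hmem : ∃ k, E k = Place.ofHeightOneSpectrum (K := K) (F := F) w'
    · obtain ⟨k, hk⟩ := hmem
      have hwk : w k = w' :=
        Fermat.Agent.S24.FF.ofHeightOneSpectrum_injective (K := K) (F := F) ((hw k).trans hk)
      subst hwk
      have hBk : (∑ k, Finsupp.single (E k) (μ k : ℤ) + Finsupp.single Q₀ (μ₀ : ℤ) :
          Divisor K F) (Place.ofHeightOneSpectrum (K := K) (F := F) (w k)) = μ k := by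
        rw [hw k]
        exact hBE k
      rw [hBk] at h1
      have h2 := hb₁w k
      omega
    · rw [hBoff _ (fun k h => hmem ⟨k, h⟩) (hw_ne w')] at h1
      have h2 := hreg w' b₁
      omega
  choose r hr using fun j => Model.exists_eq_algebraMap_of_ord_nonneg (K := K) (F := F) (R := R)
    (algebraMap R F b₁ * (v' j : F)) (hregv j)
  -- Step 5: uniformisers and Taylor maps at the points `E k`
  choose π hπ0 hπ using fun k : Fin g =>
    Model.exists_ord_eq (K := K) (F := F) ({w k} : Finset (HeightOneSpectrum R)) (fun _ => 1)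
  have hπ1 : ∀ k, (Place.ofHeightOneSpectrum (K := K) (F := F) (w k)).ord
      (algebraMap R F (π k)) = 1 := fun k => by
    have h := hπ k (w k) (Finset.mem_singleton_self _)
    simpa using h
  let τ : Fin g → (R →ₐ[K] PowerSeries K) := fun k =>
    (Taylor.taylor htr (Place.ofHeightOneSpectrum (K := K) (F := F) (w k))
      (algebraMap R F (π k)) (hπ1 k)).comp (Model.toValuationSubring (K := K) (F := F) (w k))
  have hτπ : ∀ k, τ k (π k) = PowerSeries.X := fun k =>
    Taylor.taylor_unif htr _ _ (hπ1 k) _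
  have hτdvd : ∀ k (b : R) (d : ℕ), b ≠ 0 → (PowerSeries.X ^ d ∣ τ k b ↔
      (d : ℤ) ≤ (Place.ofHeightOneSpectrum (K := K) (F := F) (w k)).ord (algebraMap R F b)) := by
    intro k b d hb
    have hbF : algebraMap R F b ≠ 0 := fun h => hb (hinjR (h.trans (map_zero _).symm))
    have h := Taylor.X_pow_dvd_taylor_iff htr
      (Place.ofHeightOneSpectrum (K := K) (F := F) (w k)) (algebraMap R F (π k)) (hπ1 k)
      (Model.toValuationSubring (K := K) (F := F) (w k) b) d
    rw [Model.coe_toValuationSubring] at h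
    exact h.trans (or_iff_right hbF)
  -- Step 6: the Laurent expansion at `Q₀`
  obtain ⟨ϖ, hϖ⟩ := IsDiscreteValuationRing.exists_irreducible Q₀.toValuationSubring
  have hϖ1 : Q₀.ord (ϖ : F) = 1 := Q₀.ord_coe_irreducible hϖ
  have hϖ0 : (ϖ : F) ≠ 0 := Taylor.unif_ne_zero Q₀ hϖ1
  have hmemω : ∀ j, (ϖ : F) ^ μ₀ * (v' j : F) ∈ Q₀.toValuationSubring := by
    intro j
    rcases eq_or_ne (v' j : F) 0 with h0 | h0
    · rw [h0, mul_zero]
      exact zero_mem _
    · have hp0 : (ϖ : F) ^ μ₀ ≠ 0 := pow_ne_zero _ hϖ0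
      rw [← Fermat.Agent.S24.FF.ord_nonneg_iff Q₀ (mul_ne_zero hp0 h0), Q₀.ord_mul hp0 h0,
        Taylor.ord_unif_pow Q₀ hϖ1 μ₀]
      rcases (mem_riemannRochSpace_iff.mp (hv_mem j)) Q₀ with h1 | h1
      · exact absurd h1 h0
      · rw [hBQ] at h1
        omega
  exact ⟨{
    m := μ₀ + ∑ k, μ k - g
    m_eq := Nat.sub_add_cancel hg
    w := w
    w_spec := hw
    v := fun j => (v' j : F)
    v_zero := hv0
    v_indep := hvind
    v_mem := hv_mem
    b₁ := b₁
    b₁_ne := hb₁0
    ord_b₁ := hb₁w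
    r := r
    r_spec := hr
    π := π
    τ := τ
    τ_π := hτπ
    τ_dvd := hτdvd
    ϖ := (ϖ : F)
    ord_ϖ := hϖ1
    τL := TaylorL.taylorL htr Q₀ (ϖ : F) hϖ1
    τL_ϖ := TaylorL.taylorL_unif htr Q₀ (ϖ : F) hϖ1
    order_τL := fun f hf => TaylorL.order_taylorL htr Q₀ (ϖ : F) hϖ1 hf
    ω := fun j => Taylor.taylor htr Q₀ (ϖ : F) hϖ1 ⟨(ϖ : F) ^ μ₀ * (v' j : F), hmemω j⟩
    ω_spec := fun j => TaylorL.taylorL_of_mem htr Q₀ (ϖ : F) hϖ1 (hmemω j) }⟩

end Fermat.Agent.S27.C.SetupData
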