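import Mathlib
import Fermat.Agent.S27.C.SetupDef
import Fermat.Agent.S17.D.Taylor
import Fermat.Agent.S17.D.TaylorL

/-!
# Program PJ (statement S27), strand C: the non-degeneracy of a profile datum

Lemmas on a `PData R μ₀ Q₀ E μ` alone (no formal solution): with `β k j = s.τ k (s.r j)` and
`s.ω j` the expansions of the functions at the moving base points and at the parameter base
point,

* `r_zero`, `coeff_β_zero`, `coeff_β_mu`, `ω_zero`, `coeff_ω_zero`, `coeff_ω_mu` : the base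
  point `c = (1, 0, …, 0)`, `u = 0` solves the formal system modulo `X`, with exact orders;
* `mem_L_of_coeff` : for `a : Fin g → ℕ`, `a₀ : ℕ` and a vector `x : Fin (m + 1) → K`, if the
  coefficients of `∑ x j • β k j` of index `i`, `i + a k < μ k`, vanish for every `k`, and the
  coefficients of `∑ x j • ω j` of index `i`, `i + a₀ < μ₀`, vanish, then
  `∑ x j • v j ∈ L(∑ a k • E k + a₀ • Q₀)`;
* `nondeg` : hence `x = 0` if moreover `x 0 = 0` and that space is `K` (finrank `1`);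
* `nondeg_base` : the instance `a = 1`, `a₀ = 0`: the hypothesis `hnd` of
  `S27/C/FormalProfile` from `l(∑ E k) = 1`;
* `nondeg_other` : the instance `a = 1` off `z₀`, `a z₀ = 0`, `a₀ = 1`: the non-degeneracy of
  "the other `g` points" (the tangent argument) from `l(∑_{k ≠ z₀} E k + Q₀) = 1`.
-/

set_option autoImplicit false

open AlgebraicCurve IsDedekindDomain

namespace Fermat.Agent.S27.C.SetupNondeg

open Fermat.Agent.S27.C.SetupDef (PData)
open Fermat.Agent.S17.D (Taylor.ord_unif_pow Taylor.unif_ne_zero)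

section Divisor

variable {K F : Type*} [Field K] [Field F] [Algebra K F]

/-- The coefficient of `∑ k, a k • E k` at a point `E k₀` (distinct points). -/
theorem sum_single_apply_self {g : ℕ} (E : Fin g → Place K F) (hE : Function.Injective E)
    (a : Fin g → ℤ) (k₀ : Fin g) : (∑ k, Finsupp.single (E k) (a k)) (E k₀) = a k₀ := by
  classical
  rw [Finsupp.finsetSum_apply]
  rw [Finset.sum_eq_single k₀]
  · rw [Finsupp.single_eq_same]
  · intro k _ hk
    rw [Finsupp.single_apply, if_neg (fun h => hk (hE h))]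
  · intro h
    exact absurd (Finset.mem_univ k₀) h

/-- The coefficient of `∑ k, a k • E k` at a point off the `E k`. -/
theorem sum_single_apply_of_ne {g : ℕ} (E : Fin g → Place K F) (a : Fin g → ℤ) (P : Place K F)
    (hP : ∀ k, E k ≠ P) : (∑ k, Finsupp.single (E k) (a k)) P = 0 := by
  classical
  rw [Finsupp.finsetSum_apply]
  refine Finset.sum_eq_zero fun k _ => ?_
  rw [Finsupp.single_apply, if_neg (hP k)]

end Divisor

section Data

variable {K F : Type*} [Field K] [Field F] [Algebra K F]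
variable {R : Type*} [CommRing R] [IsDedekindDomain R] [Algebra R F] [IsFractionRing R F]
  [Algebra K R] [IsScalarTower K R F]
variable {μ₀ : ℕ} {Q₀ : Place K F} {g : ℕ} {E : Fin g → Place K F} {μ : Fin g → ℕ}

/-- The numerator of `v 0 = 1` is the multiplier. -/
theorem r_zero (s : PData (K := K) (F := F) R μ₀ Q₀ E μ) : s.r 0 = s.b₁ :=
  IsFractionRing.injective R F (by rw [s.r_spec 0, s.v_zero, mul_one])

/-- `β k 0` vanishes to order `μ k`. -/
theorem coeff_β_zero (s : PData (K := K) (F := F) R μ₀ Q₀ E μ) (k : Fin g) (i : ℕ)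
    (hi : i < μ k) : PowerSeries.coeff i (s.τ k (s.r 0)) = 0 := by
  rw [r_zero]
  have hdvd : PowerSeries.X ^ μ k ∣ s.τ k s.b₁ :=
    (s.τ_dvd k s.b₁ (μ k) s.b₁_ne).mpr (by rw [s.ord_b₁ k])
  exact PowerSeries.X_pow_dvd_iff.mp hdvd i hi

/-- `β k 0` vanishes to order exactly `μ k`. -/
theorem coeff_β_mu (s : PData (K := K) (F := F) R μ₀ Q₀ E μ) (k : Fin g) :
    PowerSeries.coeff (μ k) (s.τ k (s.r 0)) ≠ 0 := by
  intro h0
  have hdvd : PowerSeries.X ^ (μ k + 1) ∣ s.τ k s.b₁ := by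
    rw [PowerSeries.X_pow_dvd_iff]
    intro i hi
    rcases Nat.lt_succ_iff_lt_or_eq.mp hi with h | h
    · have := coeff_β_zero s k i h
      rwa [r_zero] at this
    · rw [h, ← r_zero]; exact h0
  have h1 := (s.τ_dvd k s.b₁ (μ k + 1) s.b₁_ne).mp hdvd
  rw [s.ord_b₁ k] at h1
  push_cast at h1
  omega

/-- The expansion of `ϖ ^ μ₀ * v 0` at the parameter base point is `X ^ μ₀`. -/
theorem ω_zero (s : PData (K := K) (F := F) R μ₀ Q₀ E μ) : s.ω 0 = PowerSeries.X ^ μ₀ := by
  apply HahnSeries.ofPowerSeries_injective (Γ := ℤ)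
  rw [← s.ω_spec 0, s.v_zero, mul_one, map_pow, s.τL_ϖ, map_pow, HahnSeries.ofPowerSeries_X]

theorem coeff_ω_zero (s : PData (K := K) (F := F) R μ₀ Q₀ E μ) (i : ℕ) (hi : i < μ₀) :
    PowerSeries.coeff i (s.ω 0) = 0 := by
  rw [ω_zero, PowerSeries.coeff_X_pow, if_neg (Nat.ne_of_lt hi)]

theorem coeff_ω_mu (s : PData (K := K) (F := F) R μ₀ Q₀ E μ) :
    PowerSeries.coeff μ₀ (s.ω 0) = 1 := by
  rw [ω_zero, PowerSeries.coeff_X_pow, if_pos rfl]

/-- `b₁ * ∑ x j • v j` is the image of `∑ x j • r j`. -/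
theorem algebraMap_sum_r (s : PData (K := K) (F := F) R μ₀ Q₀ E μ) (x : Fin (s.m + 1) → K) :
    algebraMap R F (∑ j, x j • s.r j) = algebraMap R F s.b₁ * ∑ j, x j • s.v j := by
  rw [map_sum, Finset.mul_sum]
  refine Finset.sum_congr rfl fun j _ => ?_
  rw [Algebra.smul_def, map_mul, ← IsScalarTower.algebraMap_apply K R F, s.r_spec j,
    Algebra.smul_def]
  ring

/-- The expansion of `ϖ ^ μ₀ * ∑ x j • v j` at the parameter base point is `∑ x j • ω j`. -/
theorem τL_sum_v (s : PData (K := K) (F := F) R μ₀ Q₀ E μ) (x : Fin (s.m + 1) → K) :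
    s.τL (s.ϖ ^ μ₀ * ∑ j, x j • s.v j) = HahnSeries.ofPowerSeries ℤ K (∑ j, x j • s.ω j) := by
  rw [Finset.mul_sum, map_sum, map_sum]
  refine Finset.sum_congr rfl fun j _ => ?_
  rw [mul_smul_comm, Algebra.smul_def, map_mul, AlgHom.commutes, s.ω_spec j,
    PowerSeries.smul_eq_C_mul, map_mul]
  rfl

/-- **The general non-degeneracy, membership form.** -/
theorem mem_L_of_coeff (s : PData (K := K) (F := F) R μ₀ Q₀ E μ) (hE : Function.Injective E)
    (hEQ : ∀ k, E k ≠ Q₀) (a : Fin g → ℕ) (a₀ : ℕ) (x : Fin (s.m + 1) → K)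
    (hβ : ∀ k, ∀ i, i + a k < μ k → PowerSeries.coeff i (∑ j, x j • s.τ k (s.r j)) = 0)
    (hω : ∀ i, i + a₀ < μ₀ → PowerSeries.coeff i (∑ j, x j • s.ω j) = 0) :
    ∑ j, x j • s.v j ∈ riemannRochSpace
      (∑ k, Finsupp.single (E k) (a k : ℤ) + Finsupp.single Q₀ (a₀ : ℤ)) := by
  classical
  have hfB : ∑ j, x j • s.v j ∈ riemannRochSpace
      (∑ k, Finsupp.single (E k) (μ k : ℤ) + Finsupp.single Q₀ (μ₀ : ℤ)) :=
    Submodule.sum_mem _ fun j _ => Submodule.smul_mem _ _ (s.v_mem j)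
  rw [mem_riemannRochSpace_iff]
  intro P
  by_cases hf0 : ∑ j, x j • s.v j = 0
  · exact Or.inl hf0
  right
  have hinjR : Function.Injective (algebraMap R F) := IsFractionRing.injective R F
  have hb₁F : algebraMap R F s.b₁ ≠ 0 := fun h => s.b₁_ne (hinjR (h.trans (map_zero _).symm))
  by_cases hPE : ∃ k, E k = P
  · -- a moving base point
    obtain ⟨k, rfl⟩ := hPE
    rw [Finsupp.add_apply, sum_single_apply_self E hE, Finsupp.single_apply, if_neg (hEQ k).symm,
      add_zero]
    have hy := algebraMap_sum_r s x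
    have hy0 : ∑ j, x j • s.r j ≠ 0 := by
      intro h
      rw [h, map_zero] at hy
      exact (mul_ne_zero hb₁F hf0) hy.symm
    have hτy : s.τ k (∑ j, x j • s.r j) = ∑ j, x j • s.τ k (s.r j) := by
      rw [map_sum]
      exact Finset.sum_congr rfl fun j _ => map_smul _ _ _
    have hdvd : PowerSeries.X ^ (μ k - a k) ∣ s.τ k (∑ j, x j • s.r j) := by
      rw [PowerSeries.X_pow_dvd_iff, hτy]
      intro i hi
      exact hβ k i (by omega)
    have h1 := (s.τ_dvd k _ (μ k - a k) hy0).mp hdvd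
    rw [hy, s.w_spec k, Place.ord_mul _ hb₁F hf0, ← s.w_spec k, s.ord_b₁ k, s.w_spec k] at h1
    have h2 := (mem_riemannRochSpace_iff.mp hfB) (E k)
    rcases h2 with h2 | h2
    · exact absurd h2 hf0
    rw [Finsupp.add_apply, sum_single_apply_self E hE, Finsupp.single_apply,
      if_neg (hEQ k).symm, add_zero] at h2
    omega
  · rw [not_exists] at hPE
    rw [Finsupp.add_apply, sum_single_apply_of_ne E _ P hPE, zero_add]
    by_cases hPQ : P = Q₀
    · -- the parameter base point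
      subst hPQ
      rw [Finsupp.single_eq_same]
      have hϖ0 : s.ϖ ≠ 0 := Taylor.unif_ne_zero P s.ord_ϖ
      have hne : s.ϖ ^ μ₀ * ∑ j, x j • s.v j ≠ 0 := mul_ne_zero (pow_ne_zero _ hϖ0) hf0
      have hΩ := τL_sum_v s x
      have hΩ0 : ∑ j, x j • s.ω j ≠ 0 := by
        intro h
        rw [h, map_zero] at hΩ
        exact hne ((map_eq_zero_iff _ s.τL.toRingHom.injective).mp hΩ)
      have hord := s.order_τL _ hne
      rw [hΩ, Fermat.Agent.S17.D.TaylorL.order_ofPowerSeries _ hΩ0,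
        Place.ord_mul _ (pow_ne_zero _ hϖ0) hf0, Taylor.ord_unif_pow P s.ord_ϖ] at hord
      have hle : ((μ₀ - a₀ : ℕ) : ℕ∞) ≤ (∑ j, x j • s.ω j).order := by
        apply PowerSeries.nat_le_order
        intro i hi
        exact hω i (by omega)
      have hle' : μ₀ - a₀ ≤ (∑ j, x j • s.ω j).order.toNat := by
        have h3 := ENat.toNat_le_toNat hle (PowerSeries.order_finite_iff_ne_zero.mpr hΩ0).ne
        rwa [ENat.toNat_natCast] at h3
      have h2 := (mem_riemannRochSpace_iff.mp hfB) P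
      rcases h2 with h2 | h2
      · exact absurd h2 hf0
      rw [Finsupp.add_apply, sum_single_apply_of_ne E _ P hPE, zero_add,
        Finsupp.single_eq_same] at h2
      omega
    · -- any other place
      rw [Finsupp.single_apply, if_neg (Ne.symm hPQ)]
      have h2 := (mem_riemannRochSpace_iff.mp hfB) P
      rcases h2 with h2 | h2
      · exact absurd h2 hf0
      rw [Finsupp.add_apply, sum_single_apply_of_ne E _ P hPE, zero_add, Finsupp.single_apply,
        if_neg (Ne.symm hPQ)] at h2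
      exact h2

/-- **The general non-degeneracy.** -/
theorem nondeg (s : PData (K := K) (F := F) R μ₀ Q₀ E μ) (hE : Function.Injective E)
    (hEQ : ∀ k, E k ≠ Q₀) (a : Fin g → ℕ) (a₀ : ℕ)
    (hfin : Module.finrank K ↥(riemannRochSpace
      (∑ k, Finsupp.single (E k) (a k : ℤ) + Finsupp.single Q₀ (a₀ : ℤ))) = 1)
    (x : Fin (s.m + 1) → K) (hx0 : x 0 = 0)
    (hβ : ∀ k, ∀ i, i + a k < μ k → PowerSeries.coeff i (∑ j, x j • s.τ k (s.r j)) = 0)
    (hω : ∀ i, i + a₀ < μ₀ → PowerSeries.coeff i (∑ j, x j • s.ω j) = 0) : x = 0 := by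
  classical
  have hf := mem_L_of_coeff s hE hEQ a a₀ x hβ hω
  -- `1` is a section
  have h1D : (1 : F) ∈ riemannRochSpace
      (∑ k, Finsupp.single (E k) (a k : ℤ) + Finsupp.single Q₀ (a₀ : ℤ)) := by
    rw [mem_riemannRochSpace_iff]
    intro P
    right
    rw [Place.ord_one, Finsupp.add_apply, Finsupp.finsetSum_apply]
    have h1 : (0 : ℤ) ≤ ∑ k, (Finsupp.single (E k) (a k : ℤ)) P := by
      refine Finset.sum_nonneg fun k _ => ?_
      rw [Finsupp.single_apply]
      split_ifs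
      · exact Int.natCast_nonneg _
      · exact le_refl _
    have h2 : (0 : ℤ) ≤ (Finsupp.single Q₀ (a₀ : ℤ)) P := by
      rw [Finsupp.single_apply]
      split_ifs
      · exact Int.natCast_nonneg _
      · exact le_refl _
    omega
  obtain ⟨b, hb⟩ := (finrank_eq_one_iff_of_nonzero'
    (⟨1, h1D⟩ : ↥(riemannRochSpace
      (∑ k, Finsupp.single (E k) (a k : ℤ) + Finsupp.single Q₀ (a₀ : ℤ))))
    (fun h => one_ne_zero (congrArg Subtype.val h))).mp hfin ⟨_, hf⟩
  have hb' : b • (1 : F) = ∑ j, x j • s.v j := congrArg Subtype.val hb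
  have hrel : ∑ j, (x j - if j = 0 then b else 0) • s.v j = 0 := by
    simp only [sub_smul, Finset.sum_sub_distrib, ite_smul, zero_smul]
    rw [Finset.sum_ite_eq' Finset.univ (0 : Fin (s.m + 1)) (fun j => b • s.v j),
      if_pos (Finset.mem_univ _), s.v_zero, hb', sub_self]
  have hzero := Fintype.linearIndependent_iff.mp s.v_indep _ hrel
  funext j
  by_cases hj : j = 0
  · rw [hj]; exact hx0
  · have h := hzero j
    rw [if_neg hj, sub_zero] at h
    exact h

/-- **`hnd` of `S27/C/FormalProfile`** from `l(∑ E k) = 1`. -/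
theorem nondeg_base (s : PData (K := K) (F := F) R μ₀ Q₀ E μ) (hE : Function.Injective E)
    (hEQ : ∀ k, E k ≠ Q₀)
    (hfin : Module.finrank K ↥(riemannRochSpace (∑ k, Finsupp.single (E k) (1 : ℤ))) = 1)
    (x : Fin (s.m + 1) → K) (hx0 : x 0 = 0)
    (hβ : ∀ k, ∀ i, i + 1 < μ k → PowerSeries.coeff i (∑ j, x j • s.τ k (s.r j)) = 0)
    (hω : ∀ i < μ₀, PowerSeries.coeff i (∑ j, x j • s.ω j) = 0) : x = 0 := by
  refine nondeg s hE hEQ (fun _ => 1) 0 ?_ x hx0 hβ (fun i hi => hω i (by omega))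
  have hD : (∑ k, Finsupp.single (E k) (((1 : ℕ) : ℤ)) + Finsupp.single Q₀ (((0 : ℕ) : ℤ)) :
      Divisor K F) = ∑ k, Finsupp.single (E k) (1 : ℤ) := by
    simp
  rw [hD]
  exact hfin

/-- **The non-degeneracy of the other `g` points** (all moving points but `z₀`, and the
parameter point, with at most simple poles) from `l(∑_{k ≠ z₀} E k + Q₀) = 1`. -/
theorem nondeg_other (s : PData (K := K) (F := F) R μ₀ Q₀ E μ) (hE : Function.Injective E)
    (hEQ : ∀ k, E k ≠ Q₀) (z₀ : Fin g)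
    (hfin : Module.finrank K ↥(riemannRochSpace
      (∑ k, Finsupp.single (E k) (if k = z₀ then (0 : ℤ) else 1) + Finsupp.single Q₀ (1 : ℤ))) = 1)
    (x : Fin (s.m + 1) → K) (hx0 : x 0 = 0)
    (hβ : ∀ k, k ≠ z₀ → ∀ i, i + 1 < μ k → PowerSeries.coeff i (∑ j, x j • s.τ k (s.r j)) = 0)
    (hβ₀ : ∀ i < μ z₀, PowerSeries.coeff i (∑ j, x j • s.τ z₀ (s.r j)) = 0)
    (hω : ∀ i, i + 1 < μ₀ → PowerSeries.coeff i (∑ j, x j • s.ω j) = 0) : x = 0 := by
  classical
  refine nondeg s hE hEQ (fun k => if k = z₀ then 0 else 1) 1 ?_ x hx0 ?_ hω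
  · have hD : (∑ k, Finsupp.single (E k) (((if k = z₀ then 0 else 1 : ℕ) : ℤ)) +
        Finsupp.single Q₀ (((1 : ℕ) : ℤ)) : Divisor K F)
        = ∑ k, Finsupp.single (E k) (if k = z₀ then (0 : ℤ) else 1) + Finsupp.single Q₀ (1 : ℤ) := by
      congr 1
      refine Finset.sum_congr rfl fun k _ => ?_
      by_cases hk : k = z₀ <;> simp [hk]
    rw [hD]
    exact hfin
  · intro k i hi
    by_cases hk : k = z₀
    · subst hk
      rw [if_pos rfl, add_zero] at hi
      exact hβ₀ i hi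
    · rw [if_neg hk] at hi
      exact hβ k hk i hi

end Data

end Fermat.Agent.S27.C.SetupNondeg
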