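import Mathlib
import Fermat.Agent.S27.C.UniqIso

/-!
# Program PJ (statement S27), strand C, leaf C7 (uniqueness): equal expansions at two places of
one configuration field give equal places

`M / K` a function field of one variable carrying embeddings `ρ z : F →ₐ[K] M` (`z : ι`) which
generate it over `K`.  Let `w`, `w'` be two places of `M` with uniformisers `ϖ`, `ϖ'` such that
for every `z` the embedding `ρ z` has the same centre `T z` on `F` at `w` and at `w'`, and the
same expansion of a uniformiser `t z` at `T z`: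
`tay w ϖ (ρ z (t z)) = tay w' ϖ' (ρ z (t z))`.  Then

* `taylorLR_eq` : the Laurent expansions `taylorLR w ϖ` and `taylorLR w' ϖ'` are EQUAL on `M`;
* `place_eq` : `w = w'`.

This is the `hinj` exit of the abstract assembly of strand G (`G/Asm.exists_curves`): in one
generated configuration a good ORDERED tuple determines the place (the twin of
`UniqIso.exists_algEquiv`, which gives `huni`).
-/

set_option autoImplicit false

open AlgebraicCurve

namespace Fermat.Agent.S27.C.UniqPlace

open Fermat.Agent.S17 Fermat.Agent.S17.D Fermat.Agent.S17.HB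

variable {K F M : Type*} [Field K] [Field F] [Algebra K F] [Field M] [Algebra K M]
variable [IsAlgClosed K] [CharZero K] [Algebra.EssFiniteType K F] [Algebra.EssFiniteType K M]

/-- Two places of one generated configuration field at which every embedding has the same centre
and the same expansion of a uniformiser: the two Laurent expansions of `M` coincide. -/
theorem taylorLR_eq (htr : Algebra.trdeg K F = 1) (htrM : Algebra.trdeg K M = 1) {ι : Type*}
    (ρ : ι → (F →ₐ[K] M)) (w w' : Place K M) (T : ι → Place K F)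
    (hT : ∀ z, Loc3.IsCentre (ρ z) w (T z)) (hT' : ∀ z, Loc3.IsCentre (ρ z) w' (T z))
    (t : ι → F) (ht : ∀ z, (T z).ord (t z) = 1)
    (ϖ : M) (hϖ : w.ord ϖ = 1) (ϖ' : M) (hϖ' : w'.ord ϖ' = 1)
    (heq : ∀ z, Loc3.tay htrM w ϖ hϖ (ρ z (t z)) = Loc3.tay htrM w' ϖ' hϖ' (ρ z (t z)))
    (hgen : IntermediateField.adjoin K (⋃ z, Set.range (ρ z)) = ⊤) (x : M) :
    TaylorL.taylorLR htrM w ϖ hϖ x = TaylorL.taylorLR htrM w' ϖ' hϖ' x := by
  have hcomp : ∀ z f, TaylorL.taylorLR htrM w ϖ hϖ (ρ z f) =
      TaylorL.taylorLR htrM w' ϖ' hϖ' (ρ z f) := fun z f =>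
    UniqIso.taylorLR_comp_eq htr htrM htrM (hT z) (hT' z) (t z) (ht z) ϖ hϖ ϖ' hϖ' (heq z) f
  have hx : x ∈ IntermediateField.adjoin K (⋃ z, Set.range (ρ z)) := by
    rw [hgen]
    exact IntermediateField.mem_top
  induction hx using IntermediateField.adjoin_induction with
  | mem y hy =>
    obtain ⟨z, hz⟩ := Set.mem_iUnion.mp hy
    obtain ⟨f, rfl⟩ := hz
    exact hcomp z f
  | algebraMap c => rw [AlgHom.commutes, AlgHom.commutes]
  | add x y _ _ hx hy => rw [map_add, map_add, hx, hy]
  | inv x _ hx => rw [map_inv₀, map_inv₀, hx]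
  | mul x y _ _ hx hy => rw [map_mul, map_mul, hx, hy]

/-- **(U) inside one configuration.**  Two places of one generated configuration field at which
every embedding has the same centre and the same expansion of a uniformiser are equal. -/
theorem place_eq (htr : Algebra.trdeg K F = 1) (htrM : Algebra.trdeg K M = 1) {ι : Type*}
    (ρ : ι → (F →ₐ[K] M)) (w w' : Place K M) (T : ι → Place K F)
    (hT : ∀ z, Loc3.IsCentre (ρ z) w (T z)) (hT' : ∀ z, Loc3.IsCentre (ρ z) w' (T z))
    (t : ι → F) (ht : ∀ z, (T z).ord (t z) = 1)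
    (ϖ : M) (hϖ : w.ord ϖ = 1) (ϖ' : M) (hϖ' : w'.ord ϖ' = 1)
    (heq : ∀ z, Loc3.tay htrM w ϖ hϖ (ρ z (t z)) = Loc3.tay htrM w' ϖ' hϖ' (ρ z (t z)))
    (hgen : IntermediateField.adjoin K (⋃ z, Set.range (ρ z)) = ⊤) : w = w' := by
  have hE := taylorLR_eq htr htrM ρ w w' T hT hT' t ht ϖ hϖ ϖ' hϖ' heq hgen
  have hord : ∀ x : M, x ≠ 0 → w.ord x = w'.ord x := by
    intro x hx
    rw [← TaylorL.order_taylorLR htrM w ϖ hϖ hx, ← TaylorL.order_taylorLR htrM w' ϖ' hϖ' hx,
      hE x]
  apply Place.ext
  ext x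
  by_cases hx : x = 0
  · rw [hx]
    exact ⟨fun _ => zero_mem _, fun _ => zero_mem _⟩
  · rw [← Fermat.Agent.S24.FF.ord_nonneg_iff w hx, ← Fermat.Agent.S24.FF.ord_nonneg_iff w' hx,
      hord x hx]

end Fermat.Agent.S27.C.UniqPlace
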